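import Mathlib

/-!
# Project LP (S44), module PL-ABS: the commutative algebra of STEP 6 (Picard-Lefschetz for `n = p`)

Only definitions.  Abstract setting (blueprint (P3), (P4), (P6)):

* `E` is a field (the cyclic cover `F1` of degree `p` of the function field `F_{L0}`), `g` a ring
  automorphism of `E` of order `p` (the deck transformation); the base field is the fixed field
  of `g`.
* `B` is the local ring of the regular nodal model at a node: a noetherian local domain with
  fraction field the fixed field of `g`, integrally closed, with `X₁ X₂ = p G`, `G` a unit, `X₁`, `X₂`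
  non-associated prime elements such that `B / X₁`, `B / X₂` are principal ideal rings.
* `t` is an Artin-Schreier generator: integral over `B`, `t ^ p ≡ t` and `g t ≡ t + 1` modulo the
  radical of `p` in the integral closure of `B` in `E`.
* a sheet `R'` is the local ring of `B[t]` at the point `t = i` above the node: it is étale over `B`
  with trivial residue extension, `R' = B + p R'`, `p R' ∩ B = p B`.
-/

set_option autoImplicit false

namespace Fermat.Agent.LP.PL

variable {B E : Type*} [CommRing B] [Field E] [Algebra B E]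

/-- The local ring `B` of a regular node, inside the field `E` with the automorphism `g`. -/
structure NodeData (p : ℕ) (g : E ≃+* E) (X₁ X₂ : B) : Prop where
  inj : Function.Injective (algebraMap B E)
  loc : IsLocalRing B
  noeth : IsNoetherianRing B
  mul_eq : ∃ G : Bˣ, X₁ * X₂ = (p : B) * (G : B)
  prime₁ : Prime X₁
  prime₂ : Prime X₂
  pid₁ : IsPrincipalIdealRing (B ⧸ Ideal.span {X₁})
  pid₂ : IsPrincipalIdealRing (B ⧸ Ideal.span {X₂})
  not_dvd : ¬ X₁ ∣ X₂
  fix : ∀ b : B, g (algebraMap B E b) = algebraMap B E b
  closed : ∀ e : E, g e = e → IsIntegral B e → e ∈ (algebraMap B E).range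
  frac : ∀ e : E, g e = e → ∃ a b : B, b ≠ 0 ∧ e * algebraMap B E b = algebraMap B E a
  pow : ∀ e : E, (g ^ p) e = e

variable (B) in
/-- The radical of `p` in the integral closure of `B` in `E`. -/
def radP (E : Type*) [Field E] [Algebra B E] (p : ℕ) : Ideal (integralClosure B E) :=
  (Ideal.span {(p : integralClosure B E)}).radical

variable (B) in
/-- `e` lies in the radical of `p` in the integral closure of `B` in `E`. -/
def Small (p : ℕ) (e : E) : Prop :=
  ∃ h : e ∈ integralClosure B E, (⟨e, h⟩ : integralClosure B E) ∈ radP B E p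

variable (B) in
/-- `t` is an Artin-Schreier generator. -/
structure ASGen (p : ℕ) (g : E ≃+* E) (t : E) : Prop where
  int : IsIntegral B t
  as : Small B p (t ^ p - t)
  shift : Small B p (g t - t - 1)

/-- The valuation subring `V` of `E` lies over the localization of `B` at the prime element `X`. -/
structure ValOver (X : B) (V : ValuationSubring E) : Prop where
  mem : ∀ b : B, algebraMap B E b ∈ V
  nonunit_iff : ∀ b : B, algebraMap B E b ∈ V.nonunits ↔ X ∣ b

/-- `R'` is the local ring of `B[t]` at the point `t = i` above the closed point of `B`. -/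
structure Sheet (p : ℕ) (t : E) (i : ℕ) (R' : Subalgebra B E) : Prop where
  noeth : IsNoetherianRing R'
  loc : IsLocalRing R'
  frac : IsFractionRing R' E
  decomp : ∀ r ∈ R', ∃ b : B, (r - algebraMap B E b) / (p : E) ∈ R'
  retr : ∀ b : B, algebraMap B E b / (p : E) ∈ R' → (p : B) ∣ b
  t_mem : (t - (i : E)) / (p : E) ∈ R'
  desc : ∀ r ∈ R', ∃ s ∈ Algebra.adjoin B ({t} : Set E), s ≠ 0 ∧ s⁻¹ ∈ R' ∧
    r * s ∈ Algebra.adjoin B ({t} : Set E)

/-- The localization of `R'` at the prime element `X` of `B` (as a set of elements of `E`). -/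
def AtPrime (R' : Subalgebra B E) (X : B) (e : E) : Prop :=
  ∃ s t : R', ¬ algebraMap B R' X ∣ t ∧ e * (t : E) = (s : E)

/-- `p ∣ ord_V(u)` for every valuation subring `V` of `E` containing `B` and `1 / p`. -/
def DivHor (B : Type*) {E : Type*} [CommRing B] [Field E] [Algebra B E] (p : ℕ) (u : E) : Prop :=
  ∀ V : ValuationSubring E, (∀ b : B, algebraMap B E b ∈ V) → (p : E)⁻¹ ∈ V →
    ∃ a : E, a ≠ 0 ∧ a ^ p * u ∈ V ∧ (a ^ p * u)⁻¹ ∈ V

end Fermat.Agent.LP.PL
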