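import Fermat.Agent.LP.PL.Abs.Small
import Fermat.Agent.LP.Dep.Lam

/-!
# PL-ABS, file `Descent`: (P3), the Artin-Schreier generator and its descent

`E₁` is the top field `F1' = F_{L1}(z1)`; it contains `ζ = ζ_p`; `lam = ζ - 1`.
`g` is the deck transformation (`g Z = ζ Z`), `δ : ι → Aut(E₁)` the (finite) group
`Δ = Gal(L1 / L0)` acting on the coefficients, of order prime to `p`, commuting with `g`, fixing `B`.
INPUT (from LP-NOD, NODE-p): `Z = a z1` with `Z ^ p = 1 + lam ^ p h`, `h / lam` integral over `B`.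
`t₁ = (Z - 1) / lam` is integral over `B`, `t₁ ^ p ≡ t₁`, `g t₁ = ζ t₁ + 1 ≡ t₁ + 1` modulo `lam`.
`t = c ∑_i δ i t₁` with `c |Δ| ≡ 1 (p)` is fixed by `Δ` and is an Artin-Schreier generator.
No normality of `B[lam]`, no freeness: everything is done modulo the radical of `p` in the integral
closure of `B` in `E₁` (`Small`), which is stable under all automorphisms fixing `B`.
-/

set_option autoImplicit false

namespace Fermat.Agent.LP.PL

open Polynomial

variable {B E₁ : Type*} [CommRing B] [Field E₁] [Algebra B E₁] {p : ℕ}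

/-- auxiliary: `(ζ - 1) ^ (p - 1) = - p (1 + (ζ - 1) g)` in any domain. -/
theorem Descent_lam_pow {A : Type*} [CommRing A] [IsDomain A] (hp : p.Prime)
    {ζ : A} (hζ : IsPrimitiveRoot ζ p) :
    ∃ g : A, (ζ - 1) ^ (p - 1) = -(p : A) * (1 + (ζ - 1) * g) := by
  have hlam0 : ζ - 1 ≠ 0 := sub_ne_zero.mpr (hζ.ne_one hp.one_lt)
  obtain ⟨g, hg⟩ := Dep.Lam_add_one_pow p hp (ζ - 1)
  rw [sub_add_cancel, hζ.pow_eq_one] at hg
  have hpp : (ζ - 1) ^ p = (ζ - 1) * (ζ - 1) ^ (p - 1) := by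
    rw [← pow_succ', Nat.sub_add_cancel hp.one_le]
  refine ⟨g, mul_left_cancel₀ hlam0 ?_⟩
  rw [← hpp]
  linear_combination -hg

/-- `p = (ζ - 1) ^ (p - 1) (-1 + (ζ - 1) s)` in any domain.  (`p = ∏_{0 < k < p} (1 - ζ ^ k)`,
`IsPrimitiveRoot` API / `Polynomial.cyclotomic`; `ζ ^ k - 1 = (ζ - 1) (k + (ζ - 1) t_k)`
(`Dep.exists_pow_sub_one_eq`); Wilson; `p ∈ (ζ - 1) A` by `Dep.Lam_add_one_pow`.) -/
theorem Descent_natCast_eq {A : Type*} [CommRing A] [IsDomain A] (hp : p.Prime) (hp2 : p ≠ 2)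
    {ζ : A} (hζ : IsPrimitiveRoot ζ p) :
    ∃ s : A, (p : A) = (ζ - 1) ^ (p - 1) * (-1 + (ζ - 1) * s) := by
  have hlam0 : ζ - 1 ≠ 0 := sub_ne_zero.mpr (hζ.ne_one hp.one_lt)
  obtain ⟨g, hg⟩ := Descent_lam_pow hp hζ
  obtain ⟨z, -, hz⟩ := hζ.self_sub_one_pow_dvd_order (k := p - 1) (Nat.sub_lt hp.pos one_pos)
  have hp0 : (p : A) ≠ 0 := by
    intro h0
    rw [h0, neg_zero, zero_mul] at hg
    exact hlam0 (pow_eq_zero_iff (Nat.sub_ne_zero_of_lt hp.one_lt) |>.1 hg)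
  have h1 : (1 : A) = -z * (1 + (ζ - 1) * g) := by
    apply mul_left_cancel₀ hp0
    rw [hg] at hz
    linear_combination hz
  refine ⟨-z * g, ?_⟩
  rw [hz]
  linear_combination ((ζ - 1) ^ (p - 1)) * h1

/-- auxiliary: `ζ` as an element of the integral closure. -/
theorem Descent_isIntegral_zeta (hp : p.Prime) {ζ : E₁} (hζ : IsPrimitiveRoot ζ p) :
    IsIntegral B ζ :=
  ⟨X ^ p - 1, monic_X_pow_sub_C 1 hp.ne_zero, by simp [hζ.pow_eq_one]⟩

/-- auxiliary: `ζ` is a primitive root of unity in the integral closure. -/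
theorem Descent_isPrimitiveRoot (hp : p.Prime) {ζ : E₁} (hζ : IsPrimitiveRoot ζ p) :
    IsPrimitiveRoot (⟨ζ, Descent_isIntegral_zeta hp hζ⟩ : integralClosure B E₁) p :=
  IsPrimitiveRoot.of_map_of_injective (f := (integralClosure B E₁).val) hζ
    Subtype.val_injective

/-- the same with `s` integral. -/
theorem Descent_natCast_eq' (hp : p.Prime) (hp2 : p ≠ 2) {ζ : E₁} (hζ : IsPrimitiveRoot ζ p) :
    ∃ s : E₁, IsIntegral B s ∧ (p : E₁) = (ζ - 1) ^ (p - 1) * (-1 + (ζ - 1) * s) := by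
  obtain ⟨s, hs⟩ := Descent_natCast_eq hp hp2 (Descent_isPrimitiveRoot (B := B) hp hζ)
  refine ⟨s, s.2, ?_⟩
  have := congrArg (integralClosure B E₁).val hs
  simpa using this

/-- `(ζ - 1) ^ (p - 1) ∈ p ℤ[ζ]`, hence `(ζ - 1) e` is small for `e` integral. -/
theorem Descent_small_lam_mul (hp : p.Prime) {ζ : E₁} (hζ : IsPrimitiveRoot ζ p) {e : E₁}
    (he : IsIntegral B e) : Small B p ((ζ - 1) * e) := by
  obtain ⟨g, hg⟩ := Descent_lam_pow hp (Descent_isPrimitiveRoot (B := B) hp hζ)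
  have hlam : IsIntegral B (ζ - 1) := (Descent_isIntegral_zeta hp hζ).sub isIntegral_one
  refine ⟨hlam.mul he, ?_⟩
  have h1 : ((⟨ζ, Descent_isIntegral_zeta hp hζ⟩ : integralClosure B E₁) - 1) ∈ radP B E₁ p := by
    refine ⟨p - 1, ?_⟩
    rw [hg, Ideal.mem_span_singleton]
    exact ⟨-(1 + ((⟨ζ, Descent_isIntegral_zeta hp hζ⟩ : integralClosure B E₁) - 1) * g), by ring⟩
  exact Ideal.mul_mem_right (⟨e, he⟩ : integralClosure B E₁) _ h1

/-- `(x + 1) ^ p = x ^ p + 1 + p x (1 + x γ(x))` with a polynomial `γ` of degree `≤ p - 3`. -/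
theorem Descent_add_one_pow (hp : p.Prime) (hp2 : p ≠ 2) :
    ∃ γ : ℤ[X], γ.natDegree + 3 ≤ p ∧
      (X + 1 : ℤ[X]) ^ p = X ^ p + 1 + C (p : ℤ) * X * (1 + X * γ) := by
  obtain ⟨γ, hγ⟩ := Dep.Lam_add_one_pow p hp (X : ℤ[X])
  have hp3 : 3 ≤ p := by
    have := hp.two_le
    omega
  have hγ' : (X + 1 : ℤ[X]) ^ p = X ^ p + 1 + C (p : ℤ) * X * (1 + X * γ) := by
    rw [hγ]
    simp
  refine ⟨γ, ?_, hγ'⟩
  by_cases h0 : γ = 0
  · rw [h0, natDegree_zero]
    omega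
  -- the degree of the right hand side
  have hpC : (C (p : ℤ) : ℤ[X]) ≠ 0 := by
    rw [Ne, C_eq_zero]
    exact_mod_cast hp.ne_zero
  have hXγ : (X * γ).natDegree = 1 + γ.natDegree := by
    rw [natDegree_mul X_ne_zero h0, natDegree_X]
  have h1 : (1 + X * γ).natDegree = 1 + γ.natDegree := by
    rw [add_comm, natDegree_add_eq_left_of_natDegree_lt, hXγ]
    rw [natDegree_one, hXγ]
    omega
  have h1' : (1 + X * γ) ≠ 0 := by
    intro h
    rw [h, natDegree_zero] at h1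
    omega
  have h2 : (C (p : ℤ) * X * (1 + X * γ)).natDegree = 2 + γ.natDegree := by
    rw [natDegree_mul (mul_ne_zero hpC X_ne_zero) h1', natDegree_C_mul_X _ (by exact_mod_cast hp.ne_zero),
      h1]
    ring
  have h3 : C (p : ℤ) * X * (1 + X * γ) = ((X + 1 : ℤ[X]) ^ p - X ^ p) - 1 := by
    rw [hγ']
    ring
  have h4 : ((X + 1 : ℤ[X]) ^ p - X ^ p).degree < (p : WithBot ℕ) := by
    have hm1 : ((X + 1 : ℤ[X]) ^ p).Monic := (monic_X_add_C (1 : ℤ)).pow p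
    have hm2 : ((X : ℤ[X]) ^ p).Monic := monic_X_pow p
    have hd1 : ((X + 1 : ℤ[X]) ^ p).degree = (p : WithBot ℕ) := by
      have : (X + 1 : ℤ[X]) = X + C 1 := by simp
      rw [degree_pow, this, degree_X_add_C]
      simp
    have hd2 : ((X : ℤ[X]) ^ p).degree = (p : WithBot ℕ) := degree_X_pow p
    have := degree_sub_lt_left (hd1.trans hd2.symm) hm1.ne_zero
      (by rw [hm1.leadingCoeff, hm2.leadingCoeff])
    rwa [hd1] at this
  have h5 : (((X + 1 : ℤ[X]) ^ p - X ^ p) - 1).degree < (p : WithBot ℕ) := by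
    refine lt_of_le_of_lt (degree_sub_le _ _) (max_lt h4 ?_)
    rw [degree_one]
    exact_mod_cast hp.pos
  rw [← h3] at h5
  have h6 : (C (p : ℤ) * X * (1 + X * γ)).natDegree < p := by
    rwa [natDegree_lt_iff_degree_lt (mul_ne_zero (mul_ne_zero hpC X_ne_zero) h1')]
  omega

/-- auxiliary: a root of `T ^ n + u T - h` with `u`, `h` integral is integral. -/
theorem Descent_isIntegral_of_eq {t u h : E₁} (hu : IsIntegral B u) (hh : IsIntegral B h) {n : ℕ}
    (hn : 1 < n) (e : t ^ n + u * t - h = 0) : IsIntegral B t := by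
  have hint : IsIntegral (integralClosure B E₁) t := by
    refine ⟨X ^ n + (C (⟨u, hu⟩ : integralClosure B E₁) * X - C (⟨h, hh⟩ : integralClosure B E₁)),
      monic_X_pow_add ?_, ?_⟩
    · refine lt_of_le_of_lt (degree_sub_le _ _) (max_lt ?_ ?_)
      · refine lt_of_le_of_lt (degree_C_mul_X_le _) ?_
        exact_mod_cast hn
      · refine lt_of_le_of_lt degree_C_le ?_
        exact_mod_cast (by omega : 0 < n)
    · rw [eval₂_add, eval₂_sub, eval₂_mul, eval₂_pow, eval₂_X, eval₂_C, eval₂_C]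
      change t ^ n + (u * t - h) = 0
      rw [← e]
      ring
  exact isIntegral_trans t hint

/-- auxiliary: the equation of `t₁ = (Z - 1) / lam`. -/
theorem Descent_core (hp : p.Prime) (hp2 : p ≠ 2) {ζ : E₁}
    (hζ : IsPrimitiveRoot ζ p) {Z h : E₁} (hZ : Z ^ p = 1 + (ζ - 1) ^ p * h)
    (hh : IsIntegral B h) :
    ∃ s γ : E₁, IsIntegral B s ∧ IsIntegral B γ ∧ IsIntegral B (Z - 1) ∧
      h = ((Z - 1) / (ζ - 1)) ^ p
        + (-1 + (ζ - 1) * s) * ((Z - 1) / (ζ - 1)) * (1 + (Z - 1) * γ) := by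
  have hlam : IsIntegral B (ζ - 1) := (Descent_isIntegral_zeta hp hζ).sub isIntegral_one
  have hlam0 : ζ - 1 ≠ 0 := sub_ne_zero.2 (hζ.ne_one hp.one_lt)
  have hZi : IsIntegral B Z :=
    IsIntegral.of_pow hp.pos (by rw [hZ]; exact isIntegral_one.add ((hlam.pow p).mul hh))
  have hxi : IsIntegral B (Z - 1) := hZi.sub isIntegral_one
  obtain ⟨γ, hγ⟩ := Dep.Lam_add_one_pow p hp (⟨Z - 1, hxi⟩ : integralClosure B E₁)
  obtain ⟨s, hs, hps⟩ := Descent_natCast_eq' (B := B) hp hp2 hζ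
  refine ⟨s, γ, hs, γ.2, hxi, ?_⟩
  have hγ' : (Z - 1 + 1) ^ p = (Z - 1) ^ p + 1 + (p : E₁) * (Z - 1) * (1 + (Z - 1) * (γ : E₁)) := by
    have := congrArg (integralClosure B E₁).val hγ
    simpa using this
  rw [sub_add_cancel, hZ, hps] at hγ'
  have hpp : (ζ - 1) ^ p = (ζ - 1) ^ (p - 1) * (ζ - 1) := by
    rw [← pow_succ, Nat.sub_add_cancel hp.one_le]
  have hx : Z - 1 = (ζ - 1) * ((Z - 1) / (ζ - 1)) := by
    rw [mul_div_cancel₀ _ hlam0]
  generalize (Z - 1) / (ζ - 1) = t₁ at hx ⊢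
  apply mul_left_cancel₀ (pow_ne_zero p hlam0)
  have e1 : (Z - 1) ^ p = (ζ - 1) ^ p * t₁ ^ p := by rw [hx, mul_pow]
  rw [e1] at hγ'
  have e2 : (ζ - 1) ^ (p - 1) * (-1 + (ζ - 1) * s) * (Z - 1) * (1 + (Z - 1) * (γ : E₁))
      = (ζ - 1) ^ p * ((-1 + (ζ - 1) * s) * t₁ * (1 + (Z - 1) * (γ : E₁))) := by
    rw [hpp]
    conv_lhs => rw [hx]
    conv_rhs => rw [hx]
    ring
  rw [e2] at hγ'
  linear_combination hγ'

/-- `t₁ = (Z - 1) / lam` is integral over `B`: it is a root of the monic polynomial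
`T ^ p + ε₀ T (1 + lam T γ(lam T)) - h`, `ε₀ = p / lam ^ (p - 1)`, with integral coefficients. -/
theorem Descent_isIntegral (hp : p.Prime) (hp2 : p ≠ 2) (hp0 : (p : E₁) ≠ 0) {ζ : E₁}
    (hζ : IsPrimitiveRoot ζ p) {Z h : E₁} (hZ : Z ^ p = 1 + (ζ - 1) ^ p * h)
    (hh : IsIntegral B h) : IsIntegral B ((Z - 1) / (ζ - 1)) := by
  obtain ⟨s, γ, hs, hγ, hxi, e⟩ := Descent_core hp hp2 hζ hZ hh
  have hlam : IsIntegral B (ζ - 1) := (Descent_isIntegral_zeta hp hζ).sub isIntegral_one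
  have hu : IsIntegral B ((-1 + (ζ - 1) * s) * (1 + (Z - 1) * γ)) :=
    ((isIntegral_one.neg).add (hlam.mul hs)).mul (isIntegral_one.add (hxi.mul hγ))
  refine Descent_isIntegral_of_eq hu hh hp.one_lt ?_
  linear_combination -e

/-- `t₁ ^ p - t₁ = lam (h / lam - s t₁ - ε₀ t₁ ^ 2 γ)`. -/
theorem Descent_small_as (hp : p.Prime) (hp2 : p ≠ 2) (hp0 : (p : E₁) ≠ 0) {ζ : E₁}
    (hζ : IsPrimitiveRoot ζ p) {Z h : E₁} (hZ : Z ^ p = 1 + (ζ - 1) ^ p * h)
    (hh : IsIntegral B (h / (ζ - 1))) :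
    Small B p (((Z - 1) / (ζ - 1)) ^ p - (Z - 1) / (ζ - 1)) := by
  have hlam : IsIntegral B (ζ - 1) := (Descent_isIntegral_zeta hp hζ).sub isIntegral_one
  have hlam0 : ζ - 1 ≠ 0 := sub_ne_zero.2 (hζ.ne_one hp.one_lt)
  have hh' : IsIntegral B h := by
    have := hh.mul hlam
    rwa [div_mul_cancel₀ _ hlam0] at this
  have ht := Descent_isIntegral hp hp2 hp0 hζ hZ hh'
  obtain ⟨s, γ, hs, hγ, hxi, e⟩ := Descent_core hp hp2 hζ hZ hh'
  have hx : Z - 1 = (ζ - 1) * ((Z - 1) / (ζ - 1)) := by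
    rw [mul_div_cancel₀ _ hlam0]
  have hh2 : h = (ζ - 1) * (h / (ζ - 1)) := by
    rw [mul_div_cancel₀ _ hlam0]
  generalize (Z - 1) / (ζ - 1) = t₁ at hx e ht ⊢
  generalize h / (ζ - 1) = h₁ at hh2 hh
  have key : t₁ ^ p - t₁ = (ζ - 1) * (h₁ - (s - t₁ * γ + (ζ - 1) * s * t₁ * γ) * t₁) := by
    rw [hx, hh2] at e
    linear_combination -e
  rw [key]
  exact Descent_small_lam_mul hp hζ
    (hh.sub ((((hs.sub (ht.mul hγ)).add (((hlam.mul hs).mul ht).mul hγ))).mul ht))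

/-- `g t₁ - t₁ - 1 = lam t₁`. -/
theorem Descent_small_shift (hp : p.Prime) (hp2 : p ≠ 2) (hp0 : (p : E₁) ≠ 0) {ζ : E₁}
    (hζ : IsPrimitiveRoot ζ p) (g : E₁ ≃+* E₁) (hgζ : g ζ = ζ) {Z h : E₁}
    (hZ : Z ^ p = 1 + (ζ - 1) ^ p * h) (hh : IsIntegral B (h / (ζ - 1))) (hgZ : g Z = ζ * Z) :
    Small B p (g ((Z - 1) / (ζ - 1)) - (Z - 1) / (ζ - 1) - 1) := by
  have hlam : IsIntegral B (ζ - 1) := (Descent_isIntegral_zeta hp hζ).sub isIntegral_one
  have hlam0 : ζ - 1 ≠ 0 := sub_ne_zero.2 (hζ.ne_one hp.one_lt)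
  have hh' : IsIntegral B h := by
    have := hh.mul hlam
    rwa [div_mul_cancel₀ _ hlam0] at this
  have ht := Descent_isIntegral hp hp2 hp0 hζ hZ hh'
  have key : g ((Z - 1) / (ζ - 1)) - (Z - 1) / (ζ - 1) - 1 = (ζ - 1) * ((Z - 1) / (ζ - 1)) := by
    rw [map_div₀, map_sub, map_sub, map_one, hgζ, hgZ]
    field_simp
    ring
  rw [key]
  exact Descent_small_lam_mul hp hζ ht

/-- Frobenius is additive modulo `Small`. -/
theorem Descent_small_add_pow (hp : p.Prime) {e f : E₁} (he : IsIntegral B e)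
    (hf : IsIntegral B f) : Small B p ((e + f) ^ p - e ^ p - f ^ p) := by
  rw [add_pow_prime_eq hp e f]
  have e1 : e ^ p + f ^ p + (p : E₁) * e * f *
        ∑ k ∈ Finset.Ioo 0 p, e ^ (k - 1) * f ^ (p - k - 1) * ((p.choose k / p : ℕ) : E₁)
        - e ^ p - f ^ p
      = (p : E₁) * (e * f *
        ∑ k ∈ Finset.Ioo 0 p, e ^ (k - 1) * f ^ (p - k - 1) * ((p.choose k / p : ℕ) : E₁)) := by
    ring
  rw [e1]
  refine small_natCast.mul_right ((he.mul hf).mul (IsIntegral.sum _ fun k _ => ?_))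
  exact ((he.pow _).mul (hf.pow _)).mul (isIntegral_natCast _)

/-- auxiliary: the set of integral `e` with `e ^ p ≡ e` is closed under addition. -/
theorem Descent_as_add (hp : p.Prime) {e f : E₁} (he : IsIntegral B e) (hf : IsIntegral B f)
    (he' : Small B p (e ^ p - e)) (hf' : Small B p (f ^ p - f)) :
    Small B p ((e + f) ^ p - (e + f)) := by
  have e1 : (e + f) ^ p - (e + f) = ((e + f) ^ p - e ^ p - f ^ p) + (e ^ p - e) + (f ^ p - f) := by
    ring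
  rw [e1]
  exact ((Descent_small_add_pow hp he hf).add he').add hf'

/-- auxiliary: closed under finite sums. -/
theorem Descent_as_sum (hp : p.Prime) {ι : Type*} (s : Finset ι) (f : ι → E₁)
    (hf : ∀ i ∈ s, IsIntegral B (f i)) (h : ∀ i ∈ s, Small B p (f i ^ p - f i)) :
    Small B p ((∑ i ∈ s, f i) ^ p - ∑ i ∈ s, f i) := by
  classical
  induction s using Finset.induction_on with
  | empty =>
    rw [Finset.sum_empty, zero_pow hp.ne_zero, sub_zero]
    exact small_zero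
  | insert a s ha ih =>
    rw [Finset.sum_insert ha]
    exact Descent_as_add hp (hf a (Finset.mem_insert_self a s))
      (IsIntegral.sum _ fun i hi => hf i (Finset.mem_insert_of_mem hi))
      (h a (Finset.mem_insert_self a s))
      (ih (fun i hi => hf i (Finset.mem_insert_of_mem hi))
        (fun i hi => h i (Finset.mem_insert_of_mem hi)))

/-- The set of integral `e` with `e ^ p ≡ e` is closed under sums and integer multiples. -/
theorem Descent_small_sum (hp : p.Prime) {ι : Type*} (s : Finset ι) (f : ι → E₁) (c : ℕ)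
    (hf : ∀ i ∈ s, IsIntegral B (f i)) (h : ∀ i ∈ s, Small B p (f i ^ p - f i)) :
    Small B p (((c : E₁) * ∑ i ∈ s, f i) ^ p - (c : E₁) * ∑ i ∈ s, f i) := by
  have h1 := Descent_as_sum hp s f hf h
  have hσ : IsIntegral B (∑ i ∈ s, f i) := IsIntegral.sum _ hf
  generalize ∑ i ∈ s, f i = σ at h1 hσ
  have h2 := Descent_as_sum hp (Finset.range c) (fun _ => σ) (fun _ _ => hσ) (fun _ _ => h1)
  rwa [Finset.sum_const, Finset.card_range, nsmul_eq_mul] at h2

/-- AVERAGING: from an Artin-Schreier generator `t₁` to one which is fixed by `Δ`. -/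
theorem exists_asGen_fixed (hp : p.Prime) (g : E₁ ≃+* E₁) {ι : Type*} [Fintype ι]
    (δ : ι → E₁ ≃+* E₁) (hcard : ¬ p ∣ Fintype.card ι)
    (hδB : ∀ i (b : B), δ i (algebraMap B E₁ b) = algebraMap B E₁ b)
    (hperm : ∀ i, ∃ π : Equiv.Perm ι, ∀ k e, δ i (δ k e) = δ (π k) e)
    (hcomm : ∀ i e, g (δ i e) = δ i (g e)) {t₁ : E₁} (T : ASGen B p g t₁) :
    ∃ t : E₁, (∀ i, δ i t = t) ∧ ASGen B p g t := by
  classical
  have hcop : Nat.Coprime (Fintype.card ι) p :=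
    ((Nat.Prime.coprime_iff_not_dvd hp).2 hcard).symm
  obtain ⟨c, -, hc⟩ := Nat.exists_mul_mod_eq_one_of_coprime hcop hp.one_lt
  -- `card ι * c = 1 + p * m`
  obtain ⟨m, hm⟩ : ∃ m : ℕ, Fintype.card ι * c = 1 + p * m :=
    ⟨Fintype.card ι * c / p, by
      have := Nat.div_add_mod (Fintype.card ι * c) p
      omega⟩
  have hint : ∀ i, IsIntegral B (δ i t₁) := fun i => isIntegral_map (hδB i) T.int
  refine ⟨(c : E₁) * ∑ i, δ i t₁, ?_, ?_, ?_, ?_⟩
  · intro i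
    obtain ⟨π, hπ⟩ := hperm i
    rw [map_mul, map_natCast, map_sum]
    congr 1
    rw [← Equiv.sum_comp π (fun k => δ k t₁)]
    exact Finset.sum_congr rfl fun k _ => hπ k t₁
  · exact (isIntegral_natCast c).mul (IsIntegral.sum _ fun i _ => hint i)
  · refine Descent_small_sum hp Finset.univ (fun i => δ i t₁) c (fun i _ => hint i) fun i _ => ?_
    have := T.as.map (hδB i)
    rwa [map_sub, map_pow] at this
  · have e1 : g ((c : E₁) * ∑ i, δ i t₁) - (c : E₁) * ∑ i, δ i t₁ - 1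
        = (c : E₁) * ∑ i, δ i (g t₁ - t₁ - 1) + (p : E₁) * (m : E₁) := by
      have hm' : (Fintype.card ι : E₁) * (c : E₁) = 1 + (p : E₁) * (m : E₁) := by
        exact_mod_cast congrArg (Nat.cast : ℕ → E₁) hm
      have e2 : ∑ i, δ i (g t₁ - t₁ - 1) = ∑ i, g (δ i t₁) - ∑ i, δ i t₁ - (Fintype.card ι : E₁) := by
        simp only [map_sub, map_one, Finset.sum_sub_distrib, Finset.sum_const, Finset.card_univ,
          nsmul_eq_mul, mul_one, hcomm]
      rw [e2, map_mul, map_natCast, map_sum]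
      linear_combination hm'
    rw [e1]
    exact ((Small.sum _ _ fun i _ => T.shift.map (hδB i)).mul_left (isIntegral_natCast c)).add
      (small_natCast.mul_right (isIntegral_natCast m))

/-- **(P3)** -/
theorem exists_asGen (hp : p.Prime) (hp2 : p ≠ 2) (hp0 : (p : E₁) ≠ 0) {ζ : E₁}
    (hζ : IsPrimitiveRoot ζ p) (g : E₁ ≃+* E₁) (hgζ : g ζ = ζ) {ι : Type*} [Fintype ι]
    (δ : ι → E₁ ≃+* E₁) (hcard : ¬ p ∣ Fintype.card ι)
    (hδB : ∀ i (b : B), δ i (algebraMap B E₁ b) = algebraMap B E₁ b)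
    (hperm : ∀ i, ∃ π : Equiv.Perm ι, ∀ k e, δ i (δ k e) = δ (π k) e)
    (hcomm : ∀ i e, g (δ i e) = δ i (g e)) {Z h : E₁} (hZ : Z ^ p = 1 + (ζ - 1) ^ p * h)
    (hh : IsIntegral B (h / (ζ - 1))) (hgZ : g Z = ζ * Z) :
    ∃ t : E₁, (∀ i, δ i t = t) ∧ ASGen B p g t := by
  have hζi : IsIntegral B ζ :=
    ⟨X ^ p - 1, monic_X_pow_sub_C 1 hp.ne_zero, by simp [hζ.pow_eq_one]⟩
  have hlam : IsIntegral B (ζ - 1) := hζi.sub isIntegral_one
  have hlam0 : ζ - 1 ≠ 0 := sub_ne_zero.2 (hζ.ne_one hp.one_lt)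
  have hh' : IsIntegral B h := by
    have := hh.mul hlam
    rwa [div_mul_cancel₀ _ hlam0] at this
  exact exists_asGen_fixed hp g δ hcard hδB hperm hcomm
    ⟨Descent_isIntegral hp hp2 hp0 hζ hZ hh', Descent_small_as hp hp2 hp0 hζ hZ hh,
      Descent_small_shift hp hp2 hp0 hζ g hgζ hZ hh hgZ⟩

/-- Transfer of `Small` along an embedding of fields over `B`. -/
theorem small_map_iff {E : Type*} [Field E] [Algebra B E] (ψ : E →ₐ[B] E₁) (hp0 : (p : E₁) ≠ 0)
    (e : E) : Small B p (ψ e) ↔ Small B p e := by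
  have hp0' : (p : E) ≠ 0 := by
    intro h
    apply hp0
    rw [← map_natCast ψ, h, map_zero]
  rw [small_iff hp0, small_iff hp0', isIntegral_algHom_iff ψ ψ.injective]
  refine and_congr_right fun _ => exists_congr fun k => ?_
  rw [← isIntegral_algHom_iff ψ ψ.injective, map_div₀, map_pow, map_natCast]

/-- Transfer of an Artin-Schreier generator to a subfield. -/
theorem ASGen.of_map {E : Type*} [Field E] [Algebra B E] (ψ : E →ₐ[B] E₁) (hp0 : (p : E₁) ≠ 0)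
    {g₁ : E₁ ≃+* E₁} {g : E ≃+* E} (hg : ∀ e, ψ (g e) = g₁ (ψ e)) {t : E}
    (T : ASGen B p g₁ (ψ t)) : ASGen B p g t := by
  refine ⟨(isIntegral_algHom_iff ψ ψ.injective).1 T.int, ?_, ?_⟩
  · rw [← small_map_iff ψ hp0, map_sub, map_pow]
    exact T.as
  · rw [← small_map_iff ψ hp0, map_sub, map_sub, map_one, hg]
    exact T.shift

end Fermat.Agent.LP.PL
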