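import Fermat.Agent.LP.PL.Abs.Formula

/-!
# PL-ABS, file `Export`: the exports of the abstract part (assembly)
-/

set_option autoImplicit false

namespace Fermat.Agent.LP.PL

variable {B E : Type*} [CommRing B] [Field E] [Algebra B E] {p : ℕ}
variable {g : E ≃+* E} {X₁ X₂ : B} {t : E}

/-- Every valuation subring of `E` over `B_(X₁)` is the localization of a sheet at `X₁`. -/
theorem ValOver.exists_sheet (H : NodeData p g X₁ X₂) (hp : p.Prime) (T : ASGen B p g t)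
    {V : ValuationSubring E} (h : ValOver X₁ V) :
    ∃ i < p, t - (i : E) ∈ V.nonunits ∧ ∀ R' : Subalgebra B E, Sheet p t i R' →
      ∀ e : E, e ∈ V ↔ AtPrime R' X₁ e := by
  obtain ⟨i, hi, hti⟩ := exists_index H hp T h.mem (h.natCast_mem_nonunits H)
  exact ⟨i, hi, hti, fun R' S => S.val_unique H h hti⟩

/-- `e = f = 1` for every valuation subring of `E` over `B_(X₁)`. -/
theorem ValOver.unif (H : NodeData p g X₁ X₂) (hp : p.Prime) (T : ASGen B p g t)
    {V : ValuationSubring E} (h : ValOver X₁ V) (e : E) :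
    e ∈ V.nonunits ↔ e / (p : E) ∈ V := by
  obtain ⟨i, hi, -, hV⟩ := h.exists_sheet H hp T
  obtain ⟨R', S⟩ := PL.exists_sheet H hp T hi
  exact S.mem_nonunits_iff' (hV R' S) H e

theorem ValOver.residue (H : NodeData p g X₁ X₂) (hp : p.Prime) (T : ASGen B p g t)
    {V : ValuationSubring E} (h : ValOver X₁ V) {e : E} (he : e ∈ V) :
    ∃ a b : B, ¬ X₁ ∣ b ∧ e - algebraMap B E a / algebraMap B E b ∈ V.nonunits := by
  obtain ⟨i, hi, -, hV⟩ := h.exists_sheet H hp T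
  obtain ⟨R', S⟩ := PL.exists_sheet H hp T hi
  exact S.residue (hV R' S) H he

/-- Moving the index of a valuation subring over `B_(X₁)` to a prescribed value. -/
theorem ValOver.exists_comap_index (H : NodeData p g X₁ X₂) (hp : p.Prime) (T : ASGen B p g t)
    {V : ValuationSubring E} (h : ValOver X₁ V) {i' : ℕ} (hi' : i' < p) :
    ∃ j < p, t - (i' : E) ∈ (V.comap ((g ^ j : E ≃+* E) : E →+* E)).nonunits := by
  obtain ⟨i, hi, hti⟩ := exists_index H hp T h.mem (h.natCast_mem_nonunits H)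
  refine ⟨(i' + (p - i)) % p, Nat.mod_lt _ hp.pos, ?_⟩
  have h1 := index_comap H T h.mem (h.natCast_mem_nonunits H) hti ((i' + (p - i)) % p)
  have h2 := index_mod ((h.comap H ((i' + (p - i)) % p)).natCast_mem_nonunits H) h1
  have h3 : (i + (i' + (p - i)) % p) % p = i' := by
    rw [Nat.add_mod_mod]
    have : i + (i' + (p - i)) = i' + p := by omega
    rw [this, Nat.add_mod_right, Nat.mod_eq_of_lt hi']
  rwa [h3] at h2

/-- `g` acts transitively on the valuation subrings of `E` over `B_(X₁)`. -/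
theorem ValOver.exists_comap_eq (H : NodeData p g X₁ X₂) (hp : p.Prime) (T : ASGen B p g t)
    {V V' : ValuationSubring E} (h : ValOver X₁ V) (h' : ValOver X₁ V') :
    ∃ j < p, V' = V.comap ((g ^ j : E ≃+* E) : E →+* E) := by
  obtain ⟨i', hi', hti', hV'⟩ := h'.exists_sheet H hp T
  obtain ⟨R', S⟩ := PL.exists_sheet H hp T hi'
  obtain ⟨j, hj, htj⟩ := h.exists_comap_index H hp T hi'
  refine ⟨j, hj, ?_⟩
  ext e
  rw [hV' R' S e, S.val_unique H (h.comap H j) htj e]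

/-- **THE EXPORT OF PL-ABS (abstract form).**  `V₁`, `V₂` arbitrary valuation subrings of `E` over
`B_(X₁)`, `B_(X₂)`.  `β = v₁(u)`, `α = v₂(g^j u)` (normalised by `v(p) = 1`), and the reduction of
`u / p ^ β` at `V₁` is `X₂ ^ (α - β)` times a unit of `B / X₁` times a `p`-th power of the fraction
field of `B / X₁`; `X₂` is a uniformizer of the discrete valuation ring `B / X₁`. -/
theorem node_formula (H : NodeData p g X₁ X₂) (hp : p.Prime) (T : ASGen B p g t)
    {V₁ V₂ : ValuationSubring E} (h₁ : ValOver X₁ V₁) (h₂ : ValOver X₂ V₂)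
    {u : E} (hu : u ≠ 0) (hdiv : DivHor B p u) :
    ∃ (j : ℕ) (α β : ℤ) (b : Bˣ) (c d : B), j < p ∧ ¬ X₁ ∣ c ∧ ¬ X₁ ∣ d ∧
      u / (p : E) ^ β ∈ V₁ ∧ (u / (p : E) ^ β)⁻¹ ∈ V₁ ∧
      (g ^ j) u / (p : E) ^ α ∈ V₂ ∧ ((g ^ j) u / (p : E) ^ α)⁻¹ ∈ V₂ ∧
      u / (p : E) ^ β - algebraMap B E X₂ ^ (α - β) * algebraMap B E (b : B) *
        (algebraMap B E c / algebraMap B E d) ^ p ∈ V₁.nonunits := by
  obtain ⟨i, hi, -, hV₁⟩ := h₁.exists_sheet H hp T
  obtain ⟨R', S⟩ := PL.exists_sheet H hp T hi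
  obtain ⟨j, hj, htj⟩ := h₂.exists_comap_index H.symm hp T hi
  have hW := S.val_unique H.symm (h₂.comap H.symm j) htj
  obtain ⟨α, β, b, c, d, hc, hd, e1, e2, e3, e4, e5⟩ :=
    S.formula H hp (hV₁ R' S) hW hu hdiv
  refine ⟨j, α, β, b, c, d, hj, hc, hd, e1, e2, ?_, ?_, e5⟩
  · have : (g ^ j) (u / (p : E) ^ α) ∈ V₂ := e3
    rwa [map_div₀, map_zpow₀, map_natCast] at this
  · have : (g ^ j) (u / (p : E) ^ α)⁻¹ ∈ V₂ := e4
    rwa [map_inv₀, map_div₀, map_zpow₀, map_natCast] at this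

theorem Export_nonunits_le {W V : ValuationSubring E} (h : W ≤ V) {m : E} (hm : m ∈ V.nonunits) :
    m ∈ W.nonunits :=
  (ValuationSubring.nonunits_le_nonunits.2 h) hm

theorem Export_mem_of_nonunits {W : ValuationSubring E} {m : E} (hm : m ∈ W.nonunits) : m ∈ W := by
  rw [ValuationSubring.mem_nonunits_iff] at hm
  exact (ValuationSubring.valuation_le_one_iff W m).1 hm.le

theorem Export_one_add_inv_mem {W : ValuationSubring E} {m : E} (hm : m ∈ W.nonunits) :
    (1 + m)⁻¹ ∈ W := by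
  rw [ValuationSubring.mem_nonunits_iff] at hm
  rw [← ValuationSubring.valuation_le_one_iff, map_inv₀, Valuation.map_one_add_of_lt _ hm, inv_one]

theorem Export_nonunits_mul {W : ValuationSubring E} {m x : E} (hm : m ∈ W.nonunits)
    (hx : x ∈ W) : m * x ∈ W.nonunits := by
  rw [ValuationSubring.mem_nonunits_iff] at hm ⊢
  rw [← ValuationSubring.valuation_le_one_iff] at hx
  rw [map_mul]
  exact mul_lt_one_of_lt_of_le hm hx

theorem Export_inv_mem {W : ValuationSubring E} {x : E} (hx : x ∉ W.nonunits) : x⁻¹ ∈ W := by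
  rw [ValuationSubring.mem_nonunits_iff, not_lt] at hx
  rw [← ValuationSubring.valuation_le_one_iff, map_inv₀]
  exact inv_le_one_of_one_le₀ hx

theorem Export_zpow_mem {W : ValuationSubring E} {x : E} (hx : x ∈ W) (hx' : x⁻¹ ∈ W) (n : ℤ) :
    x ^ n ∈ W := by
  obtain ⟨k, rfl | rfl⟩ := n.eq_nat_or_neg
  · rw [zpow_natCast]; exact pow_mem hx k
  · rw [zpow_neg, zpow_natCast, ← inv_pow]; exact pow_mem hx' k

/-- The export in the language of rank two valuations: `W ≤ V₁` a valuation subring containing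
`B` (the composite of `V₁` with a valuation of its residue field centered at the node). -/
theorem node_formula_pdiv (H : NodeData p g X₁ X₂) (hp : p.Prime) (T : ASGen B p g t)
    {V₁ V₂ : ValuationSubring E} (h₁ : ValOver X₁ V₁) (h₂ : ValOver X₂ V₂)
    {u : E} (hu : u ≠ 0) (hdiv : DivHor B p u) :
    ∃ (j : ℕ) (α β : ℤ), j < p ∧
      u / (p : E) ^ β ∈ V₁ ∧ (u / (p : E) ^ β)⁻¹ ∈ V₁ ∧
      (g ^ j) u / (p : E) ^ α ∈ V₂ ∧ ((g ^ j) u / (p : E) ^ α)⁻¹ ∈ V₂ ∧
      ∀ W : ValuationSubring E, W ≤ V₁ → (∀ b : B, algebraMap B E b ∈ W) →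
        ∃ a : E, a ≠ 0 ∧ a ^ p * (u / ((p : E) ^ β * algebraMap B E X₂ ^ (α - β))) ∈ W ∧
          (a ^ p * (u / ((p : E) ^ β * algebraMap B E X₂ ^ (α - β))))⁻¹ ∈ W := by
  obtain ⟨j, α, β, b, c, d, hj, hc, hd, e1, e2, e3, e4, e5⟩ := node_formula H hp T h₁ h₂ hu hdiv
  refine ⟨j, α, β, hj, e1, e2, e3, e4, fun W hW hB => ?_⟩
  have hne : ∀ x : B, ¬ X₁ ∣ x → algebraMap B E x ≠ 0 := by
    intro x hx h0
    apply hx
    have : x = 0 := H.inj (by rw [h0, map_zero])
    rw [this]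
    exact dvd_zero _
  have hinv : ∀ x : B, ¬ X₁ ∣ x → (algebraMap B E x)⁻¹ ∈ V₁ := fun x hx =>
    Export_inv_mem (fun h => hx ((h₁.nonunit_iff x).1 h))
  have hc0 := hne c hc
  have hd0 := hne d hd
  have hx0 := hne X₂ H.not_dvd
  have hb0 : algebraMap B E (b : B) ≠ 0 := (b.isUnit.map (algebraMap B E)).ne_zero
  have hbinv : (algebraMap B E (b : B))⁻¹ = algebraMap B E ((b⁻¹ : Bˣ) : B) := by
    apply inv_eq_of_mul_eq_one_right
    rw [← map_mul, Units.mul_inv, map_one]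
  have hp0 : (p : E) ≠ 0 := H.natCast_ne_zero
  set z : E := algebraMap B E X₂ ^ (α - β) * algebraMap B E (b : B) *
        (algebraMap B E c / algebraMap B E d) ^ p with hz
  have hz0 : z ≠ 0 :=
    mul_ne_zero (mul_ne_zero (zpow_ne_zero _ hx0) hb0) (pow_ne_zero _ (div_ne_zero hc0 hd0))
  have hzinv : z⁻¹ ∈ V₁ := by
    have : z⁻¹ = algebraMap B E X₂ ^ (-(α - β)) * algebraMap B E ((b⁻¹ : Bˣ) : B) *
        (algebraMap B E d * (algebraMap B E c)⁻¹) ^ p := by
      rw [hz, mul_inv, mul_inv, hbinv, zpow_neg, ← inv_pow, inv_div, div_eq_mul_inv]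
    rw [this]
    exact V₁.mul_mem _ _ (V₁.mul_mem _ _
      (Export_zpow_mem (h₁.mem _) (hinv _ H.not_dvd) _) (h₁.mem _))
      (pow_mem (V₁.mul_mem _ _ (h₁.mem _) (hinv _ hc)) p)
  have hm : (u / (p : E) ^ β - z) * z⁻¹ ∈ W.nonunits :=
    Export_nonunits_le hW (Export_nonunits_mul e5 hzinv)
  have key : (algebraMap B E d / algebraMap B E c) ^ p *
      (u / ((p : E) ^ β * algebraMap B E X₂ ^ (α - β))) =
      algebraMap B E (b : B) * (1 + (u / (p : E) ^ β - z) * z⁻¹) := by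
    have h1 : 1 + (u / (p : E) ^ β - z) * z⁻¹ = u / (p : E) ^ β * z⁻¹ := by
      field_simp
      ring
    rw [h1, hz]
    have hpβ : (p : E) ^ β ≠ 0 := zpow_ne_zero _ hp0
    have hxz : algebraMap B E X₂ ^ (α - β) ≠ 0 := zpow_ne_zero _ hx0
    field_simp
    rw [← mul_pow, div_mul_div_comm, mul_comm, div_self (mul_ne_zero hc0 hd0), one_pow]
  refine ⟨algebraMap B E d / algebraMap B E c, div_ne_zero hd0 hc0, ?_, ?_⟩
  · rw [key]
    exact W.mul_mem _ _ (hB _) (W.add_mem _ _ W.one_mem (Export_mem_of_nonunits hm))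
  · rw [key, mul_inv, hbinv]
    exact W.mul_mem _ _ (hB _) (Export_one_add_inv_mem hm)

end Fermat.Agent.LP.PL
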