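import Fermat.Agent.LP.PL.Abs.Phi
import Fermat.Agent.GS.Abs.LocNode

/-!
# PL-ABS, file `SheetEx`: existence of the sheets

`S' = B[t]`, `ρ : S' → B / p` the evaluation at `t = i` (`exists_rho`), `𝔪' = ρ⁻¹(𝔪_B / p)`,
`R' = GS.locAt S' 𝔪'` (a `Subalgebra B E`; API: `GS.mem_locAt`, `GS.le_locAt`,
`GS.isLocalization_locAt`, `GS.LocNode_noeth`, `GS.inv_mem_locAt_of_not_mem`).
-/

set_option autoImplicit false

namespace Fermat.Agent.LP.PL

open Polynomial

variable {B E : Type*} [CommRing B] [Field E] [Algebra B E] {p : ℕ}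
variable {g : E ≃+* E} {X₁ X₂ : B} {t : E}

/-- clearing denominators in a polynomial whose coefficients are fractions. -/
theorem SheetEx_clear (hinj : Function.Injective (algebraMap B E)) (L : E[X])
    (hL : ∀ n, ∃ a b : B, b ≠ 0 ∧ L.coeff n * algebraMap B E b = algebraMap B E a) :
    ∃ (f : B[X]) (b : B), b ≠ 0 ∧ L * C (algebraMap B E b) = f.map (algebraMap B E) := by
  classical
  have hdom : IsDomain B := hinj.isDomain (algebraMap B E)
  have key : ∀ s : Finset ℕ, ∃ (f : B[X]) (b : B), b ≠ 0 ∧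
      (∑ n ∈ s, monomial n (L.coeff n)) * C (algebraMap B E b) = f.map (algebraMap B E) := by
    intro s
    induction s using Finset.induction_on with
    | empty => exact ⟨0, 1, one_ne_zero, by simp⟩
    | insert n s hn ih =>
      obtain ⟨f, b, hb, hf⟩ := ih
      obtain ⟨a', b', hb', ha'⟩ := hL n
      refine ⟨monomial n (a' * b) + f * C b', b' * b, mul_ne_zero hb' hb, ?_⟩
      rw [Finset.sum_insert hn, add_mul, Polynomial.map_add, Polynomial.map_mul, ← hf, map_C,
        map_monomial, map_mul (algebraMap B E) a' b, map_mul (algebraMap B E) b' b, ← ha',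
        monomial_mul_C, C_mul]
      congr 1
      · congr 1
        ring
      · ring
  obtain ⟨f, b, hb, hf⟩ := key L.support
  refine ⟨f, b, hb, ?_⟩
  rw [← hf]
  congr 1
  exact L.as_sum_support

/-- `E = Frac(B)(t)`.  Proof: Lagrange interpolation.  The polynomial `L` of degree `< p` with
`L (g^i t) = g^i e` (`i < p`; the nodes are distinct by `ASGen.iterate_injOn`) is invariant under `g`
(uniqueness of the interpolation polynomial, `g ^ p = 1`), so its coefficients are fixed by `g`, hence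
are fractions of elements of `B` (`NodeData.frac`); take a common denominator; `e = L t`. -/
theorem exists_aeval_eq (H : NodeData p g X₁ X₂) (hp : p.Prime) (T : ASGen B p g t) (e : E) :
    ∃ (f : B[X]) (b : B), b ≠ 0 ∧ e * algebraMap B E b = aeval t f := by
  classical
  have hinj := T.iterate_injOn H hp
  set v : ℕ → E := fun i => (g ^ i) t with hv
  set r : ℕ → E := fun i => (g ^ i) e with hr
  set L : E[X] := Lagrange.interpolate (Finset.range p) v r with hLdef
  have hsucc : ∀ (i : ℕ) (x : E), (g ^ (i + 1)) x = g ((g ^ i) x) := by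
    intro i x
    rw [pow_succ']
    rfl
  -- `L` is invariant under `g`
  have hLg : L.map (g : E →+* E) = L := by
    refine Lagrange.eq_interpolate_of_eval_eq r hinj ?_ ?_
    · refine lt_of_le_of_lt (degree_map_le) ?_
      exact Lagrange.degree_interpolate_lt r hinj
    · intro j hj
      have hex : ∃ i ∈ Finset.range p, v j = g (v i) ∧ r j = g (r i) := by
        rcases Nat.eq_zero_or_pos j with rfl | hj0
        · refine ⟨p - 1, Finset.mem_range.2 (Nat.sub_lt hp.pos one_pos), ?_, ?_⟩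
          · show (g ^ 0) t = g ((g ^ (p - 1)) t)
            rw [← hsucc, Nat.sub_add_cancel hp.one_le, H.pow, pow_zero]
            rfl
          · show (g ^ 0) e = g ((g ^ (p - 1)) e)
            rw [← hsucc, Nat.sub_add_cancel hp.one_le, H.pow, pow_zero]
            rfl
        · refine ⟨j - 1, Finset.mem_range.2 (lt_of_le_of_lt (Nat.sub_le j 1)
            (Finset.mem_range.1 hj)), ?_, ?_⟩
          · show (g ^ j) t = g ((g ^ (j - 1)) t)
            rw [← hsucc, Nat.sub_add_cancel hj0]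
          · show (g ^ j) e = g ((g ^ (j - 1)) e)
            rw [← hsucc, Nat.sub_add_cancel hj0]
      obtain ⟨i, hi, hvi, hri⟩ := hex
      rw [hvi, hri]
      have h1 : (L.map (g : E →+* E)).eval ((g : E →+* E) (v i)) = (g : E →+* E) (L.eval (v i)) :=
        eval_map_apply (g : E →+* E) (v i)
      have h2 : L.eval (v i) = r i := Lagrange.eval_interpolate_at_node r hinj hi
      rw [h2] at h1
      exact h1
  have hcoeff : ∀ n, ∃ a b : B, b ≠ 0 ∧ L.coeff n * algebraMap B E b = algebraMap B E a := by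
    intro n
    refine H.frac _ ?_
    have h3 := congrArg (fun q : E[X] => q.coeff n) hLg
    simp only [coeff_map] at h3
    exact h3
  obtain ⟨f, b, hb, hf⟩ := SheetEx_clear H.inj L hcoeff
  refine ⟨f, b, hb, ?_⟩
  have h0 : L.eval t = e :=
    Lagrange.eval_interpolate_at_node r hinj (Finset.mem_range.2 hp.pos)
  have h4 := congrArg (fun q : E[X] => q.eval t) hf
  simp only [eval_mul, eval_C, h0] at h4
  rw [h4, eval_map_algebraMap]

/-- Every element of `B[t]` is `b + (t - i) s`. -/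
theorem SheetEx_decomp (t : E) (i : ℕ) {s : E} (hs : s ∈ Algebra.adjoin B ({t} : Set E)) :
    ∃ b : B, ∃ s₁ ∈ Algebra.adjoin B ({t} : Set E), s = algebraMap B E b + (t - (i : E)) * s₁ := by
  rw [Algebra.adjoin_singleton_eq_range_aeval] at hs
  obtain ⟨f, rfl⟩ := hs
  refine ⟨f.eval (i : B), aeval t (f /ₘ (X - C (i : B))), ?_, ?_⟩
  · rw [Algebra.adjoin_singleton_eq_range_aeval]
    exact ⟨_, rfl⟩
  · have h1 := modByMonic_add_div f (X - C (i : B))
    rw [modByMonic_X_sub_C_eq_C_eval] at h1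
    have h2 := congrArg (aeval t) h1
    rw [map_add, map_mul, map_sub, aeval_C, aeval_X, aeval_C, map_natCast] at h2
    exact h2.symm

/-- The kernel of `ρ` is `(p, t - i)`. -/
theorem SheetEx_ker (t : E) (i : ℕ)
    (ρ : Algebra.adjoin B ({t} : Set E) →ₐ[B] (B ⧸ Ideal.span {(p : B)}))
    (hρ : ρ ⟨t, Algebra.self_mem_adjoin_singleton B t⟩ = (i : B ⧸ Ideal.span {(p : B)}))
    {s : Algebra.adjoin B ({t} : Set E)} (hs : ρ s = 0) :
    ∃ s₁ ∈ Algebra.adjoin B ({t} : Set E), ∃ s₂ ∈ Algebra.adjoin B ({t} : Set E),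
      (s : E) = (p : E) * s₁ + (t - (i : E)) * s₂ := by
  obtain ⟨b, s₁, hs₁, hdec⟩ := SheetEx_decomp (B := B) t i s.2
  have hs' : s = algebraMap B _ b +
      ((⟨t, Algebra.self_mem_adjoin_singleton B t⟩ : Algebra.adjoin B ({t} : Set E)) -
        (i : Algebra.adjoin B ({t} : Set E))) * ⟨s₁, hs₁⟩ := by
    apply Subtype.ext
    rw [hdec]
    simp
  rw [hs', map_add, map_mul, map_sub, hρ, map_natCast, sub_self, zero_mul, add_zero,
    AlgHom.commutes] at hs
  have hb : b ∈ Ideal.span {(p : B)} := Ideal.Quotient.eq_zero_iff_mem.1 hs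
  obtain ⟨b', rfl⟩ := Ideal.mem_span_singleton.1 hb
  refine ⟨algebraMap B E b', Subalgebra.algebraMap_mem _ b', s₁, hs₁, ?_⟩
  rw [hdec, map_mul, map_natCast]

/-- `GS.isLocalization_locAt` over an arbitrary base ring. -/
theorem SheetEx_isLocalization_locAt {C : Subalgebra B E} (𝔪 : Ideal C) [𝔪.IsPrime] :
    letI : Algebra C (GS.locAt C 𝔪) :=
      (Subalgebra.inclusion (GS.le_locAt C 𝔪)).toRingHom.toAlgebra
    IsLocalization.AtPrime (GS.locAt C 𝔪) 𝔪 := by
  let _ : Algebra C (GS.locAt C 𝔪) := (Subalgebra.inclusion (GS.le_locAt C 𝔪)).toRingHom.toAlgebra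
  have hmap : ∀ c : C, ((algebraMap C (GS.locAt C 𝔪) c : GS.locAt C 𝔪) : E) = c := fun _ => rfl
  have h0 : ∀ s : C, s ∉ 𝔪 → (s : E) ≠ 0 := by
    intro s hs h
    apply hs
    have : s = 0 := Subtype.ext h
    rw [this]
    exact 𝔪.zero_mem
  refine ⟨?_, ?_, ?_⟩
  · rintro ⟨s, hs⟩
    have hs' : s ∉ 𝔪 := hs
    refine IsUnit.of_mul_eq_one ⟨(s : E)⁻¹, GS.inv_mem_locAt_of_not_mem 𝔪 hs'⟩ (Subtype.ext ?_)
    show (s : E) * (s : E)⁻¹ = 1
    exact mul_inv_cancel₀ (h0 s hs')
  · rintro ⟨z, s, hs, hc⟩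
    exact ⟨(⟨_, hc⟩, ⟨s, hs⟩), Subtype.ext rfl⟩
  · intro x y hxy
    refine ⟨1, ?_⟩
    have : (x : E) = y := by rw [← hmap x, ← hmap y, hxy]
    rw [Subtype.ext this]

/-- integer polynomials in `t` lie in `B[t]`. -/
theorem SheetEx_aeval_int_mem (t : E) (f : ℤ[X]) :
    aeval t f ∈ Algebra.adjoin B ({t} : Set E) := by
  have h := Polynomial.aeval_algHom_apply
    ((Algebra.adjoin B ({t} : Set E)).val : Algebra.adjoin B ({t} : Set E) →+* E).toIntAlgHom
    ⟨t, Algebra.self_mem_adjoin_singleton B t⟩ f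
  have h2 : aeval t f = ((aeval (⟨t, Algebra.self_mem_adjoin_singleton B t⟩ :
      Algebra.adjoin B ({t} : Set E)) f : Algebra.adjoin B ({t} : Set E)) : E) := h
  rw [h2]
  exact Subtype.property _

/-- THE SHEET AT `t = i`.  With `c = ∏_{k < p, k ≠ i} (t - k)` we have `ρ c = ∏ (i - k)`, a unit, and
`(t - i) c = t ^ p - t + p f(t) ∈ p S'` (`Phi_prod_sub_natCast'`, `ASGen.div_mem_adjoin`), whence
`t_mem`.  `decomp`: for `r = a / s` choose `b` with `ρ a = b ρ s`; then `a - b s ∈ ker ρ = (p, t - i) ⊆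
p R'`.  `retr`: `(b / p) s = a` gives `b ρ s = 0`, `ρ s` a unit.  `frac`: `exists_aeval_eq`. -/
theorem exists_sheet (H : NodeData p g X₁ X₂) (hp : p.Prime) (T : ASGen B p g t) {i : ℕ}
    (hi : i < p) : ∃ R' : Subalgebra B E, Sheet p t i R' := by
  classical
  obtain ⟨ρ, hρ⟩ := exists_rho H hp T i
  have hp0 : (p : E) ≠ 0 := H.natCast_ne_zero
  have := H.loc
  have := H.noeth
  have hne : Ideal.span {(p : B)} ≠ ⊤ := by
    rw [Ne, Ideal.span_singleton_eq_top]
    exact H.not_isUnit_natCast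
  have : Nontrivial (B ⧸ Ideal.span {(p : B)}) := Ideal.Quotient.nontrivial_iff.2 hne
  have : IsLocalRing (B ⧸ Ideal.span {(p : B)}) :=
    IsLocalRing.of_surjective' (Ideal.Quotient.mk _) Ideal.Quotient.mk_surjective
  have hsurj : Function.Surjective ρ := by
    intro x
    obtain ⟨b, rfl⟩ := Ideal.Quotient.mk_surjective x
    exact ⟨algebraMap B _ b, ρ.commutes b⟩
  have hpq : ((p : ℕ) : B ⧸ Ideal.span {(p : B)}) = 0 := by
    have : Ideal.Quotient.mk (Ideal.span {(p : B)}) (p : B) = 0 :=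
      Ideal.Quotient.eq_zero_iff_mem.2 (Ideal.mem_span_singleton_self _)
    rwa [map_natCast] at this
  set 𝔪' : Ideal (Algebra.adjoin B ({t} : Set E)) :=
    (IsLocalRing.maximalIdeal (B ⧸ Ideal.span {(p : B)})).comap ρ with h𝔪'
  have hmax : 𝔪'.IsMaximal := Ideal.comap_isMaximal_of_surjective ρ hsurj
  have : 𝔪'.IsPrime := hmax.isPrime
  have hunit : ∀ s : Algebra.adjoin B ({t} : Set E), s ∉ 𝔪' ↔ IsUnit (ρ s) := by
    intro s
    rw [h𝔪', Ideal.mem_comap, IsLocalRing.mem_maximalIdeal, mem_nonunits_iff, not_not]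
  have h0 : ∀ s : Algebra.adjoin B ({t} : Set E), s ∉ 𝔪' → (s : E) ≠ 0 := by
    intro s hs h
    apply hs
    have : s = 0 := Subtype.ext h
    rw [this]
    exact 𝔪'.zero_mem
  have hle := GS.le_locAt (Algebra.adjoin B ({t} : Set E)) 𝔪'
  -- `t_mem`
  have ht_mem : (t - (i : E)) / (p : E) ∈ GS.locAt (Algebra.adjoin B ({t} : Set E)) 𝔪' := by
    refine ⟨∏ k ∈ (Finset.range p).erase i,
      ((⟨t, Algebra.self_mem_adjoin_singleton B t⟩ : Algebra.adjoin B ({t} : Set E)) -
        (k : Algebra.adjoin B ({t} : Set E))), ?_, ?_⟩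
    · rw [hunit, map_prod, IsUnit.prod_iff]
      intro k hk
      rw [Finset.mem_erase, Finset.mem_range] at hk
      rw [map_sub, hρ, map_natCast]
      have h1 : ¬ (p : ℤ) ∣ ((i : ℤ) - (k : ℤ)) := by
        intro hdvd
        have h2 := Int.eq_zero_of_abs_lt_dvd hdvd (by
          rw [abs_lt]
          constructor <;> omega)
        apply hk.1
        omega
      have h3 := (H.isUnit_intCast hp h1).map (Ideal.Quotient.mk (Ideal.span {(p : B)}))
      simpa using h3
    · obtain ⟨f, hf⟩ := Phi_prod_sub_natCast' hp t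
      have h1 : (t - (i : E)) * ∏ k ∈ (Finset.range p).erase i, (t - (k : E)) =
          ∏ k ∈ Finset.range p, (t - (k : E)) :=
        Finset.mul_prod_erase (Finset.range p) (fun k => t - (k : E)) (Finset.mem_range.2 hi)
      have h2 : ((∏ k ∈ (Finset.range p).erase i,
          ((⟨t, Algebra.self_mem_adjoin_singleton B t⟩ : Algebra.adjoin B ({t} : Set E)) -
            (k : Algebra.adjoin B ({t} : Set E))) : Algebra.adjoin B ({t} : Set E)) : E) =
          ∏ k ∈ (Finset.range p).erase i, (t - (k : E)) := by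
        rw [← Subalgebra.coe_val, map_prod]
        rfl
      rw [h2]
      have h3 : (t - (i : E)) / (p : E) * ∏ k ∈ (Finset.range p).erase i, (t - (k : E)) =
          (t ^ p - t) / (p : E) + aeval t f := by
        rw [div_mul_eq_mul_div, h1, hf, add_div, mul_div_cancel_left₀ _ hp0]
      rw [h3]
      exact add_mem (T.div_mem_adjoin H hp) (SheetEx_aeval_int_mem t f)
  let _ : Algebra (Algebra.adjoin B ({t} : Set E)) (GS.locAt (Algebra.adjoin B ({t} : Set E)) 𝔪') :=
    (Subalgebra.inclusion hle).toRingHom.toAlgebra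
  have : IsLocalization.AtPrime (GS.locAt (Algebra.adjoin B ({t} : Set E)) 𝔪') 𝔪' :=
    SheetEx_isLocalization_locAt 𝔪'
  refine ⟨GS.locAt (Algebra.adjoin B ({t} : Set E)) 𝔪', ?_, ?_, ?_, ?_, ?_, ht_mem, ?_⟩
  · -- noetherian
    have h1 : IsNoetherianRing (Algebra.adjoin B ({t} : Set E)) :=
      isNoetherianRing_of_fg ⟨{t}, by simp⟩
    exact IsLocalization.isNoetherianRing 𝔪'.primeCompl _ h1
  · exact IsLocalization.AtPrime.isLocalRing _ 𝔪'
  · -- fraction field
    refine IsFractionRing.of_field _ _ fun z => ?_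
    obtain ⟨f, b, hb, hz⟩ := exists_aeval_eq H hp T z
    have hb' : algebraMap B E b ≠ 0 := fun h => hb (H.inj (by rw [h, map_zero]))
    refine ⟨⟨aeval t f, hle (aeval_mem_adjoin_singleton B t)⟩,
      ⟨algebraMap B E b, Subalgebra.algebraMap_mem _ b⟩, ?_⟩
    show z = aeval t f / algebraMap B E b
    rw [← hz, mul_div_cancel_right₀ _ hb']
  · -- decomp
    rintro r ⟨s, hs, hrs⟩
    obtain ⟨u, hu⟩ := (hunit s).1 hs
    obtain ⟨b, hb⟩ := Ideal.Quotient.mk_surjective (ρ ⟨_, hrs⟩ * ((u⁻¹ : _ˣ) : B ⧸ Ideal.span {(p : B)}))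
    have hker : ρ (⟨_, hrs⟩ - algebraMap B _ b * s) = 0 := by
      rw [map_sub, map_mul, ρ.commutes]
      show _ - Ideal.Quotient.mk _ b * _ = 0
      rw [hb, ← hu, mul_assoc, Units.inv_mul, mul_one, sub_self]
    obtain ⟨s₁, hs₁, s₂, hs₂, h12⟩ := SheetEx_ker t i ρ hρ hker
    refine ⟨b, ?_⟩
    have hs0 := h0 s hs
    have e1 : (r - algebraMap B E b) / (p : E) =
        (s₁ + (t - (i : E)) / (p : E) * s₂) * (s : E)⁻¹ := by
      have h12' : r * (s : E) - algebraMap B E b * (s : E) = (p : E) * s₁ + (t - (i : E)) * s₂ := h12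
      field_simp
      linear_combination h12'
    rw [e1]
    exact mul_mem (add_mem (hle hs₁) (mul_mem ht_mem (hle hs₂)))
      (GS.inv_mem_locAt_of_not_mem 𝔪' hs)
  · -- retr
    rintro b ⟨s, hs, hbs⟩
    have h1 : algebraMap B _ b * s = (p : Algebra.adjoin B ({t} : Set E)) * ⟨_, hbs⟩ := by
      apply Subtype.ext
      show algebraMap B E b * (s : E) = (p : E) * (algebraMap B E b / (p : E) * (s : E))
      field_simp
    have h2 := congrArg ρ h1
    rw [map_mul, map_mul, map_natCast, hpq, zero_mul, ρ.commutes] at h2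
    have h3 := ((hunit s).1 hs).mul_left_eq_zero.1 h2
    exact Ideal.mem_span_singleton.1 (Ideal.Quotient.eq_zero_iff_mem.1 h3)
  · -- desc
    rintro r ⟨s, hs, hrs⟩
    exact ⟨s, s.2, h0 s hs, GS.inv_mem_locAt_of_not_mem 𝔪' hs, hrs⟩

end Fermat.Agent.LP.PL
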