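import Fermat.Agent.LP.PL.Abs.Val
import Fermat.Agent.LP.PL.Abs.SheetEx

/-!
# PL-ABS, file `Formula`: (P6), the Picard-Lefschetz formula at a node

`u ∈ E^×` with `p ∣ ord_V(u)` at all horizontal `V`.  In the UFD `R'` (a sheet):
`u = X₁ ^ β X₂ ^ α ε a ^ p`, `ε` a unit, `a` a unit at `X₁` and at `X₂`.  Since `X₁ = p G / X₂`:
`u / p ^ β = X₂ ^ (α - β) (G ^ β ε) a ^ p`; reduce modulo the maximal ideal of `V₁ = R'_(X₁)`.
-/

set_option autoImplicit false

namespace Fermat.Agent.LP.PL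

variable {B E : Type*} [CommRing B] [Field E] [Algebra B E] {p : ℕ}
variable {g : E ≃+* E} {X₁ X₂ : B} {t : E} {i : ℕ} {R' : Subalgebra B E}

/-- `x` is a unit at the prime `f` of `R'`. -/
def Formula_UnitAt (f : R') (x : E) : Prop :=
  ∃ s r : R', ¬ f ∣ s ∧ ¬ f ∣ r ∧ x * (r : E) = (s : E)

theorem Formula_UnitAt.ne_zero {f : R'} {x : E} (h : Formula_UnitAt f x) : x ≠ 0 := by
  obtain ⟨s, r, hs, hr, h⟩ := h
  rintro rfl
  rw [zero_mul] at h
  apply hs
  have : s = 0 := Subtype.ext h.symm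
  rw [this]; exact dvd_zero f

theorem Formula_UnitAt.mul {f : R'} (hf : Prime f) {x y : E} (hx : Formula_UnitAt f x)
    (hy : Formula_UnitAt f y) : Formula_UnitAt f (x * y) := by
  obtain ⟨s, r, hs, hr, h⟩ := hx
  obtain ⟨s', r', hs', hr', h'⟩ := hy
  refine ⟨s * s', r * r', fun hd => ?_, fun hd => ?_, ?_⟩
  · exact (hf.dvd_or_dvd hd).elim hs hs'
  · exact (hf.dvd_or_dvd hd).elim hr hr'
  · rw [Subalgebra.coe_mul, Subalgebra.coe_mul, ← h, ← h']; ring

theorem Formula_UnitAt.inv {f : R'} {x : E} (hx : Formula_UnitAt f x) :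
    Formula_UnitAt f x⁻¹ := by
  have hx0 := hx.ne_zero
  obtain ⟨s, r, hs, hr, h⟩ := hx
  refine ⟨r, s, hr, hs, ?_⟩
  rw [← h, ← mul_assoc, inv_mul_cancel₀ hx0, one_mul]

theorem Formula_UnitAt.one {f : R'} (hf : Prime f) : Formula_UnitAt f (1 : E) :=
  ⟨1, 1, hf.not_dvd_one, hf.not_dvd_one, by simp⟩

theorem Formula_UnitAt.pow {f : R'} (hf : Prime f) {x : E} (hx : Formula_UnitAt f x) (n : ℕ) :
    Formula_UnitAt f (x ^ n) := by
  induction n with
  | zero => rw [pow_zero]; exact Formula_UnitAt.one hf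
  | succ n ih => rw [pow_succ]; exact ih.mul hf hx

theorem Formula_UnitAt.zpow {f : R'} (hf : Prime f) {x : E} (hx : Formula_UnitAt f x) (n : ℤ) :
    Formula_UnitAt f (x ^ n) := by
  obtain ⟨n, rfl | rfl⟩ := n.eq_nat_or_neg
  · rw [zpow_natCast]; exact hx.pow hf n
  · rw [zpow_neg, zpow_natCast]; exact (hx.pow hf n).inv

theorem Formula_UnitAt.of_not_dvd {f : R'} (hf : Prime f) {r : R'} (hr : ¬ f ∣ r) :
    Formula_UnitAt f (r : E) :=
  ⟨r, 1, hr, hf.not_dvd_one, by simp⟩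

theorem Formula_UnitAt.congr {f f' : R'} (h : Associated f f') {x : E}
    (hx : Formula_UnitAt f x) : Formula_UnitAt f' x := by
  obtain ⟨s, r, hs, hr, hx⟩ := hx
  exact ⟨s, r, fun hd => hs (h.dvd_iff_dvd_left.2 hd), fun hd => hr (h.dvd_iff_dvd_left.2 hd), hx⟩

theorem Formula_unitAt_of_mem {f : R'} (hf : Prime f) {x : E} (hx : x ≠ 0)
    (h : ∃ s t : R', ¬ f ∣ t ∧ x * (t : E) = (s : E))
    (h' : ∃ s t : R', ¬ f ∣ t ∧ x⁻¹ * (t : E) = (s : E)) : Formula_UnitAt f x := by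
  obtain ⟨s, t, ht, h⟩ := h
  obtain ⟨s', t', ht', h'⟩ := h'
  refine ⟨s, t, fun hd => ?_, ht, h⟩
  have h1 : s * s' = t * t' := by
    apply Subtype.ext
    rw [Subalgebra.coe_mul, Subalgebra.coe_mul, ← h, ← h']
    field_simp
  have h2 : f ∣ t * t' := h1 ▸ hd.mul_right s'
  exact (hf.dvd_or_dvd h2).elim ht ht'

theorem Formula_UnitAt.atPrime {X : B} {x : E} (hx : Formula_UnitAt (algebraMap B R' X) x) :
    AtPrime R' X x := by
  obtain ⟨s, r, -, hr, h⟩ := hx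
  exact ⟨s, r, hr, h⟩

/-- the order of `u` at `X₁`, in terms of `Formula_UnitAt`. -/
theorem Formula_exists_ord (H : NodeData p g X₁ X₂) (S : Sheet p t i R') {u : E} (hu : u ≠ 0) :
    ∃ β : ℤ, Formula_UnitAt (algebraMap B R' X₁) (u / algebraMap B E X₁ ^ β) := by
  have := S.frac
  have := S.ufd H
  have hX : Prime (algebraMap B R' X₁) := S.prime H
  have hXE : ((algebraMap B R' X₁ : R') : E) = algebraMap B E X₁ := rfl
  have hX0 : algebraMap B E X₁ ≠ 0 := by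
    intro h0
    apply hX.ne_zero
    exact Subtype.ext (by rw [hXE, h0]; rfl)
  obtain ⟨s, r, hr, hur⟩ := IsFractionRing.div_surjective (A := R') u
  have hr0 : r ≠ 0 := nonZeroDivisors.ne_zero hr
  have hrE : (r : E) ≠ 0 := fun h => hr0 (Subtype.ext h)
  have hur' : u = (s : E) / (r : E) := hur.symm
  have hs0 : s ≠ 0 := by
    rintro rfl
    apply hu
    rw [hur']; simp
  obtain ⟨m, s', hs', hs⟩ := WfDvdMonoid.max_power_factor hs0 hX.irreducible
  obtain ⟨n, r', hr', hr⟩ := WfDvdMonoid.max_power_factor hr0 hX.irreducible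
  have hr'E : (r' : E) ≠ 0 := by
    intro h
    apply hr'
    have : r' = 0 := Subtype.ext h
    rw [this]; exact dvd_zero _
  refine ⟨(m : ℤ) - n, s', r', hs', hr', ?_⟩
  rw [hur', hs, hr, Subalgebra.coe_mul, Subalgebra.coe_mul, Subalgebra.coe_pow, Subalgebra.coe_pow,
    hXE, zpow_sub₀ hX0, zpow_natCast, zpow_natCast]
  field_simp

/-- the order of `u` at `X₁`. -/
theorem Sheet.exists_ord (H : NodeData p g X₁ X₂) (S : Sheet p t i R') {u : E} (hu : u ≠ 0) :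
    ∃ β : ℤ, AtPrime R' X₁ (u / algebraMap B E X₁ ^ β) ∧
      AtPrime R' X₁ (u / algebraMap B E X₁ ^ β)⁻¹ := by
  obtain ⟨β, h⟩ := Formula_exists_ord H S hu
  exact ⟨β, h.atPrime, h.inv.atPrime⟩

/-- `AtPrime R' X₁` in the form needed by `GR.E.exists_pow_mul_eq_unit`. -/
theorem Sheet.atPrime_unit (H : NodeData p g X₁ X₂) (S : Sheet p t i R') {u : E}
    (h : AtPrime R' X₁ u) (h' : AtPrime R' X₁ u⁻¹) (hu : u ≠ 0) :
    ∃ s r : R', ¬ algebraMap B R' X₁ ∣ s ∧ ¬ algebraMap B R' X₁ ∣ r ∧ u * (r : E) = (s : E) :=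
  Formula_unitAt_of_mem (S.prime H) hu h h'

/-- a prime element `f` of `R'` which does not divide `p`: `u` has order divisible by `p` at `f`
(`GR.E.exists_valuationSubring_of_prime` + `DivHor`; copy of the "horizontal prime" case of
`GT.exists_locGen`, file `GT/Abs/LocGen.lean`). -/
theorem Sheet.horizontal (H : NodeData p g X₁ X₂) (S : Sheet p t i R') {u : E} (hu : u ≠ 0)
    (hdiv : DivHor B p u) {f : R'} (hf : Prime f) (hfp : ¬ f ∣ (p : R')) :
    ∃ a : E, a ≠ 0 ∧ ∃ s r : R', ¬ f ∣ s ∧ ¬ f ∣ r ∧ a ^ p * u * (r : E) = (s : E) := by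
  have := S.frac
  have := S.ufd H
  obtain ⟨V, hV⟩ := Fermat.Agent.GR.E.exists_valuationSubring_of_prime (F := E) f hf
  have hV' : ∀ x : E, x ∈ V ↔ ∃ s t : R', ¬ f ∣ t ∧ x * (t : E) = (s : E) := hV
  have hp0 : (p : E) ≠ 0 := H.natCast_ne_zero
  obtain ⟨a, ha, h1, h2⟩ := hdiv V
    (fun b => (hV' _).2 ⟨algebraMap B R' b, 1, hf.not_dvd_one, by
      rw [Subalgebra.coe_one, mul_one]; rfl⟩)
    ((hV' _).2 ⟨1, (p : R'), hfp, by
      have hc : (((p : R') : R') : E) = (p : E) := by push_cast; rfl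
      rw [Subalgebra.coe_one, hc, inv_mul_cancel₀ hp0]⟩)
  exact ⟨a, ha, Formula_unitAt_of_mem hf (mul_ne_zero (pow_ne_zero _ ha) hu)
    ((hV' _).1 h1) ((hV' _).1 h2)⟩

/-- in a valuation subring, `x ^ n ∈ V` implies `x ∈ V`. -/
theorem Formula_mem_of_pow_mem (V : ValuationSubring E) {x : E} {n : ℕ} (hn : 0 < n)
    (h : x ^ n ∈ V) : x ∈ V := by
  rcases V.mem_or_inv_mem x with h1 | h1
  · exact h1
  · by_cases hx : x = 0
    · rw [hx]; exact V.zero_mem
    · have : x = x ^ n * x⁻¹ ^ (n - 1) := by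
        obtain ⟨m, rfl⟩ : ∃ m, n = m + 1 := ⟨n - 1, by omega⟩
        rw [Nat.add_sub_cancel, pow_succ, inv_pow]
        field_simp
      rw [this]
      exact V.mul_mem _ _ h (V.pow_mem h1 _)

/-- `X₁` is not divisible by a prime which does not divide `p`. -/
theorem Formula_not_dvd_X (H : NodeData p g X₁ X₂) {f : R'} (hfp : ¬ f ∣ (p : R')) :
    ¬ f ∣ algebraMap B R' X₁ := by
  intro hd
  obtain ⟨G, hG⟩ := H.mul_eq
  apply hfp
  have h1 : algebraMap B R' X₁ * algebraMap B R' X₂ = (p : R') * algebraMap B R' (G : B) := by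
    rw [← map_mul, hG, map_mul, map_natCast]
  have h2 : f ∣ (p : R') * algebraMap B R' (G : B) := h1 ▸ hd.mul_right _
  exact ((G.isUnit.map (algebraMap B R')).dvd_mul_right).1 h2

/-- a `p`-th root of a unit at `X₁` is a unit at `X₁`. -/
theorem Formula_atPrime_of_pow (H : NodeData p g X₁ X₂) (hp : p.Prime) (S : Sheet p t i R')
    {a : E} (h : Formula_UnitAt (algebraMap B R' X₁) (a ^ p)) :
    AtPrime R' X₁ a ∧ AtPrime R' X₁ a⁻¹ := by
  obtain ⟨V, hV⟩ := S.exists_val H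
  refine ⟨(hV _).1 (Formula_mem_of_pow_mem V hp.pos ((hV _).2 h.atPrime)),
    (hV _).1 (Formula_mem_of_pow_mem V hp.pos ((hV _).2 ?_))⟩
  rw [inv_pow]
  exact h.inv.atPrime

/-- FACTORIZATION in the UFD `R'` (`GR.E.exists_pow_mul_eq_unit` applied to
`u / (X₁ ^ β X₂ ^ α)`). -/
theorem Sheet.factor (H : NodeData p g X₁ X₂) (hp : p.Prime) (S : Sheet p t i R') {u : E}
    (hu : u ≠ 0) (hdiv : DivHor B p u) :
    ∃ (α β : ℤ) (ε : R'ˣ) (a : E), a ≠ 0 ∧
      AtPrime R' X₁ a ∧ AtPrime R' X₁ a⁻¹ ∧ AtPrime R' X₂ a ∧ AtPrime R' X₂ a⁻¹ ∧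
      u = algebraMap B E X₁ ^ β * algebraMap B E X₂ ^ α * ((ε : R') : E) * a ^ p := by
  have := S.frac
  have := S.ufd H
  have hP₁ : Prime (algebraMap B R' X₁) := S.prime H
  have hP₂ : Prime (algebraMap B R' X₂) := S.prime H.symm
  have hXE₁ : ((algebraMap B R' X₁ : R') : E) = algebraMap B E X₁ := rfl
  have hXE₂ : ((algebraMap B R' X₂ : R') : E) = algebraMap B E X₂ := rfl
  have hX₁0 : algebraMap B E X₁ ≠ 0 := by
    intro h0
    exact hP₁.ne_zero (Subtype.ext (by rw [hXE₁, h0]; rfl))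
  have hX₂0 : algebraMap B E X₂ ≠ 0 := by
    intro h0
    exact hP₂.ne_zero (Subtype.ext (by rw [hXE₂, h0]; rfl))
  obtain ⟨β, hβ⟩ := Formula_exists_ord H S hu
  obtain ⟨α, hα⟩ := Formula_exists_ord H.symm S hu
  set w : E := u / (algebraMap B E X₁ ^ β * algebraMap B E X₂ ^ α) with hw
  have hw0 : w ≠ 0 :=
    div_ne_zero hu (mul_ne_zero (zpow_ne_zero _ hX₁0) (zpow_ne_zero _ hX₂0))
  -- `w` is a unit at `X₁` and at `X₂`
  have hw₁ : Formula_UnitAt (algebraMap B R' X₁) w := by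
    have h1 : Formula_UnitAt (algebraMap B R' X₁) (algebraMap B E X₂) :=
      Formula_UnitAt.of_not_dvd hP₁ (S.not_dvd H)
    have h2 := hβ.mul hP₁ (h1.zpow hP₁ α).inv
    have h3 : w = u / algebraMap B E X₁ ^ β * (algebraMap B E X₂ ^ α)⁻¹ := by
      rw [hw, div_mul_eq_div_div, div_eq_mul_inv (u / _)]
    rw [h3]; exact h2
  have hw₂ : Formula_UnitAt (algebraMap B R' X₂) w := by
    have h1 : Formula_UnitAt (algebraMap B R' X₂) (algebraMap B E X₁) :=
      Formula_UnitAt.of_not_dvd hP₂ (S.not_dvd H.symm)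
    have h2 := hα.mul hP₂ (h1.zpow hP₂ β).inv
    have h3 : w = u / algebraMap B E X₂ ^ α * (algebraMap B E X₁ ^ β)⁻¹ := by
      rw [hw, mul_comm (algebraMap B E X₁ ^ β), div_mul_eq_div_div, div_eq_mul_inv (u / _)]
    rw [h3]; exact h2
  obtain ⟨a₀, ha₀, ε, hε⟩ := Fermat.Agent.GR.E.exists_pow_mul_eq_unit (A := R') (F := E) p hp.pos w
    hw0 (by
      intro f hf
      by_cases hfp : f ∣ (p : R')
      · refine ⟨1, one_ne_zero, ?_⟩
        rw [one_pow, one_mul]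
        rcases S.dvd_of_prime_dvd H hf hfp with h | h
        · exact hw₁.congr h.symm
        · exact hw₂.congr h.symm
      · obtain ⟨a, ha, hau⟩ := S.horizontal H hu hdiv hf hfp
        refine ⟨a, ha, ?_⟩
        have hau' : Formula_UnitAt f (a ^ p * u) := hau
        have h1 : Formula_UnitAt f (algebraMap B E X₁) :=
          Formula_UnitAt.of_not_dvd hf (Formula_not_dvd_X H hfp)
        have h2 : Formula_UnitAt f (algebraMap B E X₂) :=
          Formula_UnitAt.of_not_dvd hf (Formula_not_dvd_X H.symm hfp)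
        have h3 := hau'.mul hf ((h1.zpow hf β).mul hf (h2.zpow hf α)).inv
        have h4 : a ^ p * w = a ^ p * u * (algebraMap B E X₁ ^ β * algebraMap B E X₂ ^ α)⁻¹ := by
          rw [hw, div_eq_mul_inv, mul_assoc]
        have h5 : Formula_UnitAt f (a ^ p * w) := by rw [h4]; exact h3
        exact h5)
  have hε' : a₀ ^ p * w = ((ε : R') : E) := hε
  have hεE : ((ε : R') : E) ≠ 0 := by
    rw [← hε']; exact mul_ne_zero (pow_ne_zero _ ha₀) hw0
  -- `ε` is a unit at every prime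
  have hεu : ∀ f : R', Prime f → Formula_UnitAt f ((ε : R') : E) := fun f hf =>
    Formula_UnitAt.of_not_dvd hf (fun hd => hf.not_isUnit (isUnit_of_dvd_unit hd ε.isUnit))
  have hapow : a₀⁻¹ ^ p = w * (((ε : R') : E))⁻¹ := by
    rw [← hε', inv_pow]
    field_simp
  have h₁ := Formula_atPrime_of_pow H hp S (a := a₀⁻¹) (by
    rw [hapow]; exact hw₁.mul hP₁ (hεu _ hP₁).inv)
  have h₂ := Formula_atPrime_of_pow H.symm hp S (a := a₀⁻¹) (by
    rw [hapow]; exact hw₂.mul hP₂ (hεu _ hP₂).inv)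
  refine ⟨α, β, ε, a₀⁻¹, inv_ne_zero ha₀, h₁.1, h₁.2, h₂.1, h₂.2, ?_⟩
  rw [hapow, hw]
  field_simp

theorem Formula_zpow_mem {V : ValuationSubring E} {x : E} (h : x ∈ V) (h' : x⁻¹ ∈ V) (n : ℤ) :
    x ^ n ∈ V := by
  cases n with
  | ofNat k => simpa using pow_mem h k
  | negSucc k => rw [zpow_negSucc, ← inv_pow]; exact pow_mem h' _

theorem Formula_unit_zpow (w : R'ˣ) (n : ℤ) :
    (((w ^ n : R'ˣ) : R') : E) = ((w : R') : E) ^ n := by
  have h := congrArg Units.val (map_zpow (Units.map ((R'.val : R' →+* E) : R' →* E)) w n)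
  rw [Units.val_zpow_eq_zpow_val] at h
  exact h

/-- `u / p ^ β = X₂ ^ (α - β) ε' a ^ p` with `ε' = G ^ β ε`. -/
theorem Formula_div (H : NodeData p g X₁ X₂) {u a : E} {α β : ℤ} (ε : R'ˣ)
    (hu : u = algebraMap B E X₁ ^ β * algebraMap B E X₂ ^ α * ((ε : R') : E) * a ^ p) :
    ∃ ε' : R'ˣ, u / (p : E) ^ β = algebraMap B E X₂ ^ (α - β) * ((ε' : R') : E) * a ^ p := by
  obtain ⟨G, hG⟩ := H.mul_eq
  have hp0 := H.natCast_ne_zero
  have hx2 : algebraMap B E X₂ ≠ 0 := by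
    intro h
    exact H.prime₂.ne_zero (H.inj (by rw [h, map_zero]))
  have hx1 : algebraMap B E X₁ = (p : E) * algebraMap B E (G : B) / algebraMap B E X₂ := by
    rw [eq_div_iff hx2, ← map_mul, hG, map_mul, map_natCast]
  refine ⟨(Units.map ((algebraMap B R' : B →+* R') : B →* R') G) ^ β * ε, ?_⟩
  rw [Units.val_mul, Subalgebra.coe_mul, Formula_unit_zpow, hu, hx1, div_zpow, mul_zpow,
    zpow_sub₀ hx2]
  have h1 : (p : E) ^ β ≠ 0 := zpow_ne_zero _ hp0
  have h2 : algebraMap B E X₂ ^ β ≠ 0 := zpow_ne_zero _ hx2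
  have h3 : (((Units.map ((algebraMap B R' : B →+* R') : B →* R') G : R'ˣ) : R') : E)
      = algebraMap B E (G : B) := rfl
  rw [h3]
  generalize (p : E) ^ β = A at *
  generalize algebraMap B E X₂ ^ β = C at *
  field_simp

/-- `u / p ^ β` is a unit of `V`. -/
theorem Formula_unit_mem {V : ValuationSubring E} (hV : ∀ e : E, e ∈ V ↔ AtPrime R' X₁ e)
    (H : NodeData p g X₁ X₂) (S : Sheet p t i R') {a : E} (ha : a ∈ V) (n : ℤ) (ε' : R'ˣ) :
    algebraMap B E X₂ ^ n * ((ε' : R') : E) * a ^ p ∈ V := by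
  have hx2 : algebraMap B E X₂ ∈ V := Sheet.le_val hV H S (R'.algebraMap_mem X₂)
  exact V.mul_mem _ _ (V.mul_mem _ _ (Formula_zpow_mem hx2 (Sheet.inv_mem_val hV H S) n)
    (Sheet.le_val hV H S (ε' : R').2)) (pow_mem ha p)

theorem Formula_unit_inv_mem {V : ValuationSubring E} (hV : ∀ e : E, e ∈ V ↔ AtPrime R' X₁ e)
    (H : NodeData p g X₁ X₂) (S : Sheet p t i R') {a : E} (ha : a⁻¹ ∈ V) (n : ℤ) (ε' : R'ˣ) :
    (algebraMap B E X₂ ^ n * ((ε' : R') : E) * a ^ p)⁻¹ ∈ V := by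
  have h := Formula_unit_mem hV H S ha (-n) ε'⁻¹
  have h1 : (((ε'⁻¹ : R'ˣ) : R') : E) = (((ε' : R'ˣ) : R') : E)⁻¹ := by
    have := Formula_unit_zpow ε' (-1)
    simpa using this
  rw [h1] at h
  rw [mul_inv, mul_inv, ← zpow_neg, ← inv_pow]
  exact h

/-- The formula on one sheet: `V₁`, `V₂` the localizations of `R'` at `X₁`, `X₂`. -/
theorem Sheet.formula (H : NodeData p g X₁ X₂) (hp : p.Prime) (S : Sheet p t i R')
    {V₁ V₂ : ValuationSubring E} (hV₁ : ∀ e : E, e ∈ V₁ ↔ AtPrime R' X₁ e)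
    (hV₂ : ∀ e : E, e ∈ V₂ ↔ AtPrime R' X₂ e) {u : E} (hu : u ≠ 0) (hdiv : DivHor B p u) :
    ∃ (α β : ℤ) (b : Bˣ) (c d : B), ¬ X₁ ∣ c ∧ ¬ X₁ ∣ d ∧
      u / (p : E) ^ β ∈ V₁ ∧ (u / (p : E) ^ β)⁻¹ ∈ V₁ ∧
      u / (p : E) ^ α ∈ V₂ ∧ (u / (p : E) ^ α)⁻¹ ∈ V₂ ∧
      u / (p : E) ^ β - algebraMap B E X₂ ^ (α - β) * algebraMap B E (b : B) *
        (algebraMap B E c / algebraMap B E d) ^ p ∈ V₁.nonunits := by
  obtain ⟨α, β, ε, a, ha0, ha1, ha1', ha2, ha2', hua⟩ := Sheet.factor H hp S hu hdiv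
  rw [← hV₁] at ha1 ha1'
  rw [← hV₂] at ha2 ha2'
  obtain ⟨ε₁, h₁⟩ := Formula_div H ε hua
  have hua' : u = algebraMap B E X₂ ^ α * algebraMap B E X₁ ^ β * ((ε : R') : E) * a ^ p := by
    rw [hua]; ring
  obtain ⟨ε₂, h₂⟩ := Formula_div H.symm ε hua'
  obtain ⟨b, hb⟩ := Sheet.exists_unit H S ε₁
  obtain ⟨c, d, hc, hd, hcd⟩ := Sheet.residue_unit hV₁ H S ha1 ha1' ha0
  refine ⟨α, β, b, c, d, hc, hd, ?_, ?_, ?_, ?_, ?_⟩
  · rw [h₁]; exact Formula_unit_mem hV₁ H S ha1 _ _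
  · rw [h₁]; exact Formula_unit_inv_mem hV₁ H S ha1' _ _
  · rw [h₂]; exact Formula_unit_mem hV₂ H.symm S ha2 _ _
  · rw [h₂]; exact Formula_unit_inv_mem hV₂ H.symm S ha2' _ _
  · rw [h₁, Sheet.mem_nonunits_iff' hV₁ H S]
    rw [Sheet.mem_nonunits_iff' hV₁ H S] at hcd
    have hp0 := H.natCast_ne_zero
    have hx2 : algebraMap B E X₂ ∈ V₁ := Sheet.le_val hV₁ H S (R'.algebraMap_mem X₂)
    have hz := Formula_zpow_mem hx2 (Sheet.inv_mem_val hV₁ H S) (α - β)
    have hbV : algebraMap B E (b : B) ∈ V₁ := Sheet.le_val hV₁ H S (R'.algebraMap_mem _)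
    have hpV : (p : E) ∈ V₁ := natCast_mem V₁ p
    have hcdV : algebraMap B E c / algebraMap B E d ∈ V₁ := by
      have h := V₁.sub_mem ha1 (V₁.mul_mem _ _ hpV hcd)
      have e : a - (p : E) * ((a - algebraMap B E c / algebraMap B E d) / (p : E))
          = algebraMap B E c / algebraMap B E d := by
        field_simp
        ring
      rwa [e] at h
    obtain ⟨k, hk⟩ := sub_dvd_pow_sub_pow (⟨a, ha1⟩ : V₁) ⟨_, hcdV⟩ p
    have hk' : a ^ p - (algebraMap B E c / algebraMap B E d) ^ p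
        = (a - algebraMap B E c / algebraMap B E d) * (k : E) := by
      simpa using congrArg (Subtype.val) hk
    have e : (algebraMap B E X₂ ^ (α - β) * ((ε₁ : R') : E) * a ^ p -
        algebraMap B E X₂ ^ (α - β) * algebraMap B E (b : B) *
          (algebraMap B E c / algebraMap B E d) ^ p) / (p : E)
        = algebraMap B E X₂ ^ (α - β) * (((((ε₁ : R') : E) - algebraMap B E (b : B)) / (p : E)) * a ^ p
          + algebraMap B E (b : B) * (((a - algebraMap B E c / algebraMap B E d) / (p : E)) * (k : E))) := by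
      have : (algebraMap B E c / algebraMap B E d) ^ p
        = a ^ p - (a - algebraMap B E c / algebraMap B E d) * (k : E) := by rw [← hk']; ring
      rw [this]
      generalize algebraMap B E X₂ ^ (α - β) = Z
      generalize algebraMap B E c / algebraMap B E d = Q
      field_simp
      ring
    rw [e]
    exact V₁.mul_mem _ _ hz (V₁.add_mem _ _ (V₁.mul_mem _ _ (Sheet.le_val hV₁ H S hb) (pow_mem ha1 p))
      (V₁.mul_mem _ _ hbV (V₁.mul_mem _ _ hcd k.2)))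

end Fermat.Agent.LP.PL
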