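import Fermat.Agent.LP.PL.Abs.Defs
import Fermat.Agent.GS.Abs.Node
import Fermat.Agent.GS.Abs.LocNode
import Fermat.Agent.GT.Loc.Defs

/-!
# PL-ABS, file `OfChart`: from the language of charts (GS, GT-LOC) to `NodeData`

`R` a DVR with uniformizer `ϖ = p`, `F` the function field `F_{L0}`, `𝒪₁ 𝒪₂` its two Gauss valuation
subrings, `B : Subalgebra R F` the local ring of a node (`GS.NodeLoc`), regular:
`X₁ X₂ = ϖ G`, `X₁ ∈ 𝔭₁`, `X₂ ∈ 𝔭₂`, `G` a unit.  `φ : F →ₐ[R] E` the cyclic cover, `g` the deck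
transformation.  `B` acts on `E` through `φ` (`algBE`).
-/

set_option autoImplicit false

namespace Fermat.Agent.LP.PL

open Fermat.Agent.GR.E Fermat.Agent.GS

variable {R : Type*} [CommRing R] {F E : Type*} [Field F] [Field E] [Algebra R F] [Algebra R E]

/-- `E` as an algebra over a subalgebra `B` of `F`, through `φ`. -/
@[reducible] def algBE (φ : F →ₐ[R] E) (B : Subalgebra R F) : Algebra B E :=
  (φ.toRingHom.comp (algebraMap B F)).toAlgebra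

theorem algBE_algebraMap (φ : F →ₐ[R] E) (B : Subalgebra R F) (b : B) :
    @algebraMap B E _ _ (algBE φ B) b = φ (b : F) := rfl

variable {ϖ : R} {𝒪₁ 𝒪₂ : ValuationSubring F} {B : Subalgebra R F}

theorem OfChart_mem_nonunits_iff {K : Type*} [Field K] (V : ValuationSubring K) (a : K) :
    a ∈ V.nonunits ↔ a = 0 ∨ a⁻¹ ∉ V := by
  by_cases h0 : a = 0
  · subst h0
    refine ⟨fun _ => Or.inl rfl, fun _ => ?_⟩
    rw [V.mem_nonunits_iff, map_zero]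
    exact zero_lt_one
  · rw [V.mem_nonunits_iff, ← V.valuation_le_one_iff, map_inv₀,
      inv_le_one₀ (zero_lt_iff.2 ((V.valuation.ne_zero_iff).2 h0)), not_le]
    exact ⟨fun h => Or.inr h, fun h => h.resolve_left h0⟩

theorem OfChart_dvd_iff_aux (h : NodeLoc ϖ 𝒪₁ 𝒪₂ B) {X₁ X₂ G : B}
    (hX₁ : (X₁ : F) / algebraMap R F ϖ ∈ 𝒪₁) (hX₂ : (X₂ : F) / algebraMap R F ϖ ∈ 𝒪₂)
    (hG : IsUnit G) (hmul : X₁ * X₂ = algebraMap R B ϖ * G) (b : B) :
    X₁ ∣ b ↔ (b : F) / algebraMap R F ϖ ∈ 𝒪₁ := by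
  have hπ0 : algebraMap R F ϖ ≠ 0 := h.G₁.ne_zero
  constructor
  · rintro ⟨c, rfl⟩
    have e : ((X₁ * c : B) : F) / algebraMap R F ϖ = (X₁ : F) / algebraMap R F ϖ * (c : F) := by
      push_cast
      ring
    rw [e]
    exact 𝒪₁.mul_mem _ _ hX₁ (h.chart.le₁ _ c.2)
  · intro hb
    have h1 : ((b * X₂ : B) : F) / algebraMap R F ϖ ∈ 𝒪₁ := by
      have e : ((b * X₂ : B) : F) / algebraMap R F ϖ = (b : F) / algebraMap R F ϖ * (X₂ : F) := by
        push_cast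
        ring
      rw [e]
      exact 𝒪₁.mul_mem _ _ hb (h.chart.le₁ _ X₂.2)
    have h2 : ((b * X₂ : B) : F) / algebraMap R F ϖ ∈ 𝒪₂ := by
      have e : ((b * X₂ : B) : F) / algebraMap R F ϖ = (b : F) * ((X₂ : F) / algebraMap R F ϖ) := by
        push_cast
        ring
      rw [e]
      exact 𝒪₂.mul_mem _ _ (h.chart.le₂ _ b.2) hX₂
    have h3 := h.chart.sat _ (b * X₂).2 h1 h2
    set c : B := ⟨_, h3⟩ with hc
    have hπB : algebraMap R B ϖ ≠ 0 := by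
      intro h0
      apply hπ0
      have := congrArg (fun x : B => (x : F)) h0
      simpa using this
    have h4 : b * X₂ = algebraMap R B ϖ * c := by
      apply Subtype.ext
      have e : ((algebraMap R B ϖ * c : B) : F) =
          algebraMap R F ϖ * (((b * X₂ : B) : F) / algebraMap R F ϖ) := rfl
      rw [e, mul_div_cancel₀ _ hπ0]
    have h5 : algebraMap R B ϖ * (b * G) = algebraMap R B ϖ * (X₁ * c) := by
      calc algebraMap R B ϖ * (b * G) = b * (algebraMap R B ϖ * G) := by ring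
        _ = b * (X₁ * X₂) := by rw [hmul]
        _ = X₁ * (b * X₂) := by ring
        _ = X₁ * (algebraMap R B ϖ * c) := by rw [h4]
        _ = algebraMap R B ϖ * (X₁ * c) := by ring
    have h6 : b * G = X₁ * c := mul_left_cancel₀ hπB h5
    obtain ⟨u, rfl⟩ := hG
    refine ⟨c * ((u⁻¹ : Bˣ) : B), ?_⟩
    rw [← mul_assoc, ← h6, mul_assoc, Units.mul_inv, mul_one]

/-- `GS.mem_vert` without the hypothesis that `R` is a DVR. -/
theorem OfChart_mem_vert {𝒪 : ValuationSubring F} {C : Subalgebra R F} (hle : ∀ x ∈ C, x ∈ 𝒪)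
    (x : C) : x ∈ vert ϖ 𝒪 C ↔ (x : F) / algebraMap R F ϖ ∈ 𝒪 := by
  constructor
  · intro hx
    refine Submodule.span_induction (p := fun (y : C) _ => (y : F) / algebraMap R F ϖ ∈ 𝒪)
      (fun y hy => hy) ?_ ?_ ?_ hx
    · simp
    · intro y z _ _ hy hz
      have : ((y + z : C) : F) / algebraMap R F ϖ
          = (y : F) / algebraMap R F ϖ + (z : F) / algebraMap R F ϖ := by
        push_cast; ring
      rw [this]
      exact add_mem hy hz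
    · intro a y _ hy
      have : ((a • y : C) : F) / algebraMap R F ϖ = (a : F) * ((y : F) / algebraMap R F ϖ) := by
        rw [smul_eq_mul]; push_cast; ring
      rw [this]
      exact mul_mem (hle _ a.2) hy
  · intro hx
    exact Ideal.subset_span hx

/-- `𝔭₁ = X₁ B`.  (`f ∈ 𝔭₁`: `f X₂ / ϖ ∈ 𝒪₁ ∩ 𝒪₂`, so `f X₂ = ϖ c`, `c ∈ B` (`sat`), and
`f = X₁ G⁻¹ c`.) -/
theorem vert_eq_span (h : NodeLoc ϖ 𝒪₁ 𝒪₂ B) {X₁ X₂ G : B}
    (hX₁ : (X₁ : F) / algebraMap R F ϖ ∈ 𝒪₁) (hX₂ : (X₂ : F) / algebraMap R F ϖ ∈ 𝒪₂)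
    (hG : IsUnit G) (hmul : X₁ * X₂ = algebraMap R B ϖ * G) :
    vert ϖ 𝒪₁ B = Ideal.span {X₁} := by
  ext b
  rw [OfChart_mem_vert h.chart.le₁, Ideal.mem_span_singleton, OfChart_dvd_iff_aux h hX₁ hX₂ hG hmul]

theorem OfChart_dvd_iff (h : NodeLoc ϖ 𝒪₁ 𝒪₂ B) {X₁ X₂ G : B}
    (hX₁ : (X₁ : F) / algebraMap R F ϖ ∈ 𝒪₁) (hX₂ : (X₂ : F) / algebraMap R F ϖ ∈ 𝒪₂)
    (hG : IsUnit G) (hmul : X₁ * X₂ = algebraMap R B ϖ * G) (b : B) :
    X₁ ∣ b ↔ (b : F) / algebraMap R F ϖ ∈ 𝒪₁ :=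
  OfChart_dvd_iff_aux h hX₁ hX₂ hG hmul b

/-- THE BRIDGE: `NodeData` from a regular node. -/
theorem nodeData_of_nodeLoc [IsDomain R] [IsDiscreteValuationRing R] (h : NodeLoc ϖ 𝒪₁ 𝒪₂ B)
    {p : ℕ}
    (hϖp : algebraMap R F ϖ = (p : F)) {X₁ X₂ G : B}
    (hX₁ : (X₁ : F) / algebraMap R F ϖ ∈ 𝒪₁) (hX₂ : (X₂ : F) / algebraMap R F ϖ ∈ 𝒪₂)
    (hG : IsUnit G) (hmul : X₁ * X₂ = algebraMap R B ϖ * G)
    (φ : F →ₐ[R] E) (g : E ≃+* E) (hgφ : ∀ f : F, g (φ f) = φ f)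
    (hfix : ∀ e : E, g e = e → ∃ f : F, φ f = e) (hgp : ∀ e : E, (g ^ p) e = e) :
    @NodeData B E _ _ (algBE φ B) p g X₁ X₂ := by
  letI := algBE φ B
  have hv₁ : vert ϖ 𝒪₁ B = Ideal.span {X₁} := vert_eq_span h hX₁ hX₂ hG hmul
  have hv₂ : vert ϖ 𝒪₂ B = Ideal.span {X₂} :=
    vert_eq_span h.symm hX₂ hX₁ hG (by rw [mul_comm]; exact hmul)
  have hϖB : algebraMap R B ϖ = (p : B) := Subtype.ext (by
    have h1 : (((p : B) : B) : F) = (p : F) := map_natCast B.val p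
    rw [h1]
    exact hϖp)
  have hϖ0 : algebraMap R B ϖ ≠ 0 := fun h0 =>
    h.G₁.ne_zero (congrArg (fun b : B => (b : F)) h0)
  have hX0 : X₁ * X₂ ≠ 0 := by
    rw [hmul]
    exact mul_ne_zero hϖ0 hG.ne_zero
  have hX₁0 : X₁ ≠ 0 := left_ne_zero_of_mul hX0
  have hX₂0 : X₂ ≠ 0 := right_ne_zero_of_mul hX0
  have hp₁ : Prime X₁ :=
    (Ideal.span_singleton_prime hX₁0).1 (hv₁ ▸ vert_isPrime h.G₁ h.chart.le₁)
  have hp₂ : Prime X₂ :=
    (Ideal.span_singleton_prime hX₂0).1 (hv₂ ▸ vert_isPrime h.G₂ h.chart.le₂)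
  have hφinj : Function.Injective φ := φ.toRingHom.injective
  refine
    { inj := ?_
      loc := h.isLocalRing
      noeth := h.chart.noeth
      mul_eq := ⟨hG.unit, by rw [hmul, hϖB]; rfl⟩
      prime₁ := hp₁
      prime₂ := hp₂
      pid₁ := hv₁ ▸ h.pid₁
      pid₂ := hv₂ ▸ h.symm.pid₁
      not_dvd := ?_
      fix := fun b => hgφ b
      closed := ?_
      frac := ?_
      pow := hgp }
  · intro a b hab
    exact Subtype.ext (hφinj hab)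
  · intro hdvd
    obtain ⟨e, heB, he₂, he₁⟩ := h.chart.sep₁
    have h2 : (⟨e, heB⟩ : B) ∈ vert ϖ 𝒪₂ B := (mem_vert h.chart.le₂ _).2 he₂
    rw [hv₂, Ideal.mem_span_singleton] at h2
    have h1 : (⟨e, heB⟩ : B) ∈ vert ϖ 𝒪₁ B := by
      rw [hv₁, Ideal.mem_span_singleton]
      exact hdvd.trans h2
    exact he₁ ((mem_vert h.chart.le₁ _).1 h1)
  · intro e he hint
    obtain ⟨f, rfl⟩ := hfix e he
    obtain ⟨P, hP, hP0⟩ := hint
    have h1 : Polynomial.eval₂ (algebraMap B E) (φ f) P =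
        φ (Polynomial.eval₂ (algebraMap B F) f P) :=
      (Polynomial.hom_eval₂ P (algebraMap B F) φ.toRingHom f).symm
    rw [h1] at hP0
    have h2 : Polynomial.eval₂ (algebraMap B F) f P = 0 := hφinj (by rw [hP0, map_zero])
    have hf : f ∈ B := h.chart.closed f ⟨P, hP, h2⟩
    exact ⟨⟨f, hf⟩, rfl⟩
  · intro e he
    obtain ⟨f, rfl⟩ := hfix e he
    have := h.chart.isFractionRing
    obtain ⟨a, b, hb, hab⟩ := IsFractionRing.div_surjective (A := B) f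
    have hb0 : b ≠ 0 := nonZeroDivisors.ne_zero hb
    have hbF : (algebraMap B F b) ≠ 0 := fun h0 => hb0 (Subtype.ext h0)
    refine ⟨a, b, hb0, ?_⟩
    show φ f * φ (algebraMap B F b) = φ (algebraMap B F a)
    rw [← map_mul, ← hab, div_mul_cancel₀ _ hbF]

/-- A valuation subring of `E` which restricts to `𝒪₁` lies over `B_(X₁)`. -/
theorem valOver_of_comap (h : NodeLoc ϖ 𝒪₁ 𝒪₂ B) {X₁ X₂ G : B}
    (hX₁ : (X₁ : F) / algebraMap R F ϖ ∈ 𝒪₁) (hX₂ : (X₂ : F) / algebraMap R F ϖ ∈ 𝒪₂)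
    (hG : IsUnit G) (hmul : X₁ * X₂ = algebraMap R B ϖ * G)
    (φ : F →ₐ[R] E) {V : ValuationSubring E} (hV : ∀ f : F, φ f ∈ V ↔ f ∈ 𝒪₁) :
    @ValOver B E _ _ (algBE φ B) X₁ V := by
  let _ := algBE φ B
  refine ⟨fun b => ?_, fun b => ?_⟩
  · rw [algBE_algebraMap, hV]
    exact h.chart.le₁ _ b.2
  · rw [algBE_algebraMap, OfChart_dvd_iff h hX₁ hX₂ hG hmul, OfChart_mem_nonunits_iff,
      ← map_inv₀, hV, map_eq_zero]
    have hb : (b : F) ∈ 𝒪₁ := h.chart.le₁ _ b.2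
    constructor
    · rintro (h0 | h0)
      · rw [h0, zero_div]
        exact 𝒪₁.zero_mem
      · exact (h.G₁.unif _ hb).resolve_right h0
    · intro h1
      by_cases h0 : (b : F) = 0
      · exact Or.inl h0
      · exact Or.inr fun h2 => Node_not_div h.G₁ h0 h2 h1

/-- `DivHor` from `GR.E.DivisibleAtPlaces`. -/
theorem divHor_of_divisibleAtPlaces [IsDomain R] [IsDiscreteValuationRing R] (hϖ : Irreducible ϖ)
    {p : ℕ} (hϖp : algebraMap R F ϖ = (p : F)) (φ : F →ₐ[R] E) (B : Subalgebra R F) {u : E}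
    (hdiv : DivisibleAtPlaces R p u) : @DivHor B E _ _ (algBE φ B) p u := by
  let _ := algBE φ B
  intro V hB hp
  have hR : ∀ r : R, algebraMap R E r ∈ V := by
    intro r
    have := hB (algebraMap R B r)
    rw [algBE_algebraMap] at this
    have e : φ ((algebraMap R B r : B) : F) = algebraMap R E r := φ.commutes r
    rwa [e] at this
  have hϖE : algebraMap R E ϖ = (p : E) := by
    rw [← φ.commutes ϖ, hϖp, map_natCast]
  refine hdiv V hR fun r => ?_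
  by_cases hr : r = 0
  · rw [hr, map_zero, inv_zero]
    exact V.zero_mem
  · obtain ⟨k, w, rfl⟩ := IsDiscreteValuationRing.eq_unit_mul_pow_irreducible hr hϖ
    have e : (algebraMap R E ((w : R) * ϖ ^ k))⁻¹ =
        algebraMap R E ((w⁻¹ : Rˣ) : R) * ((p : E)⁻¹) ^ k := by
      rw [map_mul, map_pow, hϖE, mul_inv, inv_pow]
      congr 1
      apply inv_eq_of_mul_eq_one_left
      rw [← map_mul, Units.inv_mul, map_one]
    rw [e]
    exact V.mul_mem _ _ (hR _) (pow_mem hp k)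

/-- The local ring of a nodal chart at a node is a `NodeLoc`. -/
theorem nodeLoc_locAt [IsDomain R] [IsDiscreteValuationRing R] (hϖ : Irreducible ϖ)
    (hG₁ : GaussRing ϖ 𝒪₁) (hG₂ : GaussRing ϖ 𝒪₂) {C : Subalgebra R F}
    (hC : NodalChart ϖ 𝒪₁ 𝒪₂ C) (𝔪 : Ideal C) [𝔪.IsPrime] (h𝔪 : 𝔪.IsMaximal)
    (h₁ : vert ϖ 𝒪₁ C ≤ 𝔪) (h₂ : vert ϖ 𝒪₂ C ≤ 𝔪) : NodeLoc ϖ 𝒪₁ 𝒪₂ (locAt C 𝔪) :=
  ⟨hG₁, hG₂, locAt_nodalChart hϖ hG₁ hG₂ hC 𝔪 h𝔪 h₁ h₂, locAt_nonunit hϖ hG₁ hG₂ hC 𝔪 h𝔪 h₁ h₂,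
    locAt_ne_one hG₁ hG₂ hC 𝔪 h₁ h₂⟩

/-- An element of `C ∖ 𝔪` is a unit of `locAt C 𝔪`. -/
theorem OfChart_isUnit {C : Subalgebra R F} (𝔪 : Ideal C) [𝔪.IsPrime] {G : C} (hG : G ∉ 𝔪) :
    IsUnit (⟨(G : F), le_locAt C 𝔪 G.2⟩ : locAt C 𝔪) := by
  have hG0 : (G : F) ≠ 0 := by
    intro h0
    apply hG
    have : G = 0 := Subtype.ext h0
    rw [this]
    exact 𝔪.zero_mem
  have hinv : (G : F)⁻¹ ∈ locAt C 𝔪 := by
    refine mem_locAt.2 ⟨G, hG, ?_⟩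
    rw [inv_mul_cancel₀ hG0]
    exact C.one_mem
  exact IsUnit.of_mul_eq_one ⟨(G : F)⁻¹, hinv⟩ (Subtype.ext (mul_inv_cancel₀ hG0))

end Fermat.Agent.LP.PL
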