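import Fermat.Agent.LP.PL.Abs.Export
import Fermat.Agent.LP.PL.Abs.Descent
import Fermat.Agent.LP.PL.Abs.OfChart

/-!
# PL-ABS, file `Main`: the exports in the language of charts

`R` a DVR with uniformizer `ϖ = p`, `F = F_{L0}`, `𝒪₁ 𝒪₂` the two Gauss valuation subrings, `C` a
nodal chart, `𝔪` a node, regular: `X₁ X₂ = ϖ G`, `G ∉ 𝔪`.  `φ : F → E = F1` the cyclic cover of
degree `p` with deck transformation `g`; `ψ : E → E₁ = F1'` the extension of constants by `ζ_p`.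
-/

set_option autoImplicit false

namespace Fermat.Agent.LP.PL

open Fermat.Agent.GR.E Fermat.Agent.GS

variable {R : Type*} [CommRing R] [IsDomain R] [IsDiscreteValuationRing R]
variable {F E : Type*} [Field F] [Field E] [Algebra R F] [Algebra R E]
variable {ϖ : R} {𝒪₁ 𝒪₂ : ValuationSubring F}

/-- `NodeData` for the local ring of a nodal chart at a regular node. -/
theorem nodeData_locAt (hϖ : Irreducible ϖ) {p : ℕ} (hϖp : algebraMap R F ϖ = (p : F))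
    (hG₁ : GaussRing ϖ 𝒪₁) (hG₂ : GaussRing ϖ 𝒪₂) {C : Subalgebra R F}
    (hC : NodalChart ϖ 𝒪₁ 𝒪₂ C) (𝔪 : Ideal C) [𝔪.IsPrime] (h𝔪 : 𝔪.IsMaximal)
    (h₁ : vert ϖ 𝒪₁ C ≤ 𝔪) (h₂ : vert ϖ 𝒪₂ C ≤ 𝔪) {X₁ X₂ G : C}
    (hX₁ : (X₁ : F) / algebraMap R F ϖ ∈ 𝒪₁) (hX₂ : (X₂ : F) / algebraMap R F ϖ ∈ 𝒪₂)
    (hG : G ∉ 𝔪) (hmul : X₁ * X₂ = algebraMap R C ϖ * G)
    (φ : F →ₐ[R] E) (g : E ≃+* E) (hgφ : ∀ f : F, g (φ f) = φ f)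
    (hfix : ∀ e : E, g e = e → ∃ f : F, φ f = e) (hgp : ∀ e : E, (g ^ p) e = e) :
    @NodeData (locAt C 𝔪) E _ _ (algBE φ (locAt C 𝔪)) p g
      ⟨(X₁ : F), le_locAt C 𝔪 X₁.2⟩ ⟨(X₂ : F), le_locAt C 𝔪 X₂.2⟩ :=
  nodeData_of_nodeLoc (nodeLoc_locAt hϖ hG₁ hG₂ hC 𝔪 h𝔪 h₁ h₂) hϖp
    (G := ⟨(G : F), le_locAt C 𝔪 G.2⟩) hX₁ hX₂ (OfChart_isUnit 𝔪 hG)
    (Subtype.ext (congrArg (Subtype.val : C → F) hmul)) φ g hgφ hfix hgp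

/-- **EXPORT 1** (Picard-Lefschetz formula at a regular node, language of rank two valuations).
`β = v₁(u)`, `α = v₂(g^j u)`; at every valuation subring `W ≤ V₁` of `E` containing the local ring of the
node, `u / (p ^ β X₂ ^ (α - β))` is a unit times a `p`-th power. -/
theorem chart_formula (hϖ : Irreducible ϖ) {p : ℕ} (hp : p.Prime)
    (hϖp : algebraMap R F ϖ = (p : F))
    (hG₁ : GaussRing ϖ 𝒪₁) (hG₂ : GaussRing ϖ 𝒪₂) {C : Subalgebra R F}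
    (hC : NodalChart ϖ 𝒪₁ 𝒪₂ C) (𝔪 : Ideal C) [𝔪.IsPrime] (h𝔪 : 𝔪.IsMaximal)
    (h₁ : vert ϖ 𝒪₁ C ≤ 𝔪) (h₂ : vert ϖ 𝒪₂ C ≤ 𝔪) {X₁ X₂ G : C}
    (hX₁ : (X₁ : F) / algebraMap R F ϖ ∈ 𝒪₁) (hX₂ : (X₂ : F) / algebraMap R F ϖ ∈ 𝒪₂)
    (hG : G ∉ 𝔪) (hmul : X₁ * X₂ = algebraMap R C ϖ * G)
    (φ : F →ₐ[R] E) (g : E ≃+* E) (hgφ : ∀ f : F, g (φ f) = φ f)
    (hfix : ∀ e : E, g e = e → ∃ f : F, φ f = e) (hgp : ∀ e : E, (g ^ p) e = e)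
    {t : E} (T : @ASGen (locAt C 𝔪) E _ _ (algBE φ (locAt C 𝔪)) p g t)
    {V₁ V₂ : ValuationSubring E} (hV₁ : ∀ f : F, φ f ∈ V₁ ↔ f ∈ 𝒪₁)
    (hV₂ : ∀ f : F, φ f ∈ V₂ ↔ f ∈ 𝒪₂)
    {u : E} (hu : u ≠ 0) (hdiv : DivisibleAtPlaces R p u) :
    ∃ (j : ℕ) (α β : ℤ), j < p ∧
      u / (p : E) ^ β ∈ V₁ ∧ (u / (p : E) ^ β)⁻¹ ∈ V₁ ∧
      (g ^ j) u / (p : E) ^ α ∈ V₂ ∧ ((g ^ j) u / (p : E) ^ α)⁻¹ ∈ V₂ ∧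
      ∀ W : ValuationSubring E, W ≤ V₁ → (∀ x ∈ locAt C 𝔪, φ x ∈ W) →
        ∃ a : E, a ≠ 0 ∧ a ^ p * (u / ((p : E) ^ β * φ (X₂ : F) ^ (α - β))) ∈ W ∧
          (a ^ p * (u / ((p : E) ^ β * φ (X₂ : F) ^ (α - β))))⁻¹ ∈ W := by
  letI := algBE φ (locAt C 𝔪)
  have hN := nodeLoc_locAt hϖ hG₁ hG₂ hC 𝔪 h𝔪 h₁ h₂
  have H := nodeData_locAt hϖ hϖp hG₁ hG₂ hC 𝔪 h𝔪 h₁ h₂ hX₁ hX₂ hG hmul φ g hgφ hfix hgp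
  have hmul' : (⟨(X₁ : F), le_locAt C 𝔪 X₁.2⟩ : locAt C 𝔪) * ⟨(X₂ : F), le_locAt C 𝔪 X₂.2⟩ =
      algebraMap R (locAt C 𝔪) ϖ * ⟨(G : F), le_locAt C 𝔪 G.2⟩ :=
    Subtype.ext (congrArg (Subtype.val : C → F) hmul)
  have hmul'' : (⟨(X₂ : F), le_locAt C 𝔪 X₂.2⟩ : locAt C 𝔪) * ⟨(X₁ : F), le_locAt C 𝔪 X₁.2⟩ =
      algebraMap R (locAt C 𝔪) ϖ * ⟨(G : F), le_locAt C 𝔪 G.2⟩ := by
    rw [mul_comm]; exact hmul'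
  have v₁ := valOver_of_comap hN (X₁ := ⟨(X₁ : F), le_locAt C 𝔪 X₁.2⟩)
    (X₂ := ⟨(X₂ : F), le_locAt C 𝔪 X₂.2⟩) hX₁ hX₂ (OfChart_isUnit 𝔪 hG) hmul' φ hV₁
  have v₂ := valOver_of_comap hN.symm (X₁ := ⟨(X₂ : F), le_locAt C 𝔪 X₂.2⟩)
    (X₂ := ⟨(X₁ : F), le_locAt C 𝔪 X₁.2⟩) hX₂ hX₁ (OfChart_isUnit 𝔪 hG) hmul'' φ hV₂
  obtain ⟨j, α, β, hj, e1, e2, e3, e4, e5⟩ := node_formula_pdiv H hp T v₁ v₂ hu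
    (divHor_of_divisibleAtPlaces hϖ hϖp φ (locAt C 𝔪) hdiv)
  exact ⟨j, α, β, hj, e1, e2, e3, e4, fun W hW hB => e5 W hW (fun b => hB b b.2)⟩

/-- **EXPORT 2** ((P2): `e = f = 1`, transitivity) for the valuation subrings of `E` above `𝒪₁`. -/
theorem chart_unif (hϖ : Irreducible ϖ) {p : ℕ} (hp : p.Prime)
    (hϖp : algebraMap R F ϖ = (p : F))
    (hG₁ : GaussRing ϖ 𝒪₁) (hG₂ : GaussRing ϖ 𝒪₂) {C : Subalgebra R F}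
    (hC : NodalChart ϖ 𝒪₁ 𝒪₂ C) (𝔪 : Ideal C) [𝔪.IsPrime] (h𝔪 : 𝔪.IsMaximal)
    (h₁ : vert ϖ 𝒪₁ C ≤ 𝔪) (h₂ : vert ϖ 𝒪₂ C ≤ 𝔪) {X₁ X₂ G : C}
    (hX₁ : (X₁ : F) / algebraMap R F ϖ ∈ 𝒪₁) (hX₂ : (X₂ : F) / algebraMap R F ϖ ∈ 𝒪₂)
    (hG : G ∉ 𝔪) (hmul : X₁ * X₂ = algebraMap R C ϖ * G)
    (φ : F →ₐ[R] E) (g : E ≃+* E) (hgφ : ∀ f : F, g (φ f) = φ f)
    (hfix : ∀ e : E, g e = e → ∃ f : F, φ f = e) (hgp : ∀ e : E, (g ^ p) e = e)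
    {t : E} (T : @ASGen (locAt C 𝔪) E _ _ (algBE φ (locAt C 𝔪)) p g t)
    {V : ValuationSubring E} (hV : ∀ f : F, φ f ∈ V ↔ f ∈ 𝒪₁) :
    (∀ e : E, e ∈ V.nonunits ↔ e / (p : E) ∈ V) ∧
    (∀ e ∈ V, ∃ f ∈ 𝒪₁, e - φ f ∈ V.nonunits) ∧
    (∀ V' : ValuationSubring E, (∀ f : F, φ f ∈ V' ↔ f ∈ 𝒪₁) →
      ∃ j < p, V' = V.comap ((g ^ j : E ≃+* E) : E →+* E)) := by
  letI := algBE φ (locAt C 𝔪)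
  have hN := nodeLoc_locAt hϖ hG₁ hG₂ hC 𝔪 h𝔪 h₁ h₂
  have H := nodeData_locAt hϖ hϖp hG₁ hG₂ hC 𝔪 h𝔪 h₁ h₂ hX₁ hX₂ hG hmul φ g hgφ hfix hgp
  have hmul' : (⟨(X₁ : F), le_locAt C 𝔪 X₁.2⟩ : locAt C 𝔪) * ⟨(X₂ : F), le_locAt C 𝔪 X₂.2⟩ =
      algebraMap R (locAt C 𝔪) ϖ * ⟨(G : F), le_locAt C 𝔪 G.2⟩ :=
    Subtype.ext (congrArg (Subtype.val : C → F) hmul)
  have v : ∀ V' : ValuationSubring E, (∀ f : F, φ f ∈ V' ↔ f ∈ 𝒪₁) →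
      ValOver (⟨(X₁ : F), le_locAt C 𝔪 X₁.2⟩ : locAt C 𝔪) V' := fun V' hV' =>
    valOver_of_comap hN (X₁ := ⟨(X₁ : F), le_locAt C 𝔪 X₁.2⟩)
      (X₂ := ⟨(X₂ : F), le_locAt C 𝔪 X₂.2⟩) hX₁ hX₂ (OfChart_isUnit 𝔪 hG) hmul' φ hV'
  refine ⟨(v V hV).unif H hp T, ?_, fun V' hV' => (v V hV).exists_comap_eq H hp T (v V' hV')⟩
  intro e he
  obtain ⟨a, b, hb, hab⟩ := (v V hV).residue H hp T he
  refine ⟨(a : F) / (b : F), ?_, ?_⟩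
  · rw [← hV, map_div₀, div_eq_mul_inv]
    exact V.mul_mem _ _ ((v V hV).mem a)
      (Export_inv_mem (fun h => hb (((v V hV).nonunit_iff b).1 h)))
  · rw [map_div₀]
    exact hab

omit [IsDomain R] [IsDiscreteValuationRing R] in
/-- **EXPORT 3** ((P3)): the Artin-Schreier generator at a node from the output of NODE-p.
`E₁ = F1'` the top field, `ψ : E → E₁`, `δ` the group `Gal(L1 / L0)` acting on `E₁` with fixed field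
`ψ E`, `Z = a z1` with `Z ^ p = 1 + lam ^ p h`, `h / lam` integral over the local ring of the node. -/
theorem chart_asGen {p : ℕ} (hp : p.Prime) (hp2 : p ≠ 2) (B : Subalgebra R F) (φ : F →ₐ[R] E)
    (g : E ≃+* E) {E₁ : Type*} [Field E₁] (hp0 : (p : E₁) ≠ 0) (ψ : E →+* E₁) (g₁ : E₁ ≃+* E₁)
    (hg₁ : ∀ e : E, ψ (g e) = g₁ (ψ e)) {ζ : E₁} (hζ : IsPrimitiveRoot ζ p) (hg₁ζ : g₁ ζ = ζ)
    {ι : Type*} [Fintype ι] (δ : ι → E₁ ≃+* E₁) (hcard : ¬ p ∣ Fintype.card ι)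
    (hδψ : ∀ i (e : E), δ i (ψ e) = ψ e) (hδfix : ∀ x : E₁, (∀ i, δ i x = x) → ∃ e : E, ψ e = x)
    (hperm : ∀ i, ∃ π : Equiv.Perm ι, ∀ k e, δ i (δ k e) = δ (π k) e)
    (hcomm : ∀ i e, g₁ (δ i e) = δ i (g₁ e)) {Z h : E₁} (hZ : Z ^ p = 1 + (ζ - 1) ^ p * h)
    (hh : ((ψ.comp (φ : F →+* E)).comp (algebraMap B F)).IsIntegralElem (h / (ζ - 1)))
    (hgZ : g₁ Z = ζ * Z) :
    ∃ t : E, @ASGen B E _ _ (algBE φ B) p g t := by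
  letI := algBE φ B
  letI : Algebra B E₁ := ((ψ.comp (φ : F →+* E)).comp (algebraMap B F)).toAlgebra
  let ψ' : E →ₐ[B] E₁ := { ψ with commutes' := fun _ => rfl }
  obtain ⟨t₁, ht₁, T₁⟩ := exists_asGen (B := B) hp hp2 hp0 hζ g₁ hg₁ζ δ hcard
    (fun i b => hδψ i _) hperm hcomm hZ hh hgZ
  obtain ⟨t, rfl⟩ := hδfix t₁ ht₁
  exact ⟨t, ASGen.of_map ψ' hp0 hg₁ T₁⟩

end Fermat.Agent.LP.PL
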