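import Fermat.Agent.LP.PL.Abs.Small

/-!
# PL-ABS, file `Phi`: the minimal polynomial of an Artin-Schreier generator

`Φ₀ = ∏_{i < p} (T - g^i t)` has coefficients in `B` (they are integral over `B` and fixed by `g`),
`Φ₀ ≡ T ^ p - T` modulo `p B[T]` (modulo the radical of `p` we have `g^i t ≡ t + i`, `t ^ p ≡ t` and
`∏_{i < p} (Y - i) ≡ Y ^ p - Y`; then use `Small.dvd`), and `Φ₀` divides every polynomial over `B` which
vanishes at `t` (the `p` conjugates `g^i t` are distinct).
-/

set_option autoImplicit false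

namespace Fermat.Agent.LP.PL

open Polynomial

variable {B E : Type*} [CommRing B] [Field E] [Algebra B E] {p : ℕ}
variable {g : E ≃+* E} {X₁ X₂ : B} {t : E}

/-- `g^i t ≡ t + i`. -/
theorem ASGen.small_iterate (H : NodeData p g X₁ X₂) (T : ASGen B p g t) (i : ℕ) :
    Small B p ((g ^ i) t - t - (i : E)) := by
  induction i with
  | zero =>
    have h0 : (g ^ 0) t - t - ((0 : ℕ) : E) = 0 := by
      rw [pow_zero, Nat.cast_zero, sub_zero]
      exact sub_self t
    rw [h0]
    exact small_zero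
  | succ i ih =>
    have h1 : (g ^ (i + 1)) t - t - ((i + 1 : ℕ) : E) =
        g ((g ^ i) t - t - (i : E)) + (g t - t - 1) := by
      rw [pow_succ', map_sub, map_sub, map_natCast]
      change g ((g ^ i) t) - t - _ = _
      push_cast
      ring
    rw [h1]
    exact (ih.map H.fix).add T.shift

theorem ASGen.isIntegral_iterate (H : NodeData p g X₁ X₂) (T : ASGen B p g t) (i : ℕ) :
    IsIntegral B ((g ^ i) t) := by
  induction i with
  | zero =>
    rw [pow_zero]
    exact T.int
  | succ i ih =>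
    rw [pow_succ']
    exact isIntegral_map H.fix ih

/-- The conjugates `g^i t`, `i < p`, are distinct. -/
theorem ASGen.iterate_injOn (H : NodeData p g X₁ X₂) (hp : p.Prime) (T : ASGen B p g t) :
    Set.InjOn (fun i : ℕ => (g ^ i) t) (Finset.range p : Set ℕ) := by
  intro i hi j hj hij
  by_contra hne
  have hi' := Finset.mem_range.1 (Finset.mem_coe.1 hi)
  have hj' := Finset.mem_range.1 (Finset.mem_coe.1 hj)
  have h1 := (T.small_iterate H i).sub (T.small_iterate H j)
  have h2 : ((g ^ i) t - t - (i : E)) - ((g ^ j) t - t - (j : E)) =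
      (((j : ℤ) - (i : ℤ) : ℤ) : E) := by
    have h3 : (g ^ i) t = (g ^ j) t := hij
    rw [h3]
    push_cast
    ring
  rw [h2] at h1
  refine H.not_small_intCast hp ?_ h1
  intro hdvd
  have h4 := Int.eq_zero_of_abs_lt_dvd hdvd (by rw [abs_lt]; constructor <;> omega)
  omega

theorem Phi_prod_zmod (hp : p.Prime) :
    ∏ i ∈ Finset.range p, (X - C ((i : ℕ) : ZMod p)) = (X ^ p - X : (ZMod p)[X]) := by
  have : Fact p.Prime := ⟨hp⟩
  have hdeg : (X ^ p - X : (ZMod p)[X]).natDegree = p :=
    FiniteField.X_pow_card_sub_X_natDegree_eq (ZMod p) hp.one_lt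
  have hmon : (X ^ p - X : (ZMod p)[X]).Monic := by
    obtain ⟨n, rfl⟩ : ∃ n, p = n + 1 := ⟨p - 1, (Nat.succ_pred_eq_of_pos hp.pos).symm⟩
    refine monic_X_pow_sub ?_
    rw [degree_X]
    have := hp.one_lt
    exact_mod_cast (by omega : 1 < n + 1)
  have hroots : (X ^ p - X : (ZMod p)[X]).roots = Finset.univ.val := by
    have := FiniteField.roots_X_pow_card_sub_X (ZMod p)
    rwa [ZMod.card] at this
  have h := prod_multiset_X_sub_C_of_monic_of_roots_card_eq hmon (by
    rw [hroots, hdeg]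
    change Finset.univ.card = p
    rw [Finset.card_univ, ZMod.card])
  rw [hroots] at h
  rw [← h]
  change _ = ∏ a : ZMod p, (X - C a)
  refine Finset.prod_bij (fun i _ => ((i : ℕ) : ZMod p)) (fun _ _ => Finset.mem_univ _) ?_ ?_
    (fun _ _ => rfl)
  · intro i hi j hj hij
    have h1 := (ZMod.natCast_eq_natCast_iff' i j p).1 hij
    rwa [Nat.mod_eq_of_lt (Finset.mem_range.1 hi), Nat.mod_eq_of_lt (Finset.mem_range.1 hj)] at h1
  · intro a _
    exact ⟨a.val, Finset.mem_range.2 (ZMod.val_lt a), ZMod.natCast_zmod_val a⟩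

theorem Phi_prod_int (hp : p.Prime) :
    ∃ f : ℤ[X], ∏ i ∈ Finset.range p, (X - C ((i : ℕ) : ℤ)) = X ^ p - X + C (p : ℤ) * f := by
  have hdvd : C (p : ℤ) ∣ ∏ i ∈ Finset.range p, (X - C ((i : ℕ) : ℤ)) - (X ^ p - X) := by
    rw [C_dvd_iff_dvd_coeff]
    intro k
    rw [← ZMod.intCast_zmod_eq_zero_iff_dvd]
    have h1 : (∏ i ∈ Finset.range p, (X - C ((i : ℕ) : ℤ)) - (X ^ p - X)).map
        (Int.castRingHom (ZMod p)) = 0 := by
      rw [Polynomial.map_sub, Polynomial.map_prod, Polynomial.map_sub, Polynomial.map_pow,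
        Polynomial.map_X, ← Phi_prod_zmod hp, sub_eq_zero]
      refine Finset.prod_congr rfl fun i _ => ?_
      rw [Polynomial.map_sub, Polynomial.map_X, Polynomial.map_C]
      simp
    have h2 : ((∏ i ∈ Finset.range p, (X - C ((i : ℕ) : ℤ)) - (X ^ p - X)).map
        (Int.castRingHom (ZMod p))).coeff k = 0 := by rw [h1, coeff_zero]
    rw [coeff_map] at h2
    exact h2
  obtain ⟨f, hf⟩ := hdvd
  exact ⟨f, by rw [← hf]; ring⟩

/-- In a commutative ring in which `p = 0`: `∏_{i < p} (Y - i) = Y ^ p - Y`. -/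
theorem Phi_prod_sub_natCast {A : Type*} [CommRing A] (hp : p.Prime) (hA : (p : A) = 0) (y : A) :
    ∏ i ∈ Finset.range p, (y - (i : A)) = y ^ p - y := by
  obtain ⟨f, hf⟩ := Phi_prod_int hp
  have h := congrArg (aeval y) hf
  simp only [map_prod, map_sub, map_add, map_mul, map_pow, aeval_X, eq_intCast,
    Int.cast_natCast, map_natCast, hA, zero_mul, add_zero] at h
  exact h

/-- `∏_{i < p} (t - i)` is `p` times an element of `B[t]`, in the form which is used later. -/
theorem Phi_prod_sub_natCast' {A : Type*} [CommRing A] (hp : p.Prime) (y : A) :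
    ∃ f : ℤ[X], ∏ i ∈ Finset.range p, (y - (i : A)) = y ^ p - y + (p : A) * aeval y f := by
  obtain ⟨f, hf⟩ := Phi_prod_int hp
  refine ⟨f, ?_⟩
  have h := congrArg (aeval y) hf
  simp only [map_prod, map_sub, map_add, map_mul, map_pow, aeval_X, eq_intCast,
    Int.cast_natCast, map_natCast] at h
  exact h

/-- The product `∏_{i < p} (T - g^i t)` is invariant under `g`. -/
theorem Phi_map_prod (H : NodeData p g X₁ X₂) (t : E) :
    (∏ i ∈ Finset.range p, (X - C ((g ^ i) t))).map (g : E →+* E) =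
      ∏ i ∈ Finset.range p, (X - C ((g ^ i) t)) := by
  rw [Polynomial.map_prod]
  have h1 : ∀ i, (X - C ((g ^ i) t)).map (g : E →+* E) = X - C ((g ^ (i + 1)) t) := by
    intro i
    rw [Polynomial.map_sub, Polynomial.map_X, Polynomial.map_C, pow_succ']
    rfl
  simp only [h1]
  have h2 := Finset.prod_range_succ' (fun i => X - C ((g ^ i) t)) p
  have h3 := Finset.prod_range_succ (fun i => X - C ((g ^ i) t)) p
  rw [h3] at h2
  have h4 : (g ^ p) t = (g ^ 0) t := by
    rw [H.pow, pow_zero]
    rfl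
  rw [h4] at h2
  exact (mul_right_cancel₀ (X_sub_C_ne_zero _) h2).symm

/-- THE POLYNOMIAL `Φ₀`. -/
theorem exists_phi (H : NodeData p g X₁ X₂) (hp : p.Prime) (T : ASGen B p g t) :
    ∃ P Q : B[X], P.Monic ∧ P.natDegree = p ∧
      P.map (algebraMap B E) = ∏ i ∈ Finset.range p, (X - C ((g ^ i) t)) ∧
      P = X ^ p - X + C (p : B) * Q := by
  classical
  -- the conjugates as elements of the integral closure
  let τ : ℕ → integralClosure B E := fun i => ⟨(g ^ i) t, T.isIntegral_iterate H i⟩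
  let t' : integralClosure B E := ⟨t, T.int⟩
  let PA : (integralClosure B E)[X] := ∏ i ∈ Finset.range p, (X - C (τ i))
  have hPA : PA.map (algebraMap (integralClosure B E) E) =
      ∏ i ∈ Finset.range p, (X - C ((g ^ i) t)) := by
    simp only [PA, Polynomial.map_prod, Polynomial.map_sub, Polynomial.map_X, Polynomial.map_C]
    rfl
  -- the product descends to `B`
  have hlift : (∏ i ∈ Finset.range p, (X - C ((g ^ i) t))) ∈
      Polynomial.lifts (algebraMap B E) := by
    rw [Polynomial.lifts_iff_coeff_lifts]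
    intro n
    have h1 : (∏ i ∈ Finset.range p, (X - C ((g ^ i) t))).coeff n ∈ (algebraMap B E).range := by
      apply H.closed
      · have h2 := congrArg (fun q : E[X] => q.coeff n) (Phi_map_prod H t)
        simpa [Polynomial.coeff_map] using h2
      · rw [← hPA, Polynomial.coeff_map]
        exact (PA.coeff n).2
    exact h1
  obtain ⟨P, hPmap, hPdeg, hPmonic⟩ := Polynomial.lifts_and_natDegree_eq_and_monic hlift
    (monic_prod_of_monic _ _ fun i _ => monic_X_sub_C _)
  rw [Polynomial.natDegree_finsetProd_X_sub_C_eq_card, Finset.card_range] at hPdeg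
  -- the quotient by the radical of `p`
  let π := Ideal.Quotient.mk (radP B E p)
  have hp0 : ((p : ℕ) : (integralClosure B E ⧸ radP B E p)) = 0 := by
    rw [← map_natCast π]
    exact Ideal.Quotient.eq_zero_iff_mem.2 (Ideal.le_radical (Ideal.mem_span_singleton_self _))
  have hp0X : ((p : ℕ) : (integralClosure B E ⧸ radP B E p)[X]) = 0 := by
    rw [← map_natCast (C : (integralClosure B E ⧸ radP B E p) →+* _), hp0, map_zero]
  have hτ : ∀ i, π (τ i) = π t' + (i : (integralClosure B E ⧸ radP B E p)) := by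
    intro i
    obtain ⟨h, hmem⟩ := T.small_iterate H i
    have h1 : (⟨(g ^ i) t - t - (i : E), h⟩ : integralClosure B E) = τ i - t' - (i : integralClosure B E) :=
      Subtype.ext (by simp [τ, t'])
    rw [h1] at hmem
    have h2 := Ideal.Quotient.eq_zero_iff_mem.2 hmem
    rw [map_sub, map_sub, map_natCast] at h2
    linear_combination h2
  have htp : π t' ^ p = π t' := by
    obtain ⟨h, hmem⟩ := T.as
    have h1 : (⟨t ^ p - t, h⟩ : integralClosure B E) = t' ^ p - t' := Subtype.ext (by simp [t'])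
    rw [h1] at hmem
    have h2 := Ideal.Quotient.eq_zero_iff_mem.2 hmem
    rw [map_sub, map_pow] at h2
    linear_combination h2
  have hmapπ : PA.map π = X ^ p - X := by
    have h1 : PA.map π = ∏ i ∈ Finset.range p,
        ((X - C (π t')) - ((i : ℕ) : (integralClosure B E ⧸ radP B E p)[X])) := by
      simp only [PA, Polynomial.map_prod, Polynomial.map_sub, Polynomial.map_X, Polynomial.map_C]
      refine Finset.prod_congr rfl fun i _ => ?_
      rw [hτ i, map_add, map_natCast, sub_sub]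
    have h3 := Phi_prod_sub_natCast (A := (integralClosure B E ⧸ radP B E p)[X]) hp hp0X
      (X - C (π t'))
    rw [h1]
    refine h3.trans ?_
    obtain ⟨r, hr⟩ := exists_add_pow_prime_eq hp (X - C (π t')) (C (π t'))
    rw [sub_add_cancel] at hr
    have hpow : (C (π t') : (integralClosure B E ⧸ radP B E p)[X]) ^ p = C (π t') := by
      rw [← map_pow, htp]
    linear_combination -hr - hpow - ((X - C (π t')) * C (π t') * r) * hp0X
  have hcoeff : ∀ n, (PA - (X ^ p - X)).coeff n ∈ radP B E p := by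
    intro n
    have h1 : (PA - (X ^ p - X)).map π = 0 := by
      rw [Polynomial.map_sub, hmapπ, Polynomial.map_sub, Polynomial.map_pow, Polynomial.map_X,
        sub_self]
    apply Ideal.Quotient.eq_zero_iff_mem.1
    change π ((PA - (X ^ p - X)).coeff n) = 0
    rw [← Polynomial.coeff_map, h1, Polynomial.coeff_zero]
  have hdvd : C (p : B) ∣ P - (X ^ p - X) := by
    rw [Polynomial.C_dvd_iff_dvd_coeff]
    intro n
    apply Small.dvd H
    have hval : algebraMap B E ((P - (X ^ p - X)).coeff n) =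
        (((PA - (X ^ p - X)).coeff n : integralClosure B E) : E) := by
      have h1 : (((PA - (X ^ p - X)).coeff n : integralClosure B E) : E) =
          ((PA - (X ^ p - X)).map (algebraMap (integralClosure B E) E)).coeff n := by
        rw [Polynomial.coeff_map]
        rfl
      rw [h1, ← Polynomial.coeff_map]
      simp only [Polynomial.map_sub, Polynomial.map_pow, Polynomial.map_X, hPmap, hPA]
    refine ⟨by rw [hval]; exact ((PA - (X ^ p - X)).coeff n).2, ?_⟩
    have h2 : ∀ h, (⟨algebraMap B E ((P - (X ^ p - X)).coeff n), h⟩ : integralClosure B E) =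
        (PA - (X ^ p - X)).coeff n := fun h => Subtype.ext hval
    rw [h2]
    exact hcoeff n
  obtain ⟨Q, hQ⟩ := hdvd
  exact ⟨P, Q, hPmonic, hPdeg, hPmap, by rw [← hQ]; ring⟩

/-- the powers of `g` fix `B`. -/
theorem Phi_fix_pow (H : NodeData p g X₁ X₂) (i : ℕ) (b : B) :
    (g ^ i) (algebraMap B E b) = algebraMap B E b := by
  induction i with
  | zero => rfl
  | succ i ih =>
    rw [pow_succ, RingAut.mul_apply, H.fix, ih]

/-- the conjugates of a root of `f ∈ B[X]` are roots. -/
theorem Phi_eval_iterate (H : NodeData p g X₁ X₂) {f : B[X]} (hf : aeval t f = 0) (i : ℕ) :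
    (f.map (algebraMap B E)).eval ((g ^ i) t) = 0 := by
  have hcomp : ((g ^ i : E ≃+* E) : E →+* E).comp (algebraMap B E) = algebraMap B E :=
    RingHom.ext fun b => Phi_fix_pow H i b
  have h1 := Polynomial.hom_eval₂ f (algebraMap B E) ((g ^ i : E ≃+* E) : E →+* E) t
  rw [hcomp] at h1
  rw [eval_map, ← RingEquiv.coe_toRingHom, ← h1]
  have h2 : f.eval₂ (algebraMap B E) t = 0 := hf
  rw [h2, map_zero]

/-- `Φ₀` generates the ideal of polynomials vanishing at `t`. -/
theorem dvd_of_aeval_eq_zero (H : NodeData p g X₁ X₂) (hp : p.Prime) (T : ASGen B p g t)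
    {P : B[X]} (hP : P.Monic)
    (hPm : P.map (algebraMap B E) = ∏ i ∈ Finset.range p, (X - C ((g ^ i) t)))
    {f : B[X]} (hf : aeval t f = 0) : P ∣ f := by
  rw [← Polynomial.map_dvd_map _ H.inj hP, hPm]
  apply Finset.prod_dvd_of_coprime
  · intro i hi j hj hij
    apply isCoprime_X_sub_C_of_isUnit_sub
    rw [isUnit_iff_ne_zero, sub_ne_zero]
    intro h
    exact hij (T.iterate_injOn H hp hi hj h)
  · intro i _
    rw [dvd_iff_isRoot]
    exact Phi_eval_iterate H hf i

/-- `(t ^ p - t) / p ∈ B[t]`. -/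
theorem ASGen.div_mem_adjoin (H : NodeData p g X₁ X₂) (hp : p.Prime) (T : ASGen B p g t) :
    (t ^ p - t) / (p : E) ∈ Algebra.adjoin B ({t} : Set E) := by
  obtain ⟨P, Q, -, -, hPm, hPQ⟩ := exists_phi H hp T
  have h0 : aeval t P = 0 := by
    rw [aeval_def, ← eval_map, hPm, eval_prod]
    apply Finset.prod_eq_zero (Finset.mem_range.2 hp.pos)
    rw [eval_sub, eval_X, eval_C, pow_zero]
    exact sub_self t
  rw [hPQ] at h0
  simp only [map_add, map_sub, map_mul, map_pow, aeval_X, map_natCast] at h0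
  have hp0 : (p : E) ≠ 0 := H.natCast_ne_zero
  have h1 : (t ^ p - t) / (p : E) = - aeval t Q := by
    rw [div_eq_iff hp0]
    linear_combination h0
  rw [h1, Algebra.adjoin_singleton_eq_range_aeval]
  exact Subalgebra.neg_mem _ ⟨Q, rfl⟩

/-- Evaluation at `t = i` modulo `p`. -/
theorem exists_rho (H : NodeData p g X₁ X₂) (hp : p.Prime) (T : ASGen B p g t) (i : ℕ) :
    ∃ ρ : Algebra.adjoin B ({t} : Set E) →ₐ[B] (B ⧸ Ideal.span {(p : B)}),
      ρ ⟨t, Algebra.self_mem_adjoin_singleton B t⟩ = (i : B ⧸ Ideal.span {(p : B)}) := by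
  obtain ⟨P, Q, hP, -, hPm, hPQ⟩ := exists_phi H hp T
  have hfact : Fact p.Prime := ⟨hp⟩
  -- `i ^ p = i` in `B / p`
  have hp0 : ((p : B ⧸ Ideal.span {(p : B)})) = 0 := by
    have h1 : Ideal.Quotient.mk (Ideal.span {(p : B)}) (p : B) = 0 :=
      Ideal.Quotient.eq_zero_iff_mem.2 (Ideal.mem_span_singleton_self _)
    rwa [map_natCast] at h1
  have hi : ((i : B ⧸ Ideal.span {(p : B)})) ^ p - (i : B ⧸ Ideal.span {(p : B)}) = 0 := by
    have h1 : (p : ℤ) ∣ (i : ℤ) ^ p - (i : ℤ) := by
      rw [← ZMod.intCast_zmod_eq_zero_iff_dvd]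
      push_cast
      rw [ZMod.pow_card, sub_self]
    obtain ⟨k, hk⟩ := h1
    have h2 := congrArg (Int.cast : ℤ → B ⧸ Ideal.span {(p : B)}) hk
    push_cast at h2
    rw [h2, hp0, zero_mul]
  let φt : B[X] →ₐ[B] Algebra.adjoin B ({t} : Set E) :=
    aeval (⟨t, Algebra.self_mem_adjoin_singleton B t⟩ : Algebra.adjoin B ({t} : Set E))
  let ψ : B[X] →ₐ[B] (B ⧸ Ideal.span {(p : B)}) := aeval (i : B ⧸ Ideal.span {(p : B)})
  have hcoe : ∀ f : B[X], ((φt f : Algebra.adjoin B ({t} : Set E)) : E) = aeval t f := fun f =>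
    Polynomial.aeval_subalgebra_coe f _ _
  have hsurj : Function.Surjective φt := by
    rintro ⟨y, hy⟩
    rw [Algebra.adjoin_singleton_eq_range_aeval] at hy
    obtain ⟨f, hf⟩ := hy
    exact ⟨f, Subtype.ext ((hcoe f).trans hf)⟩
  have hψP : ψ P = 0 := by
    rw [hPQ]
    simp only [ψ, map_add, map_sub, map_mul, map_pow, aeval_X, map_natCast]
    rw [hi, hp0, zero_mul, add_zero]
  have hker : ∀ f ∈ RingHom.ker (φt : B[X] →+* Algebra.adjoin B ({t} : Set E)), ψ f = 0 := by
    intro f hf
    have h1 : aeval t f = 0 := by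
      rw [← hcoe f]
      have h2 : φt f = 0 := hf
      rw [h2]
      rfl
    obtain ⟨h, rfl⟩ := dvd_of_aeval_eq_zero H hp T hP hPm h1
    rw [map_mul, hψP, zero_mul]
  refine ⟨(Ideal.Quotient.liftₐ _ ψ hker).comp
    (Ideal.quotientKerAlgEquivOfSurjective hsurj).symm.toAlgHom, ?_⟩
  have hX : (⟨t, Algebra.self_mem_adjoin_singleton B t⟩ : Algebra.adjoin B ({t} : Set E)) =
      Ideal.quotientKerAlgEquivOfSurjective hsurj (Ideal.Quotient.mk _ X) := by
    change _ = φt X
    exact (aeval_X _).symm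
  rw [hX]
  change Ideal.Quotient.liftₐ _ ψ hker ((Ideal.quotientKerAlgEquivOfSurjective hsurj).symm
    (Ideal.quotientKerAlgEquivOfSurjective hsurj (Ideal.Quotient.mk _ X))) = _
  rw [AlgEquiv.symm_apply_apply]
  change ψ X = _
  exact aeval_X _

end Fermat.Agent.LP.PL
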