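import Fermat.Agent.LP.PL.Abs.Small
import Fermat.Agent.GR.E.E1

/-!
# PL-ABS, file `Quot`: a sheet is a UFD in which `X₁`, `X₂` stay prime

Only the axioms of `Sheet` are used: `R' = B + p R'` (`decomp`), `p R' ∩ B = p B` (`retr`).
`R' / X₁ R' = B / X₁ B`: the map `B → R' / X₁` is surjective by `decomp` (`p ∈ X₁ R'`), its kernel is
`X₁ B` by `Sheet.dvd_of_div_mem`.  So `X₁` is prime in `R'`, `R' / X₁` is a PID and
`GR.E.ufd_of_quotient_isPrincipalIdealRing` applies.
-/

set_option autoImplicit false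

namespace Fermat.Agent.LP.PL

variable {B E : Type*} [CommRing B] [Field E] [Algebra B E] {p : ℕ}
variable {g : E ≃+* E} {X₁ X₂ : B} {t : E} {i : ℕ} {R' : Subalgebra B E}

/-- `p` in `E` in terms of `X₁`, `X₂`. -/
theorem Quot_natCast_mul (H : NodeData p g X₁ X₂) :
    ∃ G : Bˣ, algebraMap B E X₁ * algebraMap B E X₂ = (p : E) * algebraMap B E (G : B) ∧
      X₁ * X₂ = (p : B) * (G : B) ∧ algebraMap B E (G : B) ≠ 0 := by
  obtain ⟨G, hG⟩ := H.mul_eq
  refine ⟨G, ?_, hG, ?_⟩
  · rw [← map_mul, hG, map_mul, map_natCast]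
  · intro h0
    have h1 : algebraMap B E (G : B) * algebraMap B E ((G⁻¹ : Bˣ) : B) = 1 := by
      rw [← map_mul, Units.mul_inv, map_one]
    rw [h0, zero_mul] at h1
    exact zero_ne_one h1

theorem Quot_map_ne_zero (H : NodeData p g X₁ X₂) : algebraMap B E X₁ ≠ 0 := by
  intro h0
  exact H.prime₁.ne_zero (H.inj (by rw [h0, map_zero]))

/-- `X₁ ∣ p` in `R'`. -/
theorem Quot_dvd_natCast (H : NodeData p g X₁ X₂) (R' : Subalgebra B E) :
    algebraMap B R' X₁ ∣ (p : R') := by
  obtain ⟨G, hG⟩ := H.mul_eq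
  have h1 : (p : B) = X₁ * (X₂ * ((G⁻¹ : Bˣ) : B)) := by
    rw [← mul_assoc, hG, mul_assoc, Units.mul_inv, mul_one]
  have h2 : (p : R') = algebraMap B R' (p : B) := (map_natCast _ _).symm
  rw [h2, h1, map_mul]
  exact dvd_mul_right _ _

/-- the decomposition `r = b + p r'` inside `R'`. -/
theorem Quot_decomp (H : NodeData p g X₁ X₂) (S : Sheet p t i R') (r : R') :
    ∃ (b : B) (r' : R'), r = algebraMap B R' b + (p : R') * r' ∧
      ((r : E) - algebraMap B E b) / (p : E) ∈ R' := by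
  obtain ⟨b, hb⟩ := S.decomp r r.2
  refine ⟨b, ⟨_, hb⟩, ?_, hb⟩
  apply Subtype.ext
  have hp0 : (p : E) ≠ 0 := H.natCast_ne_zero
  have h1 : ((algebraMap B R' b : R') : E) = algebraMap B E b := rfl
  have h2 : (((p : R') : R') : E) = (p : E) := by simp
  rw [Subalgebra.coe_add, Subalgebra.coe_mul, h1, h2]
  field_simp
  ring

theorem Quot_not_isUnit_natCast (H : NodeData p g X₁ X₂) (S : Sheet p t i R') :
    ¬ IsUnit (p : R') := by
  rintro ⟨u, hu⟩
  apply H.not_isUnit_natCast
  have h1 : algebraMap B E 1 / (p : E) ∈ R' := by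
    have h2 : (((u⁻¹ : R'ˣ) : R') : E) = algebraMap B E 1 / (p : E) := by
      have h3 : ((u : R') : E) * (((u⁻¹ : R'ˣ) : R') : E) = 1 := by
        rw [← Subalgebra.coe_mul, Units.mul_inv, Subalgebra.coe_one]
      have h4 : ((u : R') : E) = (p : E) := by rw [hu]; simp
      rw [h4] at h3
      rw [map_one, eq_div_iff H.natCast_ne_zero, mul_comm]
      exact h3
    rw [← h2]
    exact ((u⁻¹ : R'ˣ) : R').2
  exact isUnit_of_dvd_one (S.retr 1 h1)

/-- `X₁ R' ∩ B = X₁ B`.  (`b = X₁ r` gives `X₂ b G⁻¹ = p r`; use `retr`.) -/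
theorem Sheet.dvd_of_div_mem (H : NodeData p g X₁ X₂) (S : Sheet p t i R') {b : B}
    (h : algebraMap B E b / algebraMap B E X₁ ∈ R') : X₁ ∣ b := by
  obtain ⟨G, hGE, hG, hG0⟩ := Quot_natCast_mul H
  haveI := H.isDomain
  have hX1 : algebraMap B E X₁ ≠ 0 := Quot_map_ne_zero H
  have hX2 : algebraMap B E X₂ ≠ 0 := Quot_map_ne_zero H.symm
  have hp0 : (p : E) ≠ 0 := H.natCast_ne_zero
  have h1 : algebraMap B E (X₂ * b) / (p : E) ∈ R' := by
    have e : algebraMap B E (X₂ * b) / (p : E) =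
        algebraMap B E b / algebraMap B E X₁ * algebraMap B E (G : B) := by
      rw [map_mul]
      field_simp
      linear_combination (algebraMap B E b) * hGE
    rw [e]
    exact R'.mul_mem h (R'.algebraMap_mem _)
  obtain ⟨c, hc⟩ := S.retr _ h1
  have h2 : X₂ * (b * G) = X₂ * (X₁ * c) := by
    calc X₂ * (b * G) = (X₂ * b) * G := by ring
      _ = ((p : B) * G) * c := by rw [hc]; ring
      _ = X₂ * (X₁ * c) := by rw [← hG]; ring
  have h3 : b * G = X₁ * c := mul_left_cancel₀ H.prime₂.ne_zero h2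
  exact (Units.dvd_mul_right).1 ⟨c, h3⟩

theorem Sheet.dvd_iff (H : NodeData p g X₁ X₂) (S : Sheet p t i R') (b : B) :
    algebraMap B R' X₁ ∣ algebraMap B R' b ↔ X₁ ∣ b := by
  constructor
  · rintro ⟨r, hr⟩
    apply S.dvd_of_div_mem H
    have h1 : algebraMap B E b = algebraMap B E X₁ * (r : E) := congrArg Subtype.val hr
    rw [h1, mul_div_cancel_left₀ _ (Quot_map_ne_zero H)]
    exact r.2
  · exact fun h => map_dvd _ h

/-- `R'` dominates `B`.  (`b r = 1`, `r = b' + p r'` gives `p ∣ 1 - b b'` by `retr`.) -/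
theorem Sheet.isUnit_iff (H : NodeData p g X₁ X₂) (S : Sheet p t i R') (b : B) :
    IsUnit (algebraMap B R' b) ↔ IsUnit b := by
  constructor
  · rintro ⟨u, hu⟩
    haveI := H.loc
    obtain ⟨b', r', hr', hmem⟩ := Quot_decomp H S ((u⁻¹ : R'ˣ) : R')
    have h1 : algebraMap B E b * (((u⁻¹ : R'ˣ) : R') : E) = 1 := by
      have h3 : ((u : R') : E) * (((u⁻¹ : R'ˣ) : R') : E) = 1 := by
        rw [← Subalgebra.coe_mul, Units.mul_inv, Subalgebra.coe_one]
      rw [hu] at h3
      exact h3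
    have h2 : algebraMap B E (1 - b * b') / (p : E) ∈ R' := by
      have e : algebraMap B E (1 - b * b') / (p : E) =
          algebraMap B E b * (((((u⁻¹ : R'ˣ) : R') : E) - algebraMap B E b') / (p : E)) := by
        rw [map_sub, map_one, map_mul, ← h1]
        ring
      rw [e]
      exact R'.mul_mem (R'.algebraMap_mem _) hmem
    obtain ⟨c, hc⟩ := S.retr _ h2
    have h3 : b * b' + (p : B) * c = 1 := by rw [← hc]; ring
    rcases IsLocalRing.isUnit_or_isUnit_of_add_one h3 with h4 | h4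
    · exact isUnit_of_mul_isUnit_left h4
    · exact absurd (isUnit_of_mul_isUnit_left h4) H.not_isUnit_natCast
  · exact fun h => h.map _

/-- a unit of `R'` is congruent modulo `p` to a unit of `B`. -/
theorem Sheet.exists_unit (H : NodeData p g X₁ X₂) (S : Sheet p t i R') (ε : R'ˣ) :
    ∃ b : Bˣ, (((ε : R') : E) - algebraMap B E (b : B)) / (p : E) ∈ R' := by
  haveI := S.loc
  obtain ⟨b, r', hr', hmem⟩ := Quot_decomp H S (ε : R')
  have h1 : IsUnit (algebraMap B R' b + (p : R') * r') := hr' ▸ ε.isUnit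
  rcases IsLocalRing.isUnit_or_isUnit_of_isUnit_add h1 with h2 | h2
  · obtain ⟨u, hu⟩ := (S.isUnit_iff H b).1 h2
    exact ⟨u, by rw [hu]; exact hmem⟩
  · exact absurd (isUnit_of_mul_isUnit_left h2) (Quot_not_isUnit_natCast H S)

/-- an element of `R'` not divisible by `X₁` is congruent modulo `p` to an element of `B` not
divisible by `X₁`. -/
theorem Sheet.exists_not_dvd (H : NodeData p g X₁ X₂) (S : Sheet p t i R') {r : R'}
    (hr : ¬ algebraMap B R' X₁ ∣ r) :
    ∃ b : B, ¬ X₁ ∣ b ∧ ((r : E) - algebraMap B E b) / (p : E) ∈ R' := by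
  obtain ⟨b, r', hr', hmem⟩ := Quot_decomp H S r
  refine ⟨b, fun hb => hr ?_, hmem⟩
  rw [hr']
  exact dvd_add (map_dvd _ hb) (Dvd.dvd.mul_right (Quot_dvd_natCast H R') _)

theorem Sheet.quot_surjective (H : NodeData p g X₁ X₂) (S : Sheet p t i R') :
    Function.Surjective
      ((Ideal.Quotient.mk (Ideal.span {algebraMap B R' X₁})).comp (algebraMap B R')) := by
  intro x
  obtain ⟨r, rfl⟩ := Ideal.Quotient.mk_surjective x
  obtain ⟨b, r', hr', -⟩ := Quot_decomp H S r
  refine ⟨b, ?_⟩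
  rw [RingHom.comp_apply, Ideal.Quotient.eq, Ideal.mem_span_singleton, hr']
  have e : algebraMap B R' b - (algebraMap B R' b + (p : R') * r') = (p : R') * (-r') := by ring
  rw [e]
  exact Dvd.dvd.mul_right (Quot_dvd_natCast H R') _

theorem Sheet.quot_ker (H : NodeData p g X₁ X₂) (S : Sheet p t i R') :
    RingHom.ker ((Ideal.Quotient.mk (Ideal.span {algebraMap B R' X₁})).comp (algebraMap B R')) =
      Ideal.span {X₁} := by
  ext b
  rw [RingHom.mem_ker, RingHom.comp_apply, Ideal.Quotient.eq_zero_iff_mem,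
    Ideal.mem_span_singleton, Ideal.mem_span_singleton, S.dvd_iff H]

theorem Sheet.prime (H : NodeData p g X₁ X₂) (S : Sheet p t i R') :
    Prime (algebraMap B R' X₁) := by
  refine ⟨?_, ?_, ?_⟩
  · intro h0
    exact Quot_map_ne_zero H (congrArg Subtype.val h0)
  · exact fun h => H.prime₁.not_isUnit ((S.isUnit_iff H X₁).1 h)
  · intro r s hrs
    by_contra hcon
    rw [not_or] at hcon
    obtain ⟨b, r', hr', -⟩ := Quot_decomp H S r
    obtain ⟨c, s', hs', -⟩ := Quot_decomp H S s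
    have hp := Quot_dvd_natCast H R'
    have hb : ¬ X₁ ∣ b := by
      intro hb
      apply hcon.1
      rw [hr']
      exact dvd_add (map_dvd _ hb) (Dvd.dvd.mul_right hp _)
    have hc : ¬ X₁ ∣ c := by
      intro hc
      apply hcon.2
      rw [hs']
      exact dvd_add (map_dvd _ hc) (Dvd.dvd.mul_right hp _)
    have h1 : algebraMap B R' X₁ ∣ algebraMap B R' (b * c) := by
      have e : algebraMap B R' (b * c) = r * s - (p : R') * (r' * s + algebraMap B R' b * s') := by
        rw [map_mul]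
        conv_rhs => rw [hr', hs']
        ring
      rw [e]
      exact dvd_sub hrs (Dvd.dvd.mul_right hp _)
    rcases H.prime₁.dvd_or_dvd ((S.dvd_iff H _).1 h1) with h2 | h2
    · exact hb h2
    · exact hc h2

theorem Sheet.pid (H : NodeData p g X₁ X₂) (S : Sheet p t i R') :
    IsPrincipalIdealRing (R' ⧸ Ideal.span {algebraMap B R' X₁}) := by
  haveI := H.pid₁
  have hker : ∀ a ∈ Ideal.span {X₁},
      ((Ideal.Quotient.mk (Ideal.span {algebraMap B R' X₁})).comp (algebraMap B R')) a = 0 := by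
    intro a ha
    rw [← S.quot_ker H] at ha
    exact ha
  refine IsPrincipalIdealRing.of_surjective (Ideal.Quotient.lift (Ideal.span {X₁}) _ hker) ?_
  exact Ideal.Quotient.lift_surjective_of_surjective _ hker (S.quot_surjective H)

theorem Sheet.ufd (H : NodeData p g X₁ X₂) (S : Sheet p t i R') :
    UniqueFactorizationMonoid R' := by
  haveI := S.noeth
  haveI := S.loc
  exact Fermat.Agent.GR.E.ufd_of_quotient_isPrincipalIdealRing _ (S.prime H) (S.pid H)

theorem Sheet.not_dvd (H : NodeData p g X₁ X₂) (S : Sheet p t i R') :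
    ¬ algebraMap B R' X₁ ∣ algebraMap B R' X₂ := by
  rw [S.dvd_iff H]
  exact H.not_dvd

/-- the prime divisors of `p` in `R'` are `X₁` and `X₂`. -/
theorem Sheet.dvd_of_prime_dvd (H : NodeData p g X₁ X₂) (S : Sheet p t i R') {f : R'}
    (hf : Prime f) (h : f ∣ (p : R')) :
    Associated f (algebraMap B R' X₁) ∨ Associated f (algebraMap B R' X₂) := by
  obtain ⟨G, hG⟩ := H.mul_eq
  have h1 : f ∣ algebraMap B R' X₁ * algebraMap B R' X₂ := by
    rw [← map_mul, hG, map_mul, map_natCast]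
    exact Dvd.dvd.mul_right h _
  rcases hf.dvd_or_dvd h1 with h2 | h2
  · exact Or.inl (hf.associated_of_dvd (S.prime H) h2)
  · exact Or.inr (hf.associated_of_dvd (S.prime H.symm) h2)

end Fermat.Agent.LP.PL
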