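import Fermat.Agent.LP.PL.Abs.Defs

/-!
# PL-ABS, file `Small`: the radical of `p` in the integral closure of `B` in `E`

`Small B p e` means: `e` is integral over `B` and some power of `e` is `p` times an integral
element.  It is an ideal of the integral closure, stable under `g`; it meets `B` in `p B`
(because `B / p B` is reduced: `p B = X₁ B ∩ X₂ B`) and it is contained in the maximal ideal of every
valuation subring of `E` containing `B` in which `p` is not a unit.
-/

set_option autoImplicit false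

namespace Fermat.Agent.LP.PL

variable {B E : Type*} [CommRing B] [Field E] [Algebra B E] {p : ℕ}

/-- unfolding: `e` is integral and `e ^ k = p x` with `x` integral. -/
theorem Small_iff_exists {e : E} :
    Small B p e ↔ IsIntegral B e ∧ ∃ k : ℕ, ∃ x : E, IsIntegral B x ∧ e ^ k = (p : E) * x := by
  constructor
  · rintro ⟨h, k, hk⟩
    refine ⟨h, k, ?_⟩
    obtain ⟨x, hx⟩ := Ideal.mem_span_singleton'.1 hk
    refine ⟨x, x.2, ?_⟩
    have := congrArg (Subtype.val) hx
    simp only [MulMemClass.coe_mul, SubmonoidClass.coe_pow] at this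
    rw [← this, mul_comm]
    rfl
  · rintro ⟨h, k, x, hx, hk⟩
    refine ⟨h, k, ?_⟩
    refine Ideal.mem_span_singleton'.2 ⟨⟨x, hx⟩, ?_⟩
    apply Subtype.ext
    simp only [MulMemClass.coe_mul, SubmonoidClass.coe_pow]
    rw [hk, mul_comm]
    rfl

theorem small_iff (hp0 : (p : E) ≠ 0) {e : E} :
    Small B p e ↔ IsIntegral B e ∧ ∃ k : ℕ, IsIntegral B (e ^ k / (p : E)) := by
  rw [Small_iff_exists]
  constructor
  · rintro ⟨h, k, x, hx, hk⟩
    refine ⟨h, k, ?_⟩
    rw [hk, mul_div_cancel_left₀ _ hp0]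
    exact hx
  · rintro ⟨h, k, hk⟩
    exact ⟨h, k, _, hk, by rw [mul_div_cancel₀ _ hp0]⟩

theorem Small.isIntegral {e : E} (h : Small B p e) : IsIntegral B e := h.1

theorem small_zero : Small B p (0 : E) := by
  exact ⟨(integralClosure B E).zero_mem, (radP B E p).zero_mem⟩

theorem small_natCast : Small B p (p : E) := by
  refine ⟨natCast_mem _ p, Ideal.le_radical ?_⟩
  exact Ideal.mem_span_singleton_self _

theorem Small.add {e f : E} (he : Small B p e) (hf : Small B p f) : Small B p (e + f) := by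
  obtain ⟨h1, h2⟩ := he
  obtain ⟨h3, h4⟩ := hf
  exact ⟨add_mem h1 h3, (radP B E p).add_mem h2 h4⟩

theorem Small.neg {e : E} (he : Small B p e) : Small B p (-e) := by
  obtain ⟨h1, h2⟩ := he
  exact ⟨neg_mem h1, (radP B E p).neg_mem h2⟩

theorem Small.sub {e f : E} (he : Small B p e) (hf : Small B p f) : Small B p (e - f) := by
  rw [sub_eq_add_neg]
  exact he.add hf.neg

theorem Small.mul_left {e f : E} (he : IsIntegral B e) (hf : Small B p f) :
    Small B p (e * f) := by
  obtain ⟨h3, h4⟩ := hf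
  exact ⟨mul_mem he h3, (radP B E p).mul_mem_left ⟨e, he⟩ h4⟩

theorem Small.mul_right {e f : E} (he : Small B p e) (hf : IsIntegral B f) :
    Small B p (e * f) := by
  rw [mul_comm]
  exact Small.mul_left hf he

theorem Small.sum {ι : Type*} (s : Finset ι) (f : ι → E) (h : ∀ i ∈ s, Small B p (f i)) :
    Small B p (∑ i ∈ s, f i) := by
  classical
  induction s using Finset.induction_on with
  | empty => simpa using small_zero
  | insert a s ha ih =>
    rw [Finset.sum_insert ha]
    exact (h a (Finset.mem_insert_self a s)).add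
      (ih fun i hi => h i (Finset.mem_insert_of_mem hi))

/-- A ring automorphism of `E` which fixes `B` preserves integrality over `B`. -/
theorem isIntegral_map {g : E ≃+* E} (hg : ∀ b : B, g (algebraMap B E b) = algebraMap B E b)
    {e : E} (he : IsIntegral B e) : IsIntegral B (g e) := by
  exact he.map (AlgHom.mk (g : E →+* E) hg : E →ₐ[B] E)

theorem Small.map {g : E ≃+* E} (hg : ∀ b : B, g (algebraMap B E b) = algebraMap B E b)
    {e : E} (he : Small B p e) : Small B p (g e) := by
  obtain ⟨h, k, x, hx, hk⟩ := Small_iff_exists.1 he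
  refine Small_iff_exists.2 ⟨isIntegral_map hg h, k, g x, isIntegral_map hg hx, ?_⟩
  rw [← map_pow, hk, map_mul, map_natCast]

/-- integral elements lie in every valuation subring containing the image of `B`. -/
theorem Small_mem_of_isIntegral {e : E} (he : IsIntegral B e) {V : ValuationSubring E}
    (hV : ∀ b : B, algebraMap B E b ∈ V) : e ∈ V := by
  obtain ⟨P, hP, hPe⟩ := he
  let f : B →+* V := (algebraMap B E).codRestrict V.toSubring hV
  have h1 : IsIntegral V e := by
    refine ⟨P.map f, hP.map f, ?_⟩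
    rw [Polynomial.eval₂_map]
    exact hPe
  obtain ⟨y, rfl⟩ := (IsIntegrallyClosed.isIntegral_iff (R := V) (K := E)).1 h1
  exact y.2

/-- `Small` elements lie in the maximal ideal of every valuation subring over `p`. -/
theorem Small.mem_nonunits {e : E} (he : Small B p e) {V : ValuationSubring E}
    (hV : ∀ b : B, algebraMap B E b ∈ V) (hp : (p : E) ∈ V.nonunits) : e ∈ V.nonunits := by
  obtain ⟨h, k, x, hx, hk⟩ := Small_iff_exists.1 he
  have hxV := Small_mem_of_isIntegral hx hV
  rw [ValuationSubring.mem_nonunits_iff] at hp ⊢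
  have h1 : V.valuation (e ^ k) < 1 := by
    rw [hk, map_mul]
    exact mul_lt_one_of_lt_of_le hp ((V.valuation_le_one_iff _).2 hxV)
  rw [map_pow] at h1
  by_contra h2
  rw [not_lt] at h2
  exact absurd (one_le_pow₀ h2) (not_le.2 h1)

variable {g : E ≃+* E} {X₁ X₂ : B}

theorem Small_isDomain (H : NodeData p g X₁ X₂) : IsDomain B :=
  Function.Injective.isDomain (algebraMap B E) H.inj

theorem NodeData.symm (H : NodeData p g X₁ X₂) : NodeData p g X₂ X₁ := by
  have := Small_isDomain H
  obtain ⟨G, hG⟩ := H.mul_eq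
  exact
    { inj := H.inj
      loc := H.loc
      noeth := H.noeth
      mul_eq := ⟨G, by rw [mul_comm, hG]⟩
      prime₁ := H.prime₂
      prime₂ := H.prime₁
      pid₁ := H.pid₂
      pid₂ := H.pid₁
      not_dvd := fun h => H.not_dvd (H.prime₂.associated_of_dvd H.prime₁ h).symm.dvd
      fix := H.fix
      closed := H.closed
      frac := H.frac
      pow := H.pow }

theorem NodeData.natCast_ne_zero (H : NodeData p g X₁ X₂) : (p : E) ≠ 0 := by
  have := Small_isDomain H
  intro h0
  have h1 : (p : B) = 0 := by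
    apply H.inj
    rw [map_natCast, h0, map_zero]
  obtain ⟨G, hG⟩ := H.mul_eq
  rw [h1, zero_mul] at hG
  rcases mul_eq_zero.1 hG with h | h
  · exact H.prime₁.ne_zero h
  · exact H.prime₂.ne_zero h

theorem NodeData.isDomain (H : NodeData p g X₁ X₂) : IsDomain B :=
  Small_isDomain H

/-- `p` lies in the maximal ideal of `B`. -/
theorem NodeData.not_isUnit_natCast (H : NodeData p g X₁ X₂) : ¬ IsUnit (p : B) := by
  intro hu
  obtain ⟨G, hG⟩ := H.mul_eq
  have h1 : IsUnit (X₁ * X₂) := by
    rw [hG]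
    exact hu.mul G.isUnit
  exact H.prime₁.not_isUnit (isUnit_of_mul_isUnit_left h1)

/-- an integer prime to `p` is a unit of `B`. -/
theorem NodeData.isUnit_intCast (H : NodeData p g X₁ X₂) (hp : p.Prime) {n : ℤ}
    (hn : ¬ (p : ℤ) ∣ n) : IsUnit (n : B) := by
  have := H.loc
  have hcop : IsCoprime n (p : ℤ) :=
    ((Nat.prime_iff_prime_int.1 hp).coprime_iff_not_dvd.2 hn).symm
  obtain ⟨a, c, hac⟩ := hcop
  have h1 : (a : B) * (n : B) + (c : B) * (p : B) = 1 := by
    have := congrArg (Int.cast : ℤ → B) hac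
    push_cast at this
    exact this
  rcases IsLocalRing.isUnit_or_isUnit_of_add_one h1 with h | h
  · exact isUnit_of_mul_isUnit_right h
  · exact absurd (isUnit_of_mul_isUnit_right h) H.not_isUnit_natCast

/-- `X₁ B ∩ X₂ B = p B`. -/
theorem NodeData.natCast_dvd (H : NodeData p g X₁ X₂) {b : B} (h₁ : X₁ ∣ b) (h₂ : X₂ ∣ b) :
    (p : B) ∣ b := by
  obtain ⟨c, rfl⟩ := h₁
  obtain ⟨G, hG⟩ := H.mul_eq
  rcases H.prime₂.dvd_or_dvd h₂ with h | h
  · exact absurd h H.symm.not_dvd
  · obtain ⟨d, rfl⟩ := h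
    exact ⟨(G : B) * d, by rw [← mul_assoc, hG, mul_assoc]⟩

/-- `B / p B` is reduced. -/
theorem NodeData.natCast_dvd_of_pow (H : NodeData p g X₁ X₂) {b : B} {k : ℕ}
    (h : (p : B) ∣ b ^ k) : (p : B) ∣ b := by
  obtain ⟨G, hG⟩ := H.mul_eq
  have hp : (p : B) = X₁ * X₂ * ((G⁻¹ : Bˣ) : B) := by
    rw [hG, mul_assoc, Units.mul_inv, mul_one]
  have h1 : X₁ ∣ (p : B) := ⟨X₂ * ((G⁻¹ : Bˣ) : B), by rw [hp]; ring⟩
  have h2 : X₂ ∣ (p : B) := ⟨X₁ * ((G⁻¹ : Bˣ) : B), by rw [hp]; ring⟩
  exact H.natCast_dvd (H.prime₁.dvd_of_dvd_pow (h1.trans h)) (H.prime₂.dvd_of_dvd_pow (h2.trans h))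

/-- `rad(p) ∩ B = p B`. -/
theorem Small.dvd (H : NodeData p g X₁ X₂) {b : B} (h : Small B p (algebraMap B E b)) :
    (p : B) ∣ b := by
  have hp0 := H.natCast_ne_zero
  obtain ⟨-, k, hk⟩ := (small_iff hp0).1 h
  have hfix : g (algebraMap B E b ^ k / (p : E)) = algebraMap B E b ^ k / (p : E) := by
    rw [map_div₀, map_pow, H.fix, map_natCast]
  obtain ⟨c, hc⟩ := H.closed _ hfix hk
  refine H.natCast_dvd_of_pow (k := k) ⟨c, H.inj ?_⟩
  rw [map_pow, map_mul, map_natCast, hc]
  field_simp

/-- `1` is not small. -/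
theorem NodeData.not_small_intCast (H : NodeData p g X₁ X₂) (hp : p.Prime) {n : ℤ}
    (hn : ¬ (p : ℤ) ∣ n) : ¬ Small B p (n : E) := by
  intro h
  have e : (n : E) = algebraMap B E (n : B) := (map_intCast (algebraMap B E) n).symm
  rw [e] at h
  exact H.not_isUnit_natCast (isUnit_of_dvd_unit (Small.dvd H h) (H.isUnit_intCast hp hn))

end Fermat.Agent.LP.PL
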