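import Fermat.Agent.LP.PL.Abs.Quot
import Fermat.Agent.LP.PL.Abs.Phi
import Fermat.Agent.GR.E.E2

/-!
# PL-ABS, file `Val`: the valuation subrings of `E` above `B_(X₁)`

* the localization of a sheet `R'` at the prime element `X₁` is a valuation subring `V` of `E`
  (`GR.E.exists_valuationSubring_of_prime`), with uniformizer `X₁` (equivalently `p`), lying over
  `B_(X₁)`, with the same residue field, and `t - i ∈ 𝔪_V`;
* conversely a valuation subring `V'` of `E` over `B_(X₁)` contains `t`, `t - i ∈ 𝔪_{V'}` for exactly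
  one `i < p`, and `V'` is the localization at `X₁` of any sheet at `t = i`;
* `g` permutes these valuation subrings: the index of `g^{-j} V'` is `i + j`.
-/

set_option autoImplicit false

namespace Fermat.Agent.LP.PL

variable {B E : Type*} [CommRing B] [Field E] [Algebra B E] {p : ℕ}
variable {g : E ≃+* E} {X₁ X₂ : B} {t : E} {i : ℕ} {R' : Subalgebra B E}

theorem Sheet.exists_val (H : NodeData p g X₁ X₂) (S : Sheet p t i R') :
    ∃ V : ValuationSubring E, ∀ e : E, e ∈ V ↔ AtPrime R' X₁ e := by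
  have := S.frac
  have := S.ufd H
  exact GR.E.exists_valuationSubring_of_prime (F := E) (algebraMap B R' X₁) (S.prime H)

/-- nonunits of a valuation subring. -/
theorem ValA_mem_nonunits_iff (V : ValuationSubring E) (e : E) :
    e ∈ V.nonunits ↔ e = 0 ∨ e⁻¹ ∉ V := by
  rw [ValuationSubring.mem_nonunits_iff]
  by_cases he : e = 0
  · simp [he]
  · rw [← ValuationSubring.valuation_le_one_iff, map_inv₀, not_le]
    have hv : V.valuation e ≠ 0 := (Valuation.ne_zero_iff _).2 he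
    constructor
    · intro h
      right
      exact (one_lt_inv₀ (zero_lt_iff.2 hv)).2 h
    · rintro (h | h)
      · exact absurd h he
      · exact (one_lt_inv₀ (zero_lt_iff.2 hv)).1 h

theorem ValA_mul_mem_nonunits (V : ValuationSubring E) {a b : E} (ha : a ∈ V.nonunits)
    (hb : b ∈ V) : a * b ∈ V.nonunits := by
  rw [ValuationSubring.mem_nonunits_iff] at ha ⊢
  rw [map_mul]
  exact mul_lt_one_of_lt_of_le ha ((ValuationSubring.valuation_le_one_iff V b).2 hb)

theorem ValA_add_mem_nonunits (V : ValuationSubring E) {a b : E} (ha : a ∈ V.nonunits)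
    (hb : b ∈ V.nonunits) : a + b ∈ V.nonunits := by
  rw [ValuationSubring.mem_nonunits_iff] at ha hb ⊢
  exact lt_of_le_of_lt (Valuation.map_add _ a b) (max_lt ha hb)

theorem ValA_X₁_ne_zero (H : NodeData p g X₁ X₂) : algebraMap B E X₁ ≠ 0 := by
  rw [Ne, ← map_zero (algebraMap B E)]
  exact fun h => H.prime₁.ne_zero (H.inj h)

theorem ValA_X₂_ne_zero (H : NodeData p g X₁ X₂) : algebraMap B E X₂ ≠ 0 := by
  rw [Ne, ← map_zero (algebraMap B E)]
  exact fun h => H.prime₂.ne_zero (H.inj h)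

theorem ValA_p_ne_zero (H : NodeData p g X₁ X₂) : (p : E) ≠ 0 := by
  obtain ⟨G, hG⟩ := H.mul_eq
  intro h
  have h1 : algebraMap B E (X₁ * X₂) = 0 := by
    rw [hG, map_mul, map_natCast, h, zero_mul]
  rw [map_mul] at h1
  exact (mul_ne_zero (ValA_X₁_ne_zero H) (ValA_X₂_ne_zero H)) h1

section

variable {V : ValuationSubring E}

theorem Sheet.le_val (hV : ∀ e : E, e ∈ V ↔ AtPrime R' X₁ e) (H : NodeData p g X₁ X₂)
    (S : Sheet p t i R') {r : E} (hr : r ∈ R') : r ∈ V := by
  rw [hV]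
  exact ⟨⟨r, hr⟩, 1, fun h => (S.prime H).not_isUnit (isUnit_of_dvd_one h), by simp⟩

/-- an element of `R'` prime to `X₁` is a unit of `V`. -/
theorem ValA_inv_mem (hV : ∀ e : E, e ∈ V ↔ AtPrime R' X₁ e) {r : R'}
    (hr : ¬ algebraMap B R' X₁ ∣ r) : ((r : E))⁻¹ ∈ V := by
  rw [hV]
  have hr0 : (r : E) ≠ 0 := by
    intro h
    apply hr
    have : r = 0 := Subtype.ext h
    rw [this]
    exact dvd_zero _
  exact ⟨1, r, hr, by rw [inv_mul_cancel₀ hr0]; rfl⟩

theorem ValA_X₁_mem_nonunits (hV : ∀ e : E, e ∈ V ↔ AtPrime R' X₁ e) (H : NodeData p g X₁ X₂) :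
    algebraMap B E X₁ ∈ V.nonunits := by
  rw [ValA_mem_nonunits_iff]
  right
  rw [hV]
  rintro ⟨s, r, hr, h⟩
  apply hr
  refine ⟨s, Subtype.ext ?_⟩
  show (r : E) = algebraMap B E X₁ * (s : E)
  rw [← h, ← mul_assoc, mul_inv_cancel₀ (ValA_X₁_ne_zero H), one_mul]

/-- `X₁` is a uniformizer of `V`. -/
theorem Sheet.mem_nonunits_iff (hV : ∀ e : E, e ∈ V ↔ AtPrime R' X₁ e) (H : NodeData p g X₁ X₂)
    (S : Sheet p t i R') (e : E) : e ∈ V.nonunits ↔ e / algebraMap B E X₁ ∈ V := by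
  have hX := ValA_X₁_ne_zero H
  constructor
  · intro he
    have heV : e ∈ V := ValuationSubring.nonunits_subset he
    rw [ValA_mem_nonunits_iff] at he
    rcases he with he | he
    · rw [he, zero_div]; exact V.zero_mem
    · by_cases he0 : e = 0
      · rw [he0, zero_div]; exact V.zero_mem
      rw [hV] at heV he ⊢
      obtain ⟨s, r, hr, h⟩ := heV
      by_cases hs : algebraMap B R' X₁ ∣ s
      · obtain ⟨s', hs'⟩ := hs
        refine ⟨s', r, hr, ?_⟩
        have : (s : E) = algebraMap B E X₁ * (s' : E) := by rw [hs']; rfl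
        rw [div_mul_eq_mul_div, h, this, mul_div_cancel_left₀ _ hX]
      · exact absurd ⟨r, s, hs, by rw [← h, ← mul_assoc, inv_mul_cancel₀ he0, one_mul]⟩ he
  · intro he
    have := ValA_mul_mem_nonunits V (ValA_X₁_mem_nonunits hV H) he
    rwa [mul_div_cancel₀ _ hX] at this

/-- `X₂` is a unit of `V`. -/
theorem Sheet.inv_mem_val (hV : ∀ e : E, e ∈ V ↔ AtPrime R' X₁ e) (H : NodeData p g X₁ X₂)
    (S : Sheet p t i R') : (algebraMap B E X₂)⁻¹ ∈ V :=
  ValA_inv_mem hV (S.not_dvd H)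

/-- `p` is a uniformizer of `V`. -/
theorem Sheet.mem_nonunits_iff' (hV : ∀ e : E, e ∈ V ↔ AtPrime R' X₁ e) (H : NodeData p g X₁ X₂)
    (S : Sheet p t i R') (e : E) : e ∈ V.nonunits ↔ e / (p : E) ∈ V := by
  rw [S.mem_nonunits_iff hV H]
  obtain ⟨G, hG⟩ := H.mul_eq
  have hX₁ := ValA_X₁_ne_zero H
  have hX₂ := ValA_X₂_ne_zero H
  have hp := ValA_p_ne_zero H
  have hG' : algebraMap B E X₁ * algebraMap B E X₂ = (p : E) * algebraMap B E (G : B) := by
    rw [← map_mul, hG, map_mul, map_natCast]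
  have hGi : algebraMap B E (G : B) * algebraMap B E ((G⁻¹ : Bˣ) : B) = 1 := by
    rw [← map_mul, Units.mul_inv, map_one]
  have hG0 : algebraMap B E (G : B) ≠ 0 := left_ne_zero_of_mul_eq_one hGi
  have hB : ∀ b : B, algebraMap B E b ∈ V := fun b => S.le_val hV H (R'.algebraMap_mem b)
  constructor
  · intro h
    have h1 := mul_mem (mul_mem h (hB G)) (S.inv_mem_val hV H)
    have h2 : e / algebraMap B E X₁ * algebraMap B E (G : B) * (algebraMap B E X₂)⁻¹ =
        e / (p : E) := by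
      rw [div_mul_eq_mul_div, ← div_eq_mul_inv, div_div, div_eq_div_iff (mul_ne_zero hX₁ hX₂) hp,
        hG']
      ring
    rwa [h2] at h1
  · intro h
    have h1 := mul_mem (mul_mem h (hB X₂)) (hB ((G⁻¹ : Bˣ) : B))
    have h2 : e / (p : E) * algebraMap B E X₂ * algebraMap B E ((G⁻¹ : Bˣ) : B) =
        e / algebraMap B E X₁ := by
      rw [div_mul_eq_mul_div, div_mul_eq_mul_div, div_eq_div_iff hp hX₁]
      linear_combination e * algebraMap B E ((G⁻¹ : Bˣ) : B) * hG' + e * (p : E) * hGi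
    rwa [h2] at h1

theorem Sheet.valOver (hV : ∀ e : E, e ∈ V ↔ AtPrime R' X₁ e) (H : NodeData p g X₁ X₂)
    (S : Sheet p t i R') : ValOver X₁ V := by
  have hX := ValA_X₁_ne_zero H
  have hB : ∀ b : B, algebraMap B E b ∈ V := fun b => S.le_val hV H (R'.algebraMap_mem b)
  refine ⟨hB, fun b => ?_⟩
  rw [S.mem_nonunits_iff hV H]
  constructor
  · intro h
    rw [hV] at h
    obtain ⟨s, r, hr, h⟩ := h
    rw [← S.dvd_iff H]
    have h1 : algebraMap B R' X₁ ∣ algebraMap B R' b * r := by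
      refine ⟨s, Subtype.ext ?_⟩
      show algebraMap B E b * (r : E) = algebraMap B E X₁ * (s : E)
      rw [← h, div_mul_eq_mul_div, mul_div_cancel₀ _ hX]
    exact ((S.prime H).dvd_or_dvd h1).resolve_right hr
  · rintro ⟨c, rfl⟩
    rw [map_mul, mul_div_cancel_left₀ _ hX]
    exact hB c

theorem Sheet.sub_mem_nonunits (hV : ∀ e : E, e ∈ V ↔ AtPrime R' X₁ e) (H : NodeData p g X₁ X₂)
    (S : Sheet p t i R') : t - (i : E) ∈ V.nonunits := by
  rw [S.mem_nonunits_iff' hV H]
  exact S.le_val hV H S.t_mem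

/-- the residue field of `V` is the fraction field of `B / X₁`. -/
theorem Sheet.residue (hV : ∀ e : E, e ∈ V ↔ AtPrime R' X₁ e) (H : NodeData p g X₁ X₂)
    (S : Sheet p t i R') {e : E} (he : e ∈ V) :
    ∃ a b : B, ¬ X₁ ∣ b ∧ e - algebraMap B E a / algebraMap B E b ∈ V.nonunits := by
  have hp := ValA_p_ne_zero H
  have hB : ∀ b : B, algebraMap B E b ∈ V := fun b => S.le_val hV H (R'.algebraMap_mem b)
  rw [hV] at he
  obtain ⟨s, r, hr, h⟩ := he
  obtain ⟨b, hb, hrb⟩ := S.exists_not_dvd H hr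
  obtain ⟨a, hsa⟩ := S.decomp s s.2
  refine ⟨a, b, hb, ?_⟩
  rw [S.mem_nonunits_iff' hV H]
  have hri : ((r : E))⁻¹ ∈ V := ValA_inv_mem hV hr
  have hbi : (algebraMap B E b)⁻¹ ∈ V :=
    ValA_inv_mem hV (r := algebraMap B R' b) (fun hd => hb ((S.dvd_iff H b).1 hd))
  have hr0 : (r : E) ≠ 0 := by
    intro h0
    apply hr
    have : r = 0 := Subtype.ext h0
    rw [this]
    exact dvd_zero _
  have hb0 : algebraMap B E b ≠ 0 := by
    intro h0
    apply hb
    have : b = 0 := H.inj (by rw [h0, map_zero])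
    rw [this]
    exact dvd_zero _
  have he' : e = (s : E) / (r : E) := by rw [eq_div_iff hr0, h]
  have key : (e - algebraMap B E a / algebraMap B E b) / (p : E) =
      ((((s : E) - algebraMap B E a) / (p : E)) * algebraMap B E b -
        algebraMap B E a * (((r : E) - algebraMap B E b) / (p : E))) * ((r : E))⁻¹ *
          (algebraMap B E b)⁻¹ := by
    rw [he']
    field_simp
    ring
  rw [key]
  exact mul_mem (mul_mem (sub_mem (mul_mem (S.le_val hV H hsa) (hB b))
    (mul_mem (hB a) (S.le_val hV H hrb))) hri) hbi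

/-- the same for a unit of `V`. -/
theorem Sheet.residue_unit (hV : ∀ e : E, e ∈ V ↔ AtPrime R' X₁ e) (H : NodeData p g X₁ X₂)
    (S : Sheet p t i R') {e : E} (he : e ∈ V) (he' : e⁻¹ ∈ V) (he0 : e ≠ 0) :
    ∃ a b : B, ¬ X₁ ∣ a ∧ ¬ X₁ ∣ b ∧ e - algebraMap B E a / algebraMap B E b ∈ V.nonunits := by
  obtain ⟨a, b, hb, hab⟩ := S.residue hV H he
  refine ⟨a, b, fun ha => ?_, hb, hab⟩
  have hbi : (algebraMap B E b)⁻¹ ∈ V :=
    ValA_inv_mem hV (r := algebraMap B R' b) (fun hd => hb ((S.dvd_iff H b).1 hd))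
  have h1 : algebraMap B E a ∈ V.nonunits := ((S.valOver hV H).nonunit_iff a).2 ha
  have h2 : algebraMap B E a / algebraMap B E b ∈ V.nonunits := by
    rw [div_eq_mul_inv]
    exact ValA_mul_mem_nonunits V h1 hbi
  have h3 := ValA_add_mem_nonunits V hab h2
  rw [sub_add_cancel, ValA_mem_nonunits_iff] at h3
  rcases h3 with h3 | h3
  · exact he0 h3
  · exact h3 he'

end

theorem Val_mem_of_mem_nonunits {V : ValuationSubring E} {e : E} (h : e ∈ V.nonunits) : e ∈ V :=
  ValuationSubring.nonunits_subset h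

theorem Val_add_mem_nonunits {V : ValuationSubring E} {a b : E} (ha : a ∈ V.nonunits)
    (hb : b ∈ V.nonunits) : a + b ∈ V.nonunits := by
  rw [ValuationSubring.mem_nonunits_iff] at *
  exact Valuation.map_add_lt _ ha hb

theorem Val_neg_mem_nonunits {V : ValuationSubring E} {a : E} (ha : a ∈ V.nonunits) :
    -a ∈ V.nonunits := by
  rw [ValuationSubring.mem_nonunits_iff] at *
  rwa [Valuation.map_neg]

theorem Val_sub_mem_nonunits {V : ValuationSubring E} {a b : E} (ha : a ∈ V.nonunits)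
    (hb : b ∈ V.nonunits) : a - b ∈ V.nonunits := by
  rw [sub_eq_add_neg]
  exact Val_add_mem_nonunits ha (Val_neg_mem_nonunits hb)

theorem Val_mul_mem_nonunits {V : ValuationSubring E} {a b : E} (ha : a ∈ V.nonunits)
    (hb : b ∈ V) : a * b ∈ V.nonunits := by
  rw [ValuationSubring.mem_nonunits_iff] at *
  rw [← V.valuation_le_one_iff] at hb
  rw [map_mul]
  exact lt_of_le_of_lt (mul_le_of_le_one_right' hb) ha

theorem Val_inv_mem {V : ValuationSubring E} {e : E} (h : e ∉ V.nonunits) : e⁻¹ ∈ V := by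
  by_contra hc
  exact h ((ValuationSubring.mem_nonunits_iff_or V).2 (Or.inr hc))

theorem Val_exists_mem_nonunits_of_prod {V : ValuationSubring E} {ι : Type*} (s : Finset ι)
    (f : ι → E) (h : ∏ i ∈ s, f i ∈ V.nonunits) : ∃ i ∈ s, f i ∈ V.nonunits := by
  by_contra hc
  push Not at hc
  rw [ValuationSubring.mem_nonunits_iff, map_prod] at h
  have h1 : (1 : V.ValueGroup) ≤ ∏ i ∈ s, V.valuation (f i) := by
    refine Finset.one_le_prod' fun i hi => ?_
    have := hc i hi
    rw [ValuationSubring.mem_nonunits_iff, not_lt] at this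
    exact this
  exact absurd h (not_lt.2 h1)

theorem Val_dvd_natCast (H : NodeData p g X₁ X₂) : X₁ ∣ (p : B) := by
  obtain ⟨G, hG⟩ := H.mul_eq
  refine ⟨X₂ * ((G⁻¹ : Bˣ) : B), ?_⟩
  rw [← mul_assoc, hG, mul_assoc, Units.mul_inv, mul_one]

theorem ValOver.natCast_mem_nonunits (H : NodeData p g X₁ X₂) {V : ValuationSubring E}
    (h : ValOver X₁ V) : (p : E) ∈ V.nonunits := by
  have h1 := (h.nonunit_iff (p : B)).2 (Val_dvd_natCast H)
  rwa [map_natCast] at h1

theorem Val_isIntegral_aeval {t : E} (ht : IsIntegral B t) (f : Polynomial ℤ) :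
    IsIntegral B (Polynomial.aeval t f) := by
  rw [Polynomial.aeval_eq_sum_range]
  refine IsIntegral.sum _ fun n _ => ?_
  rw [zsmul_eq_mul]
  refine IsIntegral.mul ?_ (ht.pow n)
  rw [← map_intCast (algebraMap B E)]
  exact isIntegral_algebraMap

/-- `∏_{i < p} (t - i) = t ^ p - t + p f(t)` is small, hence lies in `𝔪_V`. -/
theorem exists_index (H : NodeData p g X₁ X₂) (hp : p.Prime) (T : ASGen B p g t)
    {V : ValuationSubring E} (hV : ∀ b : B, algebraMap B E b ∈ V) (hpV : (p : E) ∈ V.nonunits) :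
    ∃ i < p, t - (i : E) ∈ V.nonunits := by
  obtain ⟨f, hf⟩ := Phi_prod_sub_natCast' hp t
  have h1 : Small B p (t ^ p - t + (p : E) * Polynomial.aeval t f) :=
    T.as.add (small_natCast.mul_right (Val_isIntegral_aeval T.int f))
  rw [← hf] at h1
  obtain ⟨i, hi, hi'⟩ := Val_exists_mem_nonunits_of_prod _ _ (h1.mem_nonunits hV hpV)
  exact ⟨i, Finset.mem_range.1 hi, hi'⟩

theorem Val_adjoin_le {V : ValuationSubring E} (hV : ∀ b : B, algebraMap B E b ∈ V) {t : E}
    (ht : t ∈ V) {s : E} (hs : s ∈ Algebra.adjoin B ({t} : Set E)) : s ∈ V := by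
  let W : Subalgebra B E := { V.toSubring with algebraMap_mem' := hV }
  have h1 : Algebra.adjoin B ({t} : Set E) ≤ W := Algebra.adjoin_le (by
    rintro _ rfl
    exact ht)
  exact h1 hs

/-- `s = s(i) + (t - i) s₁` for `s ∈ B[t]`. -/
theorem Val_decomp (t : E) (i : ℕ) {s : E} (hs : s ∈ Algebra.adjoin B ({t} : Set E)) :
    ∃ (b : B) (s₁ : E), s₁ ∈ Algebra.adjoin B ({t} : Set E) ∧
      s = algebraMap B E b + (t - (i : E)) * s₁ := by
  rw [Algebra.adjoin_singleton_eq_range_aeval] at hs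
  obtain ⟨f, rfl⟩ := hs
  refine ⟨f.eval (i : B), Polynomial.aeval t (f /ₘ (Polynomial.X - Polynomial.C (i : B))), ?_, ?_⟩
  · rw [Algebra.adjoin_singleton_eq_range_aeval]
    exact ⟨_, rfl⟩
  · have h1 := Polynomial.modByMonic_add_div f (Polynomial.X - Polynomial.C (i : B))
    rw [Polynomial.modByMonic_X_sub_C_eq_C_eval] at h1
    have h2 := congrArg (Polynomial.aeval t) h1
    rw [map_add, map_mul, map_sub, Polynomial.aeval_C, Polynomial.aeval_X, Polynomial.aeval_C,
      map_natCast] at h2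
    exact h2.symm

theorem Val_t_mem (H : NodeData p g X₁ X₂) (S : Sheet p t i R') : t ∈ R' := by
  have hp0 := H.natCast_ne_zero
  have e : t = (p : E) * ((t - (i : E)) / (p : E)) + (i : E) := by
    field_simp
    ring
  rw [e]
  exact add_mem (mul_mem (natCast_mem R' p) S.t_mem) (natCast_mem R' i)

theorem Val_not_isUnit_natCast (H : NodeData p g X₁ X₂) (S : Sheet p t i R') :
    ¬ IsUnit (p : R') := by
  intro h
  rw [← map_natCast (algebraMap B R')] at h
  exact H.not_isUnit_natCast ((S.isUnit_iff H (p : B)).1 h)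

/-- `R' ⊆ V'`. -/
theorem Val_sheet_le (H : NodeData p g X₁ X₂) (S : Sheet p t i R') {V' : ValuationSubring E}
    (h : ValOver X₁ V') (ht : t - (i : E) ∈ V'.nonunits) {r : E} (hr : r ∈ R') : r ∈ V' := by
  have hp0 := H.natCast_ne_zero
  have := S.loc
  have htV : t ∈ V' := by
    have e : t = (t - (i : E)) + (i : E) := by ring
    rw [e]
    exact add_mem (Val_mem_of_mem_nonunits ht) (natCast_mem V' i)
  have hadjR : Algebra.adjoin B ({t} : Set E) ≤ R' := Algebra.adjoin_le (by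
    rintro _ rfl
    exact Val_t_mem H S)
  obtain ⟨s, hs, hs0, hsinv, hrs⟩ := S.desc r hr
  obtain ⟨b, s₁, hs₁, hsb⟩ := Val_decomp t i hs
  -- `b` is a unit of `R'`
  have hsu : IsUnit (⟨s, hadjR hs⟩ : R') :=
    isUnit_iff_exists_inv.2 ⟨⟨s⁻¹, hsinv⟩, Subtype.ext (mul_inv_cancel₀ hs0)⟩
  have e1 : (⟨s, hadjR hs⟩ : R') = algebraMap B R' b +
      (p : R') * (⟨(t - (i : E)) / (p : E), S.t_mem⟩ * ⟨s₁, hadjR hs₁⟩) := by
    apply Subtype.ext
    show s = algebraMap B E b + (p : E) * ((t - (i : E)) / (p : E) * s₁)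
    rw [hsb]
    field_simp
  rw [e1] at hsu
  have hbu : IsUnit (algebraMap B R' b) := by
    rcases IsLocalRing.isUnit_or_isUnit_of_isUnit_add hsu with h1 | h1
    · exact h1
    · exact absurd (isUnit_of_mul_isUnit_left h1) (Val_not_isUnit_natCast H S)
  have hbB : IsUnit b := (S.isUnit_iff H b).1 hbu
  have hbV : algebraMap B E b ∉ V'.nonunits := by
    intro hc
    exact H.prime₁.not_isUnit (isUnit_of_dvd_unit ((h.nonunit_iff b).1 hc) hbB)
  have hsV : s ∉ V'.nonunits := by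
    intro hc
    apply hbV
    have e2 : algebraMap B E b = s - (t - (i : E)) * s₁ := by rw [hsb]; ring
    rw [e2]
    exact Val_sub_mem_nonunits hc (Val_mul_mem_nonunits ht (Val_adjoin_le h.mem htV hs₁))
  have e3 : r = r * s * s⁻¹ := by
    field_simp
  rw [e3]
  exact mul_mem (Val_adjoin_le h.mem htV hrs) (Val_inv_mem hsV)

/-- `𝔪_{V'} ∩ R' ⊆ X₁ R'`. -/
theorem Val_dvd_of_mem_nonunits (H : NodeData p g X₁ X₂) (S : Sheet p t i R')
    {V' : ValuationSubring E} (h : ValOver X₁ V') (ht : t - (i : E) ∈ V'.nonunits) (r : R')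
    (hr : (r : E) ∈ V'.nonunits) : algebraMap B R' X₁ ∣ r := by
  have hp0 := H.natCast_ne_zero
  obtain ⟨b, hb⟩ := S.decomp r r.2
  have e1 : algebraMap B E b = (r : E) - (p : E) * (((r : E) - algebraMap B E b) / (p : E)) := by
    field_simp
    ring
  have hbV : algebraMap B E b ∈ V'.nonunits := by
    rw [e1]
    exact Val_sub_mem_nonunits hr
      (Val_mul_mem_nonunits (h.natCast_mem_nonunits H) (Val_sheet_le H S h ht hb))
  obtain ⟨c, rfl⟩ := (h.nonunit_iff b).1 hbV
  obtain ⟨d, hd⟩ := Val_dvd_natCast H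
  refine ⟨algebraMap B R' c + algebraMap B R' d * ⟨_, hb⟩, Subtype.ext ?_⟩
  show (r : E) = algebraMap B E X₁ * (algebraMap B E c + algebraMap B E d *
    (((r : E) - algebraMap B E (X₁ * c)) / (p : E)))
  have hd' : (p : E) = algebraMap B E X₁ * algebraMap B E d := by
    rw [← map_mul, ← hd, map_natCast]
  rw [mul_add, ← mul_assoc, ← hd', map_mul]
  field_simp
  ring

/-- the localization of `R'` at `X₁` is contained in `V'`. -/
theorem Val_mem_of_atPrime (H : NodeData p g X₁ X₂) (S : Sheet p t i R')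
    {V' : ValuationSubring E} (h : ValOver X₁ V') (ht : t - (i : E) ∈ V'.nonunits) {e : E}
    (he : AtPrime R' X₁ e) : e ∈ V' := by
  obtain ⟨a, c, hc, hac⟩ := he
  have hc0 : (c : E) ≠ 0 := by
    intro h0
    apply hc
    have : c = 0 := Subtype.ext h0
    rw [this]
    exact dvd_zero _
  have hcV : (c : E) ∉ V'.nonunits := fun hcn => hc (Val_dvd_of_mem_nonunits H S h ht c hcn)
  have e1 : e = (a : E) * (c : E)⁻¹ := by
    rw [← hac]
    field_simp
  rw [e1]
  exact mul_mem (Val_sheet_le H S h ht a.2) (Val_inv_mem hcV)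

/-- UNIQUENESS.  `R' ⊆ V'`: write `r = a / s` as in `Sheet.desc`; `s = b + (t - i) s₁`
(`SheetEx_decomp`, reprove it here or move it), `b` is a unit of `R'` because `t - i ∈ p R'`, hence a
unit of `B` (`Sheet.isUnit_iff`), so `s` is a unit of `V'`.  `𝔪_{V'} ∩ R' = X₁ R'` by `decomp`.  So the
localization `V` of `R'` at `X₁` is contained in `V'`; if `e ∈ V'`, `e ∉ V` then `e⁻¹ ∈ X₁ V ⊆ 𝔪_{V'}`:
contradiction. -/
theorem Sheet.val_unique (H : NodeData p g X₁ X₂) (S : Sheet p t i R') {V' : ValuationSubring E}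
    (h : ValOver X₁ V') (ht : t - (i : E) ∈ V'.nonunits) (e : E) :
    e ∈ V' ↔ AtPrime R' X₁ e := by
  refine ⟨fun he => ?_, fun he => Val_mem_of_atPrime H S h ht he⟩
  obtain ⟨V, hV⟩ := S.exists_val H
  rw [← hV]
  by_contra hc
  have he0 : e ≠ 0 := by
    rintro rfl
    exact hc V.zero_mem
  have h1 : e⁻¹ ∈ V.nonunits :=
    (ValuationSubring.mem_nonunits_iff_or V).2 (Or.inr (by rwa [inv_inv]))
  have h2 : e⁻¹ / algebraMap B E X₁ ∈ V := (S.mem_nonunits_iff hV H e⁻¹).1 h1
  have h3 : e⁻¹ / algebraMap B E X₁ ∈ V' := Val_mem_of_atPrime H S h ht ((hV _).1 h2)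
  have hX : algebraMap B E X₁ ∈ V'.nonunits := (h.nonunit_iff X₁).2 dvd_rfl
  have hX0 : algebraMap B E X₁ ≠ 0 := by
    intro h0
    exact H.prime₁.ne_zero (H.inj (by rw [h0, map_zero]))
  have h4 : e⁻¹ ∈ V'.nonunits := by
    have e1 : e⁻¹ = algebraMap B E X₁ * (e⁻¹ / algebraMap B E X₁) := by
      field_simp
    rw [e1]
    exact Val_mul_mem_nonunits hX h3
  rcases (ValuationSubring.mem_nonunits_iff_or V').1 h4 with h5 | h5
  · exact he0 (inv_eq_zero.1 h5)
  · exact h5 (by rwa [inv_inv])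

theorem mem_nonunits_comap (f : E ≃+* E) (V : ValuationSubring E) (e : E) :
    e ∈ (V.comap (f : E →+* E)).nonunits ↔ f e ∈ V.nonunits := by
  rw [ValuationSubring.mem_nonunits_iff_or, ValuationSubring.mem_nonunits_iff_or,
    ValuationSubring.mem_comap]
  have h1 : (f : E →+* E) e⁻¹ = (f e)⁻¹ := map_inv₀ f e
  rw [h1, EmbeddingLike.map_eq_zero_iff]

theorem Val_pow_fix (H : NodeData p g X₁ X₂) (j : ℕ) (b : B) :
    (g ^ j) (algebraMap B E b) = algebraMap B E b := by
  induction j with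
  | zero => rfl
  | succ j ih =>
    rw [pow_succ]
    show (g ^ j) (g (algebraMap B E b)) = _
    rw [H.fix, ih]

theorem ValOver.comap (H : NodeData p g X₁ X₂) {X : B} {V : ValuationSubring E} (h : ValOver X V)
    (j : ℕ) : ValOver X (V.comap ((g ^ j : E ≃+* E) : E →+* E)) := by
  refine ⟨fun b => ?_, fun b => ?_⟩
  · rw [ValuationSubring.mem_comap]
    show (g ^ j) (algebraMap B E b) ∈ V
    rw [Val_pow_fix H]
    exact h.mem b
  · rw [mem_nonunits_comap, Val_pow_fix H]
    exact h.nonunit_iff b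

/-- the index of `g^{-j} V` is `i + j`. -/
theorem index_comap (H : NodeData p g X₁ X₂) (T : ASGen B p g t) {V : ValuationSubring E}
    (hV : ∀ b : B, algebraMap B E b ∈ V) (hpV : (p : E) ∈ V.nonunits)
    (ht : t - (i : E) ∈ V.nonunits) (j : ℕ) :
    t - ((i + j : ℕ) : E) ∈ (V.comap ((g ^ j : E ≃+* E) : E →+* E)).nonunits := by
  rw [mem_nonunits_comap, map_sub, map_natCast]
  have e1 : (g ^ j) t - ((i + j : ℕ) : E) = ((g ^ j) t - t - (j : E)) + (t - (i : E)) := by
    push_cast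
    ring
  rw [e1]
  exact Val_add_mem_nonunits ((T.small_iterate H j).mem_nonunits hV hpV) ht

/-- changing the index by a multiple of `p`. -/
theorem index_mod {V : ValuationSubring E} (hpV : (p : E) ∈ V.nonunits) {i : ℕ}
    (ht : t - (i : E) ∈ V.nonunits) : t - ((i % p : ℕ) : E) ∈ V.nonunits := by
  have e0 : (i : E) = ((i % p : ℕ) : E) + (p : E) * ((i / p : ℕ) : E) := by
    rw [← Nat.cast_mul, ← Nat.cast_add, Nat.mod_add_div]
  have e1 : t - ((i % p : ℕ) : E) = (t - (i : E)) + (p : E) * ((i / p : ℕ) : E) := by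
    rw [e0]
    ring
  rw [e1]
  exact Val_add_mem_nonunits ht (Val_mul_mem_nonunits hpV (natCast_mem V _))

end Fermat.Agent.LP.PL
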